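import Fermat.Agent.MW.DivisibleC
import Fermat.Agent.Mono.Torsion

/-!
# `J₀(N)(ℚ̄)` is divisible

Every class of `J₀(N)(ℚ̄)` is `m` times another one, by descent from `ℂ`. The case `m = 2` is
used in the Kummer argument for weak Mordell–Weil.
-/

noncomputable section

open AlgebraicCurve ModularCurve

namespace Fermat.Agent.MW

variable (N : ℕ) [NeZero N]

/-- Every class of `J₀(N)(ℚ̄)` is `m` times another one. -/
theorem exists_nsmul_jZero {m : ℕ} (hm : 0 < m) (z : JZero N) : ∃ y : JZero N, m • y = z := by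
  obtain ⟨w, hw⟩ := exists_nsmul_C N hm (Mono.baseChange N z)
  have : NeZero m := ⟨hm.ne'⟩
  have := Mono.finite_torsionC (m := m) (X0.curveField N) (Mono.placeData N)
  have hfin : ((fun σ : ℂ ≃ₐ[ℚ] ℂ => σ • w) ''
      (Mono.fixK complexEmbedding : Set (ℂ ≃ₐ[ℚ] ℂ))).Finite := by
    refine ((Set.toFinite (Pic0.torsion ℂ (Mono.FC N) m : Set (Mono.JC N))).image
      fun t => w + t).subset ?_
    rintro _ ⟨σ, hσ, rfl⟩
    refine ⟨σ • w - w, ?_, add_sub_cancel w (σ • w)⟩
    rw [SetLike.mem_coe, Pic0.mem_torsion]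
    have hz : σ • Mono.baseChange N z = Mono.baseChange N z := by
      rw [← Mono.baseChange_smul N σ 1 (fun a => (hσ a).symm), one_smul]
    have hs : σ • (m • w) = m • (σ • w) :=
      map_nsmul (DistribSMul.toAddMonoidHom (Mono.JC N) σ) m w
    rw [← hw, hs] at hz
    rw [natCast_zsmul, nsmul_sub, hz, sub_self]
  obtain ⟨y, hy⟩ := Mono.mem_range_baseChange_of_finite N w hfin
  exact ⟨y, Mono.baseChange_injective N (by rw [map_nsmul, hy, hw])⟩

/-- Every class of `J₀(N)(ℚ̄)` is twice another one. -/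
theorem exists_half (z : JZero N) : ∃ y : JZero N, y + y = z := by
  obtain ⟨y, hy⟩ := exists_nsmul_jZero N two_pos z
  exact ⟨y, by rw [← two_nsmul, hy]⟩

end Fermat.Agent.MW

end
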