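import Fermat.Agent.MW.Phi

/-!
# The quadratic height dominates the height of the Kummer vector

The height of the Kummer vector of a class is bounded by its quadratic height, up to a
constant, so the quadratic height has the Northcott property on rational classes.
-/

noncomputable section

open AlgebraicCurve Fermat.Agent.FF

namespace Fermat.Agent.MW

variable {F : Type*} [Field F] [Algebra Qbar F] [IsFunctionField Qbar F] (Φ : Frame Qbar F)

section Product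

variable (n n' : ℕ)

/-- The coordinates of a product of basis functions. -/
def Frame.prodCo (i : Fin (Φ.dim n)) (j : Fin (Φ.dim n')) (t : Fin (Φ.dim (n + n'))) : Qbar :=
  Φ.co (n + n') (Φ.fn n i * Φ.fn n' j) t

theorem Frame.sum_prodCo (i : Fin (Φ.dim n)) (j : Fin (Φ.dim n')) (P : Place Qbar F) :
    ∑ t, Φ.prodCo n n' i j t * Φ.X (n + n') P t = Φ.X n P i * Φ.X n' P j := by
  have hmem : Φ.fn n i * Φ.fn n' j ∈ riemannRochSpace (Φ.DO (n + n')) := by
    rw [← Φ.DO_add]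
    exact mul_mem_rrSpace_add (Φ.fn_mem n i) (Φ.fn_mem n' j)
  simp only [Frame.prodCo]
  rw [← Φ.ev_eq_sum _ P hmem, show Φ.DO (n + n') P = Φ.DO n P + Φ.DO n' P by
    rw [← Φ.DO_add, Finsupp.add_apply], ev_mul P (Φ.fn_mem n i P) (Φ.fn_mem n' j P)]
  rfl

variable {ν : ℕ}

/-- The product of two tensors, in coordinates of the sum of the levels. -/
def Frame.tMul (c : (Fin ν → Fin (Φ.dim n)) → Qbar) (c' : (Fin ν → Fin (Φ.dim n')) → Qbar) :
    (Fin ν → Fin (Φ.dim (n + n'))) → Qbar := fun a =>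
  ∑ p : (Fin ν → Fin (Φ.dim n)) × (Fin ν → Fin (Φ.dim n')),
    (∏ l, Φ.prodCo n n' (p.1 l) (p.2 l) (a l)) * (c p.1 * c' p.2)

theorem Frame.tEval_tMul (c : (Fin ν → Fin (Φ.dim n)) → Qbar)
    (c' : (Fin ν → Fin (Φ.dim n')) → Qbar) (T : Fin ν → Place Qbar F) :
    Φ.tEval (Φ.tMul n n' c c') T = Φ.tEval c T * Φ.tEval c' T := by
  simp only [Frame.tEval, Frame.tMul, Finset.sum_mul]
  rw [Finset.sum_comm, Fintype.sum_prod_type]
  refine Finset.sum_congr rfl fun θ _ => ?_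
  rw [Finset.mul_sum]
  refine Finset.sum_congr rfl fun θ' _ => ?_
  have h : ∏ l, (∑ t, Φ.prodCo n n' (θ l) (θ' l) t * Φ.X (n + n') (T l) t) =
      ∏ l, (Φ.X n (T l) (θ l) * Φ.X n' (T l) (θ' l)) :=
    Finset.prod_congr rfl fun l _ => Φ.sum_prodCo n n' _ _ _
  rw [Finset.prod_univ_sum, Fintype.piFinset_univ, Finset.prod_mul_distrib] at h
  calc ∑ a : Fin ν → Fin (Φ.dim (n + n')),
        (∏ l, Φ.prodCo n n' (θ l) (θ' l) (a l)) * (c θ * c' θ') * ∏ l, Φ.X (n + n') (T l) (a l)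
      = (c θ * c' θ') * ∑ a : Fin ν → Fin (Φ.dim (n + n')),
          ∏ l, Φ.prodCo n n' (θ l) (θ' l) (a l) * Φ.X (n + n') (T l) (a l) := by
        rw [Finset.mul_sum]
        refine Finset.sum_congr rfl fun a _ => ?_
        rw [Finset.prod_mul_distrib]; ring
    _ = _ := by rw [h]; ring

omit [IsFunctionField Qbar F] in
theorem Frame.exists_hgt_tMul_le (ν : ℕ) :
    ∃ C : ℝ, ∀ (c : (Fin ν → Fin (Φ.dim n)) → Qbar) (c' : (Fin ν → Fin (Φ.dim n')) → Qbar),
      hgt (Φ.tMul n n' c c') ≤ hgt c + hgt c' + C := by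
  obtain ⟨C, hC⟩ := exists_hgt_linear_le
    (fun (a : Fin ν → Fin (Φ.dim (n + n')))
      (p : (Fin ν → Fin (Φ.dim n)) × (Fin ν → Fin (Φ.dim n'))) =>
      ∏ l, Φ.prodCo n n' (p.1 l) (p.2 l) (a l))
  refine ⟨C, fun c c' => (hC fun p => c p.1 * c' p.2).trans ?_⟩
  linarith [hgt_mul_le c c']

end Product

section Cert

variable (n m : ℕ) {ν : ℕ}

/-- The tensor with entries the products of coordinates. -/
def prodTensor {N : ℕ} (x : Fin ν → Fin N → Qbar) : (Fin ν → Fin N) → Qbar :=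
  fun η => ∏ l, x l (η l)

theorem prodTensor_ne_zero {N : ℕ} {x : Fin ν → Fin N → Qbar} (hx : ∀ l, x l ≠ 0) :
    prodTensor x ≠ 0 := blockTensor_ne_zero hx

theorem Frame.tEval_prodTensor (x : Fin ν → Fin (Φ.dim m) → Qbar) (T : Fin ν → Place Qbar F) :
    Φ.tEval (prodTensor x) T = ∏ l, ∑ i, x l i * Φ.X m (T l) i := by
  rw [Finset.prod_univ_sum, Fintype.piFinset_univ]
  simp only [Frame.tEval, prodTensor, Finset.prod_mul_distrib]

/-- The block types of the certificate. -/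
abbrev certIdx (ν : ℕ) (N M : ℕ) : Option (Fin ν) → Type := fun b =>
  b.elim (Fin ν → Fin N) fun _ => Fin M

instance (ν N M : ℕ) : ∀ b, Fintype (certIdx ν N M b)
  | none => inferInstanceAs (Fintype (Fin ν → Fin N))
  | some _ => inferInstanceAs (Fintype (Fin M))

/-- The height of a product of tensors dominates. -/
theorem Frame.exists_hgt_tMul_ge (ν : ℕ) :
    ∃ C : ℝ, ∀ (c : (Fin ν → Fin (Φ.dim n)) → Qbar) (x : Fin ν → Fin (Φ.dim m) → Qbar),
      c ≠ 0 → (∀ l, x l ≠ 0) →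
      hgt c + ∑ l, hgt (x l) ≤ hgt (Φ.tMul n m c (prodTensor x)) + C := by
  have hform : ∀ a, IsForm (ι := certIdx ν (Φ.dim n) (Φ.dim m)) 1
      (fun y => Φ.tMul n m (y none) (prodTensor fun l => y (some l)) a) := fun a => by
    refine (IsForm.sum Finset.univ (F := fun (p : (Fin ν → Fin (Φ.dim n)) ×
        (Fin ν → Fin (Φ.dim m))) (y : (b : _) → certIdx ν (Φ.dim n) (Φ.dim m) b → Qbar) =>
      (∏ l, Φ.prodCo n m (p.1 l) (p.2 l) (a l)) *
        blockTensor y (fun b => match b with | none => p.1 | some l => p.2 l))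
      fun p _ => (IsForm.coord _).smul _).congr fun y => ?_
    simp only [Frame.tMul, prodTensor, blockTensor, Fintype.prod_option]
  obtain ⟨C, hC⟩ := hgt_ge_of_no_zero hform Set.univ (fun y hy _ => by
    have hc2 : prodTensor (fun l => y (some l)) ≠ 0 := prodTensor_ne_zero fun l => hy (some l)
    obtain ⟨T, -, -, h1, h2⟩ := Φ.exists_tEval_ne_zero _ _ (hy none) hc2 ∅
    by_contra hall
    push Not at hall
    refine mul_ne_zero h1 h2 ?_
    refine (Φ.tEval_tMul n m (y none) _ T).symm.trans ?_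
    exact Finset.sum_eq_zero fun a _ => mul_eq_zero_of_left (hall a) _)
  refine ⟨C, fun c x hc hx => ?_⟩
  have h := hC (fun b => match b with | none => c | some l => x l) (Set.mem_univ _)
    (fun b => match b with | none => hc | some l => hx l)
  rw [Fintype.sum_option] at h
  simpa using h

end Cert

/-- The height of the Kummer vector is bounded by the Plücker heights. -/
theorem Frame.exists_hgt_vec_le :
    ∃ C : ℝ, ∀ (z : Pic0 Qbar F) (d : KumData Φ z),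
      hgt d.vec + nn F * hgt (Φ.co (mm F) d.w) ≤
        Φ.GH (mm F) (kk F) d.A + Φ.GH (mm F) (kk F) d.B + C := by
  obtain ⟨C₁, hC₁⟩ := Φ.exists_hgt_tMul_ge (nlev F) (mm F) (nn F)
  obtain ⟨C₂, hC₂⟩ := Φ.exists_hgt_tMul_le (kk F * mm F) (kk F * mm F) (nn F)
  refine ⟨C₁ + C₂, fun z d => ?_⟩
  have hw : Φ.co (mm F) d.w ≠ 0 := fun h => d.w_ne ((Φ.co_eq_zero_iff _ d.w_mem).mp h)
  have h1 := hC₁ d.vec (fun _ => Φ.co (mm F) d.w) d.vec_ne_zero fun _ => hw
  rw [Finset.sum_const, Finset.card_univ, Fintype.card_fin, nsmul_eq_mul] at h1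
  have h2 :=
    hC₂ (plk fun i => Φ.co (kk F * mm F) (d.e i)) (plk fun i => Φ.co (kk F * mm F) (d.e' i))
  have hfr : ∀ {E : Multiset (Place Qbar F)}, E.card = dd F →
      Module.finrank Qbar (Φ.VK (mm F) (kk F) E) = nn F := fun {E} hE => by
    have h := Φ.finrank_VK (mm F) (kk F) (E := E) (by have := kk_mm_big (F := F); omega)
    unfold nn; omega
  rw [Φ.GH_eq (mm F) (kk F) d.e_li (fun i => Φ.coord_mem _ _ (d.e_mem i)) (hfr d.cardA),
    Φ.GH_eq (mm F) (kk F) d.e'_li (fun i => Φ.coord_mem _ _ (d.e'_mem i)) (hfr d.cardB)] at h2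
  have key : ∀ (L : ℕ) (_ : L = kk F * mm F + kk F * mm F)
      (a : (Fin (nn F) → Fin (Φ.dim L)) → Qbar)
      (b : (Fin (nn F) → Fin (Φ.dim (kk F * mm F + kk F * mm F))) → Qbar),
      (∀ T, Φ.tEval a T = Φ.tEval b T) → hgt a = hgt b := by
    rintro L rfl a b hab
    have : a - b = 0 := Φ.eq_zero_of_tEval (S := ∅) fun T _ => by
      have hT := hab T
      simp only [Frame.tEval, Pi.sub_apply, sub_mul, Finset.sum_sub_distrib] at hT ⊢
      rw [hT, sub_self]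
    rw [sub_eq_zero.mp this]
  have h3 := key _ nlev_add (Φ.tMul (nlev F) (mm F) d.vec (prodTensor fun _ => Φ.co (mm F) d.w))
    (Φ.tMul (kk F * mm F) (kk F * mm F)
      (plk fun i => Φ.co (kk F * mm F) (d.e i)) (plk fun i => Φ.co (kk F * mm F) (d.e' i)))
    fun T => by
    rw [Φ.tEval_tMul, Φ.tEval_tMul, Φ.tEval_prodTensor, ← d.tEval_vec T]
    congr 1
    exact Finset.prod_congr rfl fun l _ => (Φ.ev_eq_sum _ _ d.w_mem).symm
  rw [h3] at h1
  linarith

/-- If the pairings of `G` with the places of `E` are within `K` of half their heights, the pairing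
of `G` with `E` is within `#E * K` of half the height of `E`. -/
theorem Frame.abs_bb_add_half_le (m : ℕ) {G E : Multiset (Place Qbar F)} {K : ℝ}
    (h : ∀ Q ∈ E, |Φ.bsum m G Q + Φ.hX m Q / 2| ≤ K) :
    |Φ.bb m G E + Φ.hsum m E / 2| ≤ E.card * K := by
  have h' := abs_sum_map_sub_le (R := E) (f := fun Q => Φ.bsum m G Q + Φ.hX m Q / 2)
    (c := 0) (C := K) fun Q hQ => by simpa using h Q hQ
  simpa [Frame.bb, Frame.hsum, Multiset.sum_map_add, Multiset.sum_map_div] using h'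

/-- `L((k - 1) m O)` has dimension `nn - d`. -/
theorem Frame.dim_pred_kk_add : Φ.dim ((kk F - 1) * mm F) + dd F = nn F := by
  have h0 : 2 * gen Qbar F ≤ (kk F - 1) * mm F :=
    le_trans (by have := mm_bound (F := F); omega : 2 * gen Qbar F ≤ mm F)
      (Nat.le_mul_of_pos_left _ (by unfold kk; omega))
  have h1 := Φ.dim_eq ((kk F - 1) * mm F) (by omega)
  have h2 : (kk F - 1) * mm F + mm F = kk F * mm F := by
    rw [Nat.sub_mul, one_mul, Nat.sub_add_cancel (Nat.le_mul_of_pos_left _ (by unfold kk; omega))]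
  have : mm F = dd F + dd F := by unfold mm; omega
  have := kk_mm_big (F := F)
  unfold nn; omega

/-- A formula for the quadratic height on data in general position. -/
theorem Frame.exists_qH_formula :
    ∃ (C : ℝ) (S₀ : Finset (Place Qbar F)), ∀ (z : Pic0 Qbar F) (d : KumData Φ z),
      (d.A + d.B).Nodup → (∀ v ∈ S₀, v ∉ d.A + d.B) →
      |Φ.qH z - (Φ.GH (mm F) (kk F) d.A + Φ.GH (mm F) (kk F) d.B -
        nn F * hgt (Φ.co (mm F) d.w))| ≤ C := by
  classical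
  obtain ⟨F0, hF0, -⟩ := exists_member_avoiding (D := Φ.DO (dd F))
    (by rw [Φ.degree_DO]; unfold dd; push_cast; omega) (∅ : Finset (Place Qbar F))
  obtain ⟨F1, hF1, hF01⟩ := exists_member_avoiding (D := Φ.DO (dd F))
    (by rw [Φ.degree_DO]; unfold dd; push_cast; omega) F0.toFinset
  have hcF : ∀ {E : Multiset (Place Qbar F)}, LinEq (msDiv E) (Φ.DO (dd F)) → E.card = dd F :=
    fun {E} h => by
      have := h.degree_eq
      rw [degree_msDiv, Φ.degree_DO] at this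
      exact_mod_cast this
  obtain ⟨Q0, hQ0⟩ := ((F0 + F1).toFinset.finite_toSet).exists_notMem
  simp only [Finset.mem_coe, Multiset.mem_toFinset] at hQ0
  obtain ⟨w₀, hw₀, hw₀d⟩ : LinEq (msDiv (F0 + F1)) (Φ.DO (mm F)) := by
    have := hF0.add hF1
    rw [Φ.DO_add] at this
    rwa [msDiv_add, show mm F = dd F + dd F by unfold mm; omega]
  have h1mm : ∀ {w : F} {W : Multiset (Place Qbar F)}, msDiv W = Φ.DO (mm F) + divOf w →
      msDiv W = Φ.DO (1 * mm F) + divOf w := fun h => by rwa [one_mul]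
  obtain ⟨Cm, hCm'⟩ := Φ.exists_pairing_bound (mm F) (kk F) mm_bound (s := 1) (mm_kk (by norm_num))
  have hCm : ∀ {w : F} {W : Multiset (Place Qbar F)} (Q : Place Qbar F), w ≠ 0 →
      msDiv W = Φ.DO (mm F) + divOf w → Q ∉ W →
      |Φ.bsum (mm F) W Q + Φ.hX (mm F) Q + hgt (Φ.co (mm F) w)| ≤ Cm := by
    intro w W Q hw hW hQ
    have h := hCm' w W Q hw (Φ.mem_of_msDiv_eq hw (h1mm hW)) (h1mm hW) hQ
    rwa [one_mul, Nat.cast_one, one_mul] at h
  obtain ⟨Ci, hCi⟩ := Φ.exists_invariance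
  obtain ⟨Cg, hCg⟩ := Φ.exists_GH_formula (mm F) (kk F) mm_bound (dd F)
    (by unfold kk; omega)
  obtain ⟨Cw, hCw⟩ := Φ.exists_GH_formula (mm F) (kk F) mm_bound (mm F)
    (by unfold mm kk; omega)
  obtain ⟨Cp, hCp'⟩ := Φ.exists_GH_principal (mm F) (kk F) mm_bound (s := 1) (mm_kk (by norm_num))
  obtain ⟨Cb, hCb⟩ := Φ.exists_BP_spec
  set K := |Cm| + |Ci| + |hgt (Φ.co (mm F) w₀)| +
    |Φ.bsum (mm F) F0 Q0 - Φ.bsum (mm F) F1 Q0|
  refine ⟨|Cb| + |Φ.bb (mm F) F0 F1| + 4 * dd F * K + dd F * |Cm| + |Φ.hsum (mm F) F1| +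
    2 * |Cg| + |Cw| + |Cp|, (F0 + F1).toFinset, fun z d hnd hav => ?_⟩
  have hmem : ∀ v ∈ d.A + d.B, v ∉ F0 + F1 := fun v hv hv' =>
    hav v (Multiset.mem_toFinset.mpr hv') hv
  have hhalf : ∀ Q, Q ∉ F0 + F1 → |Φ.bsum (mm F) F0 Q + Φ.hX (mm F) Q / 2| ≤ K ∧
      |Φ.bsum (mm F) F1 Q + Φ.hX (mm F) Q / 2| ≤ K := fun Q hQ => by
    have h1 := hCm Q hw₀ hw₀d hQ
    rw [Φ.bsum_add] at h1
    have h2 := hCi F0 F1 {Q} {Q0} (hF0.trans hF1.symm) (by rw [hcF hF0]; omega) rfl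
      (by simp only [Multiset.card_singleton, dd]; omega) (fun P hP => by
        simp only [Multiset.mem_add, Multiset.mem_singleton] at hP
        rcases hP with rfl | rfl
        · exact hQ
        · exact hQ0)
    simp only [Φ.bb_singleton_right] at h2
    obtain ⟨a1, b1⟩ := abs_le.mp h1
    obtain ⟨a2, b2⟩ := abs_le.mp h2
    have := abs_nonneg Cm
    have := abs_nonneg Ci
    have := abs_nonneg (hgt (Φ.co (mm F) w₀))
    have := abs_nonneg (Φ.bsum (mm F) F0 Q0 - Φ.bsum (mm F) F1 Q0)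
    have := le_abs_self Cm
    have := le_abs_self Ci
    obtain ⟨a3, b3⟩ := abs_le.mp (le_refl |hgt (Φ.co (mm F) w₀)|)
    obtain ⟨a4, b4⟩ := abs_le.mp (le_refl |Φ.bsum (mm F) F0 Q0 - Φ.bsum (mm F) F1 Q0|)
    constructor <;> (rw [abs_le]; constructor <;> linarith)
  have hbbF : ∀ (E : Multiset (Place Qbar F)), E.card = dd F → (∀ v ∈ E, v ∈ d.A + d.B) →
      |Φ.bb (mm F) F0 E + Φ.hsum (mm F) E / 2| ≤ dd F * K ∧
      |Φ.bb (mm F) F1 E + Φ.hsum (mm F) E / 2| ≤ dd F * K := fun E hE hEm => hE ▸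
    ⟨Φ.abs_bb_add_half_le (mm F) fun Q hQ => (hhalf Q (hmem Q (hEm Q hQ))).1,
      Φ.abs_bb_add_half_le (mm F) fun Q hQ => (hhalf Q (hmem Q (hEm Q hQ))).2⟩
  obtain ⟨hA0, hA1⟩ := hbbF d.A d.cardA fun v hv => Multiset.mem_add.mpr (Or.inl hv)
  obtain ⟨hB0, hB1⟩ := hbbF d.B d.cardB fun v hv => Multiset.mem_add.mpr (Or.inr hv)
  -- the pairing
  obtain ⟨D, hD⟩ := Pic0.mk_surjective z
  have hr1 : IsRep z F0 d.A :=
    ⟨D, hD, (hF0.sub (LinEq.refl (msDiv d.A))).trans (d.repA D hD).symm⟩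
  have hr2 : IsRep z d.B F1 :=
    ⟨D, hD, ((LinEq.refl (msDiv d.B)).sub hF1).trans (d.repB D hD).symm⟩
  have hdisjAB : ∀ v ∈ d.A, v ∉ d.B := fun v hv hv' =>
    Multiset.disjoint_left.mp (Multiset.nodup_add.mp hnd).2.2 hv hv'
  have hdisj : DisjRep F0 d.A d.B F1 := fun v hv hv' => by
    rcases Multiset.mem_add.mp hv with h | h <;> rcases Multiset.mem_add.mp hv' with h' | h'
    · exact hmem v (Multiset.mem_add.mpr (Or.inr h')) (Multiset.mem_add.mpr (Or.inl h))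
    · exact hF01 v (Multiset.mem_toFinset.mpr h) h'
    · exact hdisjAB v h h'
    · exact hmem v (Multiset.mem_add.mpr (Or.inl h)) (Multiset.mem_add.mpr (Or.inr h'))
  have hq := hCb z z F0 d.A d.B F1 hr1 hr2 (by rw [hcF hF0]; omega) (by rw [d.cardB]; omega) hdisj
  simp only [Frame.pairVal, Φ.bb_comm (mm F) d.A F1] at hq
  -- the degree identity
  have hW : |Φ.bb (mm F) (d.A + d.B) F1 + Φ.hsum (mm F) F1 +
      dd F * hgt (Φ.co (mm F) d.w)| ≤ dd F * |Cm| := by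
    have := abs_sum_map_sub_le (R := F1) (f := fun Q => Φ.bsum (mm F) (d.A + d.B) Q + Φ.hX (mm F) Q)
      (c := -hgt (Φ.co (mm F) d.w)) (C := |Cm|) fun Q hQ => by
        rw [sub_neg_eq_add]
        refine (hCm Q d.w_ne d.w_div fun h => hmem Q h ?_).trans (le_abs_self _)
        exact Multiset.mem_add.mpr (Or.inr hQ)
    rw [Multiset.sum_map_add, hcF hF1] at this
    simpa [Frame.bb, Frame.hsum, sub_neg_eq_add] using this
  rw [Φ.bb_comm, Φ.bb_add_right] at hW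
  -- the Plücker heights
  have hgA := hCg d.A d.cardA (Multiset.nodup_add.mp hnd).1
  have hgB := hCg d.B d.cardB (Multiset.nodup_add.mp hnd).2.1
  have hgW := hCw (d.A + d.B) (by rw [Multiset.card_add, d.cardA, d.cardB]; unfold mm; omega) hnd
  have hsumW : Φ.hsum (mm F) (d.A + d.B) = Φ.hsum (mm F) d.A + Φ.hsum (mm F) d.B := by
    simp [Frame.hsum]
  rw [hsumW, Φ.bb_add_left, Φ.bb_add_right, Φ.bb_add_right, Φ.bb_comm (mm F) d.B d.A] at hgW
  have hp := hCp' d.w (d.A + d.B) d.w_ne (Φ.mem_of_msDiv_eq d.w_ne (h1mm d.w_div))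
    (h1mm d.w_div)
  rw [one_mul] at hp
  have hdim : (Φ.dim ((kk F - 1) * mm F) : ℝ) + dd F = nn F := by
    exact_mod_cast Φ.dim_pred_kk_add
  have hdim' : (Φ.dim ((kk F - 1) * mm F) : ℝ) = nn F - dd F := by linarith
  rw [hdim'] at hp
  rw [Frame.qH]
  obtain ⟨a0, b0⟩ := abs_le.mp hA0
  obtain ⟨a1, b1⟩ := abs_le.mp hA1
  obtain ⟨a2, b2⟩ := abs_le.mp hB0
  obtain ⟨a3, b3⟩ := abs_le.mp hB1
  obtain ⟨a4, b4⟩ := abs_le.mp hq
  obtain ⟨a5, b5⟩ := abs_le.mp hW
  obtain ⟨a6, b6⟩ := abs_le.mp hgA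
  obtain ⟨a7, b7⟩ := abs_le.mp hgB
  obtain ⟨a8, b8⟩ := abs_le.mp hgW
  obtain ⟨a9, b9⟩ := abs_le.mp hp
  obtain ⟨c1, c2⟩ := abs_le.mp (le_refl |Φ.bb (mm F) F0 F1|)
  obtain ⟨c3, c4⟩ := abs_le.mp (le_refl |Φ.hsum (mm F) F1|)
  rw [abs_le]
  constructor <;> linarith [le_abs_self Cb, le_abs_self Cg, le_abs_self Cw, le_abs_self Cp]

/-- The quadratic height dominates the height of the Kummer vector. -/
theorem Frame.exists_vec_le_qH :
    ∃ C : ℝ, ∀ (z : Pic0 Qbar F) (d : KumData Φ z), hgt d.vec ≤ Φ.qH z + C := by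
  obtain ⟨C₁, hC₁⟩ := Φ.exists_hgt_vec_le
  obtain ⟨C₂, S₀, hC₂⟩ := Φ.exists_qH_formula
  refine ⟨C₁ + C₂, fun z d => ?_⟩
  obtain ⟨d', hnd, hav⟩ := Φ.exists_kumData z S₀
  obtain ⟨c, hc, hcd⟩ := d'.exists_smul_eq d
  rw [hcd, hgt_smul _ hc]
  have h1 := hC₁ z d'
  obtain ⟨a, b⟩ := abs_le.mp (hC₂ z d' hnd hav)
  linarith

end Fermat.Agent.MW

end
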