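import Fermat.Prelude.Def_AlgebraicCurve_BaseChangeGalois
import Fermat.Agent.MW.Northcott

/-!
# Galois action and the Northcott property of the quadratic height

Galois transports Kummer vectors, so those of rational classes are rational; hence only
finitely many rational classes have bounded quadratic height, which is bounded below.
-/

noncomputable section

open AlgebraicCurve Fermat.Agent.FF

namespace Fermat.Agent.MW

variable {F : Type*} [Field F] [Algebra Qbar F] [IsFunctionField Qbar F]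

/-- A Galois action fixing the base point and the bases. -/
structure Arith (Φ : Frame Qbar F) where
  /-- The semilinear action. -/
  gal : (Qbar ≃ₐ[ℚ] Qbar) →* SemilinearAut Qbar F
  baseAut_gal : ∀ σ, SemilinearAut.baseAut (gal σ) = σ.toRingEquiv
  smul_O : ∀ σ, gal σ • Φ.O = Φ.O
  smul_fn : ∀ σ n i, gal σ • Φ.fn n i = Φ.fn n i

section Semilinear

omit [IsFunctionField Qbar F] in
theorem smul_smul_semilinear (g : SemilinearAut Qbar F) (c : Qbar) (f : F) :
    g • (c • f) = SemilinearAut.baseAut g c • (g • f) := by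
  rw [Algebra.smul_def, Algebra.smul_def, smul_mul', SemilinearAut.smul_algebraMap]

theorem divOf_semilinear (g : SemilinearAut Qbar F) (f : F) :
    divOf (K := Qbar) (g • f) = g • divOf f := by
  refine Finsupp.ext fun v => ?_
  rw [SemilinearAut.divisor_smul_apply, divOf_apply, divOf_apply]
  have h := SemilinearAut.ord_smul g (g⁻¹ • v) f
  rwa [smul_inv_smul] at h

omit [IsFunctionField Qbar F] in
theorem smul_mem_rrSpace (g : SemilinearAut Qbar F) {D : Divisor Qbar F} {f : F}
    (hf : f ∈ riemannRochSpace D) : g • f ∈ riemannRochSpace (g • D) := by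
  rcases eq_or_ne f 0 with rfl | hf0
  · rw [smul_zero]; exact zero_mem _
  have hg0 : g • f ≠ 0 := by simpa using hf0
  rw [mem_rrSpace_of_ord hg0]
  intro v
  rw [SemilinearAut.divisor_smul_apply]
  have h := SemilinearAut.ord_smul g (g⁻¹ • v) f
  rw [smul_inv_smul] at h
  rw [h]
  exact (mem_rrSpace_of_ord hf0).mp hf _

omit [IsFunctionField Qbar F] in
theorem msDiv_map_smul (g : SemilinearAut Qbar F) (A : Multiset (Place Qbar F)) :
    msDiv (A.map (g • ·)) = g • msDiv A := by
  induction A using Multiset.induction_on with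
  | empty => rw [Multiset.map_zero, msDiv_zero, smul_zero]
  | cons v A ih =>
    rw [Multiset.map_cons, msDiv_cons, msDiv_cons, ih, smul_add, SemilinearAut.smul_single]

theorem LinEq.semilinear {D E : Divisor Qbar F} (h : LinEq D E) (g : SemilinearAut Qbar F) :
    LinEq (g • D) (g • E) := by
  obtain ⟨f, hf, rfl⟩ := h
  exact ⟨g • f, by simpa using hf, by rw [smul_add, divOf_semilinear]⟩

end Semilinear

variable {Φ : Frame Qbar F}

namespace Arith

variable (R : Arith Φ)

omit [IsFunctionField Qbar F] in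
theorem smul_DO (σ : Qbar ≃ₐ[ℚ] Qbar) (n : ℕ) : R.gal σ • Φ.DO n = Φ.DO n := by
  rw [Frame.DO, SemilinearAut.smul_single, R.smul_O]

omit [IsFunctionField Qbar F] in
theorem co_smul (σ : Qbar ≃ₐ[ℚ] Qbar) {n : ℕ} {f : F} (hf : f ∈ riemannRochSpace (Φ.DO n))
    (i : Fin (Φ.dim n)) : Φ.co n (R.gal σ • f) i = σ (Φ.co n f i) := by
  classical
  conv_lhs => rw [← Φ.sum_co n hf, Finset.smul_sum]
  simp only [smul_smul_semilinear, R.baseAut_gal, R.smul_fn, map_sum, map_smul, Φ.co_fn,
    Finset.sum_apply, Pi.smul_apply, smul_eq_mul, Pi.single_apply, mul_ite, mul_one, mul_zero,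
    Finset.sum_ite_eq, Finset.mem_univ, if_true]
  rfl

omit [IsFunctionField Qbar F] in
theorem linearIndependent_co_smul (σ : Qbar ≃ₐ[ℚ] Qbar) {n ν : ℕ} {e : Fin ν → F}
    (he : ∀ i, e i ∈ riemannRochSpace (Φ.DO n))
    (hl : LinearIndependent Qbar fun i => Φ.co n (e i)) :
    LinearIndependent Qbar fun i => Φ.co n (R.gal σ • e i) := by
  rw [Fintype.linearIndependent_iff] at hl ⊢
  intro c hc i
  have h := hl (fun i => σ.symm (c i)) (funext fun j => by
    have hj := congrArg σ.symm (congrFun hc j)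
    have hco : ∀ x, σ.symm (Φ.co n (R.gal σ • e x) j) = Φ.co n (e x) j := fun x => by
      rw [R.co_smul σ (he x), AlgEquiv.symm_apply_apply]
    simp only [Finset.sum_apply, Pi.smul_apply, smul_eq_mul, Pi.zero_apply, map_sum, map_mul,
      map_zero, hco] at hj ⊢
    exact hj) i
  simpa using h

omit [IsFunctionField Qbar F] in
theorem smul_DO_sub_msDiv (σ : Qbar ≃ₐ[ℚ] Qbar) (n : ℕ) (A : Multiset (Place Qbar F)) :
    R.gal σ • (Φ.DO n - msDiv A) = Φ.DO n - msDiv (A.map (R.gal σ • ·)) := by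
  rw [smul_sub, R.smul_DO, msDiv_map_smul]

/-- Galois carries the representatives of a class to those of the image class. -/
theorem linEq_smul (σ : Qbar ≃ₐ[ℚ] Qbar) {z z' : Pic0 Qbar F} (hz : R.gal σ • z = z')
    {E : Divisor Qbar F} (hE : ∀ D : Divisor.degZero (K := Qbar) (F := F), Pic0.mk D = z →
      LinEq (D : Divisor Qbar F) E)
    (D : Divisor.degZero (K := Qbar) (F := F)) (hD : Pic0.mk D = z') :
    LinEq (D : Divisor Qbar F) (R.gal σ • E) := by
  obtain ⟨D₀, hD₀⟩ := Pic0.mk_surjective z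
  have h1 : Pic0.mk D = Pic0.mk (SemilinearAut.degZeroSMulHom (R.gal σ) D₀) := by
    rw [hD, ← SemilinearAut.pic0_smul_mk, hD₀, hz]
  exact (mk_eq_mk_iff_linEq.mp h1).trans ((hE D₀ hD₀).semilinear (R.gal σ))

/-- Galois transports Kummer data. -/
def mapKum (σ : Qbar ≃ₐ[ℚ] Qbar) {z z' : Pic0 Qbar F} (hz : R.gal σ • z = z')
    (d : KumData Φ z) : KumData Φ z' where
  A := d.A.map (R.gal σ • ·)
  B := d.B.map (R.gal σ • ·)
  w := R.gal σ • d.w
  e i := R.gal σ • d.e i
  e' i := R.gal σ • d.e' i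
  cardA := by rw [Multiset.card_map, d.cardA]
  cardB := by rw [Multiset.card_map, d.cardB]
  repA D hD := R.smul_DO_sub_msDiv σ _ d.A ▸ R.linEq_smul σ hz d.repA D hD
  repB D hD := by
    have h := R.linEq_smul σ hz d.repB D hD
    rwa [smul_sub, R.smul_DO, ← msDiv_map_smul] at h
  w_ne := by simpa using d.w_ne
  w_div := by
    rw [← Multiset.map_add, msDiv_map_smul, d.w_div, smul_add, R.smul_DO, divOf_semilinear]
  e_mem i := R.smul_DO_sub_msDiv σ _ d.A ▸ smul_mem_rrSpace (R.gal σ) (d.e_mem i)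
  e'_mem i := R.smul_DO_sub_msDiv σ _ d.B ▸ smul_mem_rrSpace (R.gal σ) (d.e'_mem i)
  e_li := R.linearIndependent_co_smul σ d.e_memDO d.e_li
  e'_li := R.linearIndependent_co_smul σ d.e'_memDO d.e'_li

/-- The Kummer vector of transported data is the transported Kummer vector. -/
theorem vec_mapKum (σ : Qbar ≃ₐ[ℚ] Qbar) {z z' : Pic0 Qbar F} (hz : R.gal σ • z = z')
    (d : KumData Φ z) (θ : Fin (nn F) → Fin (Φ.dim (nlev F))) :
    (R.mapKum σ hz d).vec θ = σ (d.vec θ) := by
  have h : ∀ i j t, Φ.co (nlev F) ((R.mapKum σ hz d).e i * (R.mapKum σ hz d).e' j /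
      (R.mapKum σ hz d).w) t = σ (Φ.co (nlev F) (d.e i * d.e' j / d.w) t) := fun i j t => by
    rw [← R.co_smul σ (d.u_mem i j)]
    simp [mapKum, map_div₀, map_mul]
  simp only [KumData.vec, h, map_sum, map_mul, map_prod, map_intCast]

/-- The normalised Kummer vector of a rational class is rational. -/
theorem vec_div_mem {z : Pic0 Qbar F} (hz : ∀ σ, R.gal σ • z = z) (d : KumData Φ z)
    (θ₀ θ : Fin (nn F) → Fin (Φ.dim (nlev F))) :
    d.vec θ / d.vec θ₀ ∈ Set.range (algebraMap ℚ Qbar) := by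
  have : Algebra.IsAlgebraic ℚ Qbar := AlgebraicClosure.isAlgebraic ℚ
  have : IsAlgClosure ℚ Qbar := ⟨inferInstance, inferInstance⟩
  have : IsGalois ℚ Qbar :=
    { to_normal := IsAlgClosure.normal ℚ Qbar }
  refine (InfiniteGalois.mem_range_algebraMap_iff_fixed _).mpr fun σ => ?_
  obtain ⟨c, hc, h⟩ := d.exists_smul_eq (R.mapKum σ (hz σ) d)
  have e : ∀ η, σ (d.vec η) = c * d.vec η := fun η => by
    rw [← R.vec_mapKum σ (hz σ), h]; rfl
  rw [map_div₀, e, e, mul_div_mul_left _ _ hc]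

/-- Northcott for the quadratic height on rational classes. -/
theorem finite_qH_le (B : ℝ) :
    {z : Pic0 Qbar F | (∀ σ, R.gal σ • z = z) ∧ Φ.qH z ≤ B}.Finite := by
  classical
  obtain ⟨C, hC⟩ := Φ.exists_vec_le_qH
  refine Set.Finite.subset (Set.finite_iUnion fun θ₀ : Fin (nn F) → Fin (Φ.dim (nlev F)) =>
    (finite_rat_tuples θ₀ (B + C)).biUnion fun q _ =>
      Φ.finite_kum_fibre fun θ => algebraMap ℚ Qbar (q θ)) ?_
  rintro z ⟨hz, hB⟩
  obtain ⟨d, -, -⟩ := Φ.exists_kumData z ∅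
  obtain ⟨θ₀, h₀⟩ := Function.ne_iff.mp d.vec_ne_zero
  choose q hq using R.vec_div_mem hz d θ₀
  have hv : d.vec = d.vec θ₀ • fun θ => algebraMap ℚ Qbar (q θ) := funext fun θ => by
    rw [Pi.smul_apply, smul_eq_mul, hq, mul_div_cancel₀ _ h₀]
  simp only [Set.mem_iUnion, exists_prop]
  refine ⟨θ₀, q, ⟨(algebraMap ℚ Qbar).injective ?_, ?_⟩, d, _, h₀, hv⟩
  · rw [hq, map_one, div_self h₀]
  · have h := hC z d
    rw [hv, hgt_smul _ h₀] at h
    linarith

/-- The quadratic height is bounded below. -/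
theorem exists_qH_ge :
    ∃ C : ℝ, ∀ z : Pic0 Qbar F, -C ≤ Φ.qH z := by
  obtain ⟨C, hC⟩ := Φ.exists_vec_le_qH
  refine ⟨C, fun z => ?_⟩
  obtain ⟨d, -, -⟩ := Φ.exists_kumData z ∅
  linarith [hC z d, hgt_nonneg d.vec]

end Arith

end Fermat.Agent.MW

end
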