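import Fermat.Prelude.Thm_ModularCurve_coeff_jqModC_neg_one
import Fermat.Agent.MW.Rational
import Fermat.Agent.Mono.FiniteLevel

/-!
# The rational frame at the cusp `∞` of `X₀(N)`

The cusp `∞` is fixed by Galois and every `L(n • ∞)` has a basis of rational functions, so it
gives an arithmetic frame for `X₀(N)`, the starting point of the height theory.
-/

noncomputable section

open AlgebraicCurve Fermat.Agent.FF ModularCurve

namespace Fermat.Agent.MW

/-- A space separated by functionals has a dual family of the same functionals. -/
theorem exists_dual_family {K V α : Type*} [Field K] [AddCommGroup V] [Module K V]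
    [FiniteDimensional K V] (φ : α → Module.Dual K V) (h : ∀ x, (∀ a, φ a x = 0) → x = 0) :
    ∃ (b : Module.Basis (Fin (Module.finrank K V)) K V) (a : Fin (Module.finrank K V) → α),
      (∀ i j, φ (a i) (b j) = if j = i then 1 else 0) ∧
        ∀ x, (∀ i, φ (a i) x = 0) → x = 0 := by
  classical
  set W : Submodule K (Module.Dual K V) := Submodule.span K (Set.range φ)
  have hW : W = ⊤ := by
    have h0 : W.dualCoannihilator = ⊥ := by
      rw [eq_bot_iff]
      intro x hx
      exact h x fun a => (Submodule.mem_dualCoannihilator x).mp hx _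
        (Submodule.subset_span ⟨a, rfl⟩)
    rw [← Subspace.dualCoannihilator_dualAnnihilator_eq (W := W), h0,
      Submodule.dualAnnihilator_bot]
  obtain ⟨t, hts, htspan, htli⟩ := exists_linearIndependent K (Set.range φ)
  rw [show Submodule.span K (Set.range φ) = ⊤ from hW] at htspan
  set B := Module.Basis.mk htli (by rw [Subtype.range_coe_subtype, Set.ofPred_mem_eq, htspan])
  have : Fintype t := FiniteDimensional.fintypeBasisIndex B
  have hcard : Fintype.card t = Module.finrank K V := by
    rw [← Module.finrank_eq_card_basis B, Subspace.dual_finrank_eq]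
  set e := (Fintype.equivFinOfCardEq hcard).symm
  choose a ha using fun i => hts (e i).2
  let L : V →ₗ[K] (Fin (Module.finrank K V) → K) := LinearMap.pi fun i => φ (a i)
  have hLinj : Function.Injective L := (injective_iff_map_eq_zero L).mpr fun x hx => by
    refine h x fun c => ?_
    have hc : φ c ∈ Submodule.span K (Set.range fun i => φ (a i)) := by
      have e1 : Set.range (fun i => φ (a i)) = t := by
        simp only [ha]
        rw [show (fun i => ((e i : t) : Module.Dual K V)) = Subtype.val ∘ e from rfl,
          Set.range_comp, e.range_eq_univ, Set.image_univ, Subtype.range_coe]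
      rw [e1, htspan]
      trivial
    obtain ⟨r, hr⟩ := (Submodule.mem_span_range_iff_exists_fun K).mp hc
    rw [← hr, LinearMap.sum_apply]
    refine Finset.sum_eq_zero fun i _ => ?_
    have hxi := congrFun hx i
    rw [LinearMap.pi_apply, Pi.zero_apply] at hxi
    simp [hxi]
  have hbij : Function.Bijective L :=
    ⟨hLinj, (LinearMap.injective_iff_surjective_of_finrank_eq_finrank (by simp)).mp hLinj⟩
  refine ⟨Module.Basis.ofEquivFun (LinearEquiv.ofBijective L hbij), a, fun i j => ?_, fun x hx =>
    hLinj (funext fun i => by simpa [L] using hx i)⟩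
  have := congrFun ((LinearEquiv.ofBijective L hbij).apply_symm_apply (Pi.single j 1)) i
  rw [LinearEquiv.ofBijective_apply, LinearMap.pi_apply] at this
  rw [Module.Basis.coe_ofEquivFun, this, Pi.single_apply]
  simp [eq_comm]

variable (N : ℕ) [NeZero N]

local notation "ℚbar" => AlgebraicClosure ℚ

/-- The functions without pole at `∞`. -/
def inftySubring : ValuationSubring (modularFunctionFieldBar N) :=
  (Valued.v (R := LaurentSeries ℚbar)).valuationSubring.comap
    (modularFunctionFieldBar N).val.toRingHom

omit [NeZero N] in
theorem mem_inftySubring {x : modularFunctionFieldBar N} :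
    x ∈ inftySubring N ↔ ∀ n : ℤ, n < 0 → (x : LaurentSeries ℚbar).coeff n = 0 := by
  rw [inftySubring, ValuationSubring.mem_comap, Valuation.mem_valuationSubring_iff]
  have h := LaurentSeries.valuation_le_iff_coeff_lt_eq_zero ℚbar (D := 0)
    (f := (x : LaurentSeries ℚbar))
  rw [neg_zero, WithZero.exp_zero] at h
  exact h

/-- The cusp `∞`. -/
def infty : Place ℚbar (modularFunctionFieldBar N) :=
  placeOfValuationSubring (inftySubring N)
    (fun c => (mem_inftySubring N).mpr fun n hn => by
      rw [show ((algebraMap ℚbar (modularFunctionFieldBar N) c : modularFunctionFieldBar N) :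
        LaurentSeries ℚbar) = algebraMap ℚbar (LaurentSeries ℚbar) c from rfl,
        ModularCurve.algebraMap_laurentSeries_eq_single, HahnSeries.coeff_single_of_ne hn.ne])
    fun h => by
      have := (mem_inftySubring N (x := Mono.jBar N)).mp (by rw [h]; trivial) (-1) (by norm_num)
      rw [show ((Mono.jBar N : modularFunctionFieldBar N) : LaurentSeries ℚbar) =
        coeffEmb ℚbar jq from rfl, Mono.coeffEmb_jq] at this
      rw [ModularCurve.coeff_jqModC_neg_one] at this
      exact one_ne_zero this

variable {N}

/-- The cusp `∞` is fixed by Galois. -/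
theorem galF_smul_infty (σ : ℚbar ≃ₐ[ℚ] ℚbar) : Mono.galF N σ • infty N = infty N := by
  refine Place.ext (SetLike.ext fun x => ?_)
  rw [Mono.mem_smul_place_iff, infty, placeOfValuationSubring_toValuationSubring,
    mem_inftySubring, mem_inftySubring, Mono.coe_galF_smul]
  refine forall₂_congr fun n _ => ?_
  rw [coeffMap_coeff]
  exact map_eq_zero_iff _ σ⁻¹.injective

/-- Each `L(n • ∞)` has a basis of Galois-fixed functions. -/
theorem exists_fixed_basis (n : ℕ) :
    ∃ b : Module.Basis (Fin (ell (Finsupp.single (infty N) (n : ℤ)))) ℚbar
        (riemannRochSpace (Finsupp.single (infty N) (n : ℤ))),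
      ∀ (σ : ℚbar ≃ₐ[ℚ] ℚbar) i, Mono.galF N σ • (b i : modularFunctionFieldBar N) = b i := by
  set D := Finsupp.single (infty N) (n : ℤ)
  let φ : ℤ → Module.Dual ℚbar (riemannRochSpace D) := fun k =>
    { toFun := fun x => ((x : modularFunctionFieldBar N) : LaurentSeries ℚbar).coeff k
      map_add' := fun x y => by simp
      map_smul' := fun c x => by
        simp [Algebra.smul_def, ModularCurve.algebraMap_laurentSeries_eq_single] }
  obtain ⟨b, a, hab, hsep⟩ := exists_dual_family φ fun x hx =>
    Subtype.ext (Subtype.ext (HahnSeries.ext (funext hx)))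
  refine ⟨b, fun σ i => ?_⟩
  have hmem : Mono.galF N σ • (b i : modularFunctionFieldBar N) ∈ riemannRochSpace D := by
    have h := smul_mem_rrSpace (Mono.galF N σ) (b i).2
    rwa [SemilinearAut.smul_single, galF_smul_infty] at h
  have h0 := hsep (⟨_, hmem⟩ - b i) fun j => by
    rw [map_sub, sub_eq_zero]
    refine Eq.trans ?_ (hab j i).symm
    show ((Mono.galF N σ • (b i : modularFunctionFieldBar N) : modularFunctionFieldBar N) :
      LaurentSeries ℚbar).coeff (a j) = _
    rw [Mono.coe_galF_smul, coeffMap_coeff,
      show ((b i : modularFunctionFieldBar N) : LaurentSeries ℚbar).coeff (a j) =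
        φ (a j) (b i) from rfl]
    refine (congrArg _ (hab j i)).trans ?_
    split <;> simp
  exact congrArg Subtype.val (sub_eq_zero.mp h0)

variable (N)

/-- The frame at `∞`. -/
def inftyFrame : Frame Qbar (modularFunctionFieldBar N) where
  O := infty N
  basis n := (exists_fixed_basis (N := N) n).choose

/-- The arithmetic structure at `∞`. -/
def inftyArith : Arith (inftyFrame N) where
  gal := Mono.galF N
  baseAut_gal _ := rfl
  smul_O σ := galF_smul_infty σ
  smul_fn σ n i := (exists_fixed_basis (N := N) n).choose_spec σ i

end Fermat.Agent.MW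

end
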