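import Fermat.Agent.Gal.Hermite

/-!
# Finiteness of `G / 2 G` from unramified halving

An abstract Kummer argument: if halving is possible and is unramified outside finitely many
primes, the fixed points modulo twice themselves are finite, by Hermite's theorem. This gives weak
Mordell–Weil.
-/

noncomputable section

open scoped Pointwise

namespace Fermat.Agent.MW

local notation "ℚbar" => AlgebraicClosure ℚ
local notation "Γℚ" => (AlgebraicClosure ℚ ≃ₐ[ℚ] AlgebraicClosure ℚ)

/-- An embedding of a subfield extends to an automorphism. -/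
theorem exists_gal_restrict (L : IntermediateField ℚ ℚbar) (φ : L →ₐ[ℚ] ℚbar) :
    ∃ σ : Γℚ, ∀ a : L, σ a = φ a := by
  have : Algebra.IsAlgebraic ℚ ℚbar := AlgebraicClosure.isAlgebraic ℚ
  have : IsAlgClosure ℚ ℚbar := ⟨inferInstance, inferInstance⟩
  have : Normal ℚ ℚbar := IsAlgClosure.normal ℚ ℚbar
  obtain ⟨ψ, hψ⟩ : ∃ ψ : ℚbar →ₐ[ℚ] ℚbar, ψ.comp L.val = φ :=
    IntermediateField.exists_algHom_of_splits' φ fun x =>
      ⟨(Algebra.IsAlgebraic.isAlgebraic x).isIntegral, IsAlgClosed.splits _⟩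
  exact ⟨AlgEquiv.ofBijective ψ (Algebra.IsAlgebraic.algHom_bijective ψ),
    fun a => DFunLike.congr_fun hψ a⟩

variable {A : Type*} [AddCommGroup A] [DistribMulAction Γℚ A]

/-- If all `σ • y - y` lie in the finite set `T`, the stabiliser of `y` is the group of a field of
degree at most `#T`. -/
theorem exists_field_stabilizer {T : Set A} (hT : T.Finite) {y : A}
    (hlevel : ∃ L : IntermediateField ℚ ℚbar, FiniteDimensional ℚ L ∧
      ∀ σ : Γℚ, (∀ a ∈ L, σ a = a) → σ • y = y)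
    (hy : ∀ σ : Γℚ, σ • y - y ∈ T) :
    ∃ L : IntermediateField ℚ ℚbar, FiniteDimensional ℚ L ∧
      Module.finrank ℚ L ≤ hT.toFinset.card ∧
      ∀ σ : Γℚ, (∀ a ∈ L, σ a = a) ↔ σ • y = y := by
  classical
  have : Algebra.IsAlgebraic ℚ ℚbar := AlgebraicClosure.isAlgebraic ℚ
  have : IsAlgClosure ℚ ℚbar := ⟨inferInstance, inferInstance⟩
  have : IsGalois ℚ ℚbar := { to_normal := IsAlgClosure.normal ℚ ℚbar }
  obtain ⟨L₀, hL₀, hfix⟩ := hlevel
  set H := MulAction.stabilizer Γℚ y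
  have hle : L₀.fixingSubgroup ≤ H := fun σ hσ =>
    hfix σ ((IntermediateField.mem_fixingSubgroup_iff L₀ σ).mp hσ)
  have hopen : IsOpen (H : Set Γℚ) :=
    Subgroup.isOpen_mono hle L₀.fixingSubgroup_isOpen
  let Hc : ClosedSubgroup Γℚ := ⟨H, Subgroup.isClosed_of_isOpen H hopen⟩
  set L : IntermediateField ℚ ℚbar := IntermediateField.fixedField H
  have hLH : L.fixingSubgroup = H := InfiniteGalois.fixingSubgroup_fixedField Hc
  have hLL : L ≤ L₀ := by
    intro a ha
    rw [← InfiniteGalois.fixedField_fixingSubgroup L₀]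
    exact fun σ => ha ⟨σ.1, hle σ.2⟩
  have : FiniteDimensional ℚ L := FiniteDimensional.of_injective
    (IntermediateField.inclusion hLL).toLinearMap (IntermediateField.inclusion hLL).injective
  have hiff : ∀ σ : Γℚ, (∀ a ∈ L, σ a = a) ↔ σ • y = y := fun σ => by
    rw [← IntermediateField.mem_fixingSubgroup_iff, hLH]; rfl
  refine ⟨L, inferInstance, ?_, hiff⟩
  choose ext hext using exists_gal_restrict L
  rw [← AlgHom.card ℚ L ℚbar, ← Finset.card_univ]
  refine Finset.card_le_card_of_injOn (fun φ => ext φ • y - y)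
    (fun φ _ => hT.mem_toFinset.mpr (hy _)) fun φ _ ψ _ h => ?_
  have h' : (ext ψ)⁻¹ * ext φ ∈ H := by
    rw [MulAction.mem_stabilizer_iff, mul_smul, inv_smul_eq_iff]
    exact sub_left_injective h
  refine AlgHom.ext fun a => ?_
  have h2 := (hiff _).mpr h' a a.2
  rw [AlgEquiv.mul_apply] at h2
  have h3 := congrArg (ext ψ) h2
  rw [← hext, ← hext, ← h3]
  exact (AlgEquiv.apply_symm_apply (ext ψ) _).symm

/-- If halving is possible and unramified outside `S`, the fixed points modulo twice themselves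
are finite. -/
theorem finiteIndex_two (hdiv : ∀ x : A, ∃ y, y + y = x)
    (htor : {t : A | t + t = 0}.Finite)
    (hlevel : ∀ y : A, ∃ L : IntermediateField ℚ ℚbar, FiniteDimensional ℚ L ∧
      ∀ σ : Γℚ, (∀ a ∈ L, σ a = a) → σ • y = y)
    (S : Finset ℕ)
    (hinertia : ∀ ℓ : ℕ, ℓ.Prime → ℓ ∉ S → ∀ V : ValuationSubring ℚbar, V.LiesOverPrime ℓ →
      ∀ σ ∈ V.inertiaSubgroupIn ℚ, ∀ y : A, (σ • y - y) + (σ • y - y) = 0 → σ • y = y) :
    (nsmulAddMonoidHom (α := ↥(FixedPoints.addSubgroup Γℚ A)) 2).range.FiniteIndex := by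
  classical
  set G := ↥(FixedPoints.addSubgroup Γℚ A)
  set R := (nsmulAddMonoidHom (α := G) 2).range
  choose half hhalf using hdiv
  set T := {t : A | t + t = 0}
  have hy : ∀ (x : G) (σ : Γℚ), σ • half x.1 - half x.1 ∈ T := fun x σ => by
    show _ + _ = _
    rw [sub_add_sub_comm, ← smul_add, hhalf, x.2 σ, sub_self]
  choose L hLf hLd hLiff using fun x : G =>
    exists_field_stabilizer htor (hlevel (half x.1)) (hy x)
  set n := htor.toFinset.card
  set 𝓛 := {L : IntermediateField ℚ ℚbar | FiniteDimensional ℚ L ∧ Module.finrank ℚ L ≤ n ∧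
      ∀ ℓ : ℕ, ℓ.Prime → ℓ ∉ S → ∀ V : ValuationSubring ℚbar, V.LiesOverPrime ℓ →
        ∀ σ ∈ V.inertiaSubgroupIn ℚ, ∀ a ∈ L, σ a = a}
  have hmem : ∀ x : G, L x ∈ 𝓛 := fun x => ⟨hLf x, hLd x, fun ℓ hℓ hℓS V hV σ hσ =>
    (hLiff x σ).mpr (hinertia ℓ hℓ hℓS V hV σ hσ _ (hy x σ))⟩
  have : Finite 𝓛 := (Gal.finite_intermediateFields_unramified_outside n S).to_subtype
  have : Finite T := htor.to_subtype
  have : ∀ M : 𝓛, FiniteDimensional ℚ M.1 := fun M => M.2.1
  -- all the halves are fixed by the compositum `E` of these fields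
  let E : IntermediateField ℚ ℚbar := ⨆ M : 𝓛, M.1
  have hfac : ∀ (x : G) (σ τ : Γℚ), (∀ a ∈ E, σ a = τ a) → σ • half x.1 = τ • half x.1 :=
    fun x σ τ h => by
    have : (τ⁻¹ * σ) • half x.1 = half x.1 := (hLiff x _).mp fun a ha => by
      rw [AlgEquiv.mul_apply, h a (le_iSup (fun M : 𝓛 => M.1) ⟨L x, hmem x⟩ ha)]
      exact τ.symm_apply_apply a
    rwa [mul_smul, inv_smul_eq_iff] at this
  choose ext hext using exists_gal_restrict E
  let Φ : G ⧸ R → (E →ₐ[ℚ] ℚbar) → T := fun q φ => ⟨_, hy q.out (ext φ)⟩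
  have hinj : Function.Injective Φ := by
    intro q q' h
    have hfix : half q.out.1 - half q'.out.1 ∈ FixedPoints.addSubgroup Γℚ A := fun σ => by
      set φ := (σ : ℚbar →ₐ[ℚ] ℚbar).comp E.val
      have he : ∀ a ∈ E, σ a = ext φ a := fun a ha => (hext φ ⟨a, ha⟩).symm
      rw [smul_sub, hfac _ σ (ext φ) he, hfac _ σ (ext φ) he]
      exact sub_eq_sub_iff_sub_eq_sub.mpr (congrArg Subtype.val (congrFun h φ) :)
    rw [← Quotient.out_eq q, ← Quotient.out_eq q']
    change (QuotientAddGroup.mk q.out : G ⧸ R) = QuotientAddGroup.mk q'.out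
    rw [QuotientAddGroup.eq]
    refine ⟨-⟨_, hfix⟩, Subtype.ext ?_⟩
    rw [nsmulAddMonoidHom_apply, AddSubgroupClass.coe_nsmul, NegMemClass.coe_neg, two_nsmul,
      AddSubgroup.coe_add, NegMemClass.coe_neg]
    have e1 := hhalf q.out.1
    have e2 := hhalf q'.out.1
    show -(half q.out.1 - half q'.out.1) + -(half q.out.1 - half q'.out.1) = _
    linear_combination (norm := abel) e2 - e1
  have : Finite (G ⧸ R) := Finite.of_injective Φ hinj
  exact AddSubgroup.finiteIndex_of_finite_quotient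

end Fermat.Agent.MW

end
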