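import Fermat.Agent.EichlerShimura.Core
import Fermat.Agent.EichlerShimura.Riemann
import Fermat.Agent.MW.Divisible
import Fermat.Agent.MW.Infinity
import Fermat.Agent.MW.Kummer
import Fermat.Agent.Red.Existence

/-!
# Mordell–Weil for `J₀(N)` over `ℚ`

Weak Mordell–Weil from the Kummer argument, the quadratic height with the Northcott property,
and descent give that `J₀(N)(ℚ)` is finitely generated when the genus does not drop at good
primes. This proves the milestone S17.
-/

noncomputable section

open AlgebraicCurve ModularCurve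

namespace Fermat.Agent.MW

variable (N : ℕ) [NeZero N]

local notation "ℚbar" => AlgebraicClosure ℚ
local notation "Γℚ" => (AlgebraicClosure ℚ ≃ₐ[ℚ] AlgebraicClosure ℚ)

/-- The genus inequality at every prime of good reduction. -/
def GenusLe : Prop :=
  ∀ (ℓ : ℕ), ℓ.Prime → ¬ ℓ ∣ N → ∀ A : ValuationSubring ℚbar, A.LiesOverPrime ℓ →
    genusFF ℚbar (modularFunctionFieldBar N) ≤
      genusFF (IsLocalRing.ResidueField A)
        (modularFunctionFieldFullC (IsLocalRing.ResidueField A) N)

variable {N}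

/-- Inertia fixes halves at primes not dividing `2 N`. -/
theorem inertia_fixes_half (hg : GenusLe N) {ℓ : ℕ} (hℓ : ℓ.Prime) (hℓN : ℓ ∉ (2 * N).primeFactors)
    {A : ValuationSubring ℚbar} (hA : A.LiesOverPrime ℓ) {σ : Γℚ}
    (hσ : σ ∈ A.inertiaSubgroupIn ℚ) (y : JZero N) (h2 : (σ • y - y) + (σ • y - y) = 0) :
    σ • y = y := by
  have : Fact ℓ.Prime := ⟨hℓ⟩
  have hn : ¬ ℓ ∣ 2 * N := fun h => hℓN (Nat.mem_primeFactors.mpr
    ⟨hℓ, h, mul_ne_zero two_ne_zero (NeZero.ne N)⟩)
  have hN : ¬ ℓ ∣ N := fun h => hn (h.mul_left 2)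
  have hgen := hg ℓ hℓ hN A hA
  have hR := Red.reductionInputsModL_of_genus_le hN hA hgen
  have hred : reductionModL A N (σ • y) = reductionModL A N y := by
    rw [reductionModL, EichlerShimura.reductionAlong_smul hR
      (EichlerShimura.boundedClasses_of_isFunctionField _ _)
      (EichlerShimura.inducesOn_refl_of_inertia hσ), EichlerShimura.coeffSemilinear_refl, one_smul]
  refine sub_eq_zero.mp (Red.eq_zero_of_reductionModL_eq_zero_of_genus_le N hN A hA hgen hR 2
    (fun h => hn (h.mul_right N)) _ (by rw [two_nsmul]; exact h2) ?_)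
  rw [map_sub, hred, sub_self]

/-- Weak Mordell–Weil. -/
theorem finiteIndex_two_JZero (hg : GenusLe N) :
    (nsmulAddMonoidHom (α := ↥(FixedPoints.addSubgroup Γℚ (JZero N))) 2).range.FiniteIndex := by
  refine finiteIndex_two (exists_half N) ?_ (fun y => Mono.exists_level_jZero y)
    (2 * N).primeFactors
    fun ℓ hℓ hℓS A hA σ hσ y h => inertia_fixes_half hg hℓ hℓS hA hσ y h
  have := Mono.finite_torsion_JZero N 2
  refine (Set.toFinite (Pic0.torsion ℚbar (modularFunctionFieldBar N) 2 : Set (JZero N))).subset ?_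
  intro t ht
  rw [SetLike.mem_coe, Pic0.mem_torsion, Nat.cast_ofNat, two_zsmul]
  exact ht

/-- The Mordell–Weil group of `J₀(N)` over `ℚ` is finitely generated. -/
theorem fg_of_genusLe (hg : GenusLe N) :
    AddGroup.FG ↥(FixedPoints.addSubgroup Γℚ (JZero N)) := by
  obtain ⟨C₀, hC₀⟩ := Arith.exists_qH_ge (Φ := inftyFrame N)
  obtain ⟨C, hC⟩ := (inftyFrame N).exists_parallelogram
  let h : ↥(FixedPoints.addSubgroup Γℚ (JZero N)) → ℝ := fun x =>
    (inftyFrame N).qH (x : JZero N) + C₀
  have : Northcott h := ⟨fun B => by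
    refine (((inftyArith N).finite_qH_le (B - C₀)).preimage
      Subtype.val_injective.injOn).subset fun x hx => ?_
    exact ⟨fun σ => x.2 σ, by
      have : (inftyFrame N).qH (x : JZero N) + C₀ ≤ B := hx
      linarith⟩⟩
  refine AddCommGroup.fg_of_descent' (h := h) (C := C + 2 * |C₀|) (finiteIndex_two_JZero hg)
    (fun x => ?_) fun x y => ?_
  · have := hC₀ (x : JZero N)
    show 0 ≤ (inftyFrame N).qH (x : JZero N) + C₀
    linarith
  · have h1 := hC (x : JZero N) (y : JZero N)
    simp only [h, AddSubgroup.coe_add, AddSubgroupClass.coe_sub]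
    obtain ⟨a, b⟩ := abs_le.mp h1
    obtain ⟨c, d⟩ := abs_le.mp (le_refl |C₀|)
    rw [abs_le]
    constructor <;> linarith

end Fermat.Agent.MW

end
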