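import Fermat.Agent.MW.Height

/-!
# Certificates: height bounds and integrality for forms without common zero

A form of degree `k` on a product of spaces `ι b → Qbar` is a function which is of degree `k` in
every block. If a family of forms has no common zero on the closure of a set `S`, then the height
of its values on `S` is `k` times the height, up to a constant. This is the source of all height
comparisons in the proof of Mordell–Weil.
-/

noncomputable section

open MvPolynomial

namespace Fermat.Agent.MW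

variable {β : Type*} [Fintype β] {ι : β → Type*} [∀ b, Fintype (ι b)]

/-- The product tuple of a block tuple. -/
def blockTensor (x : (b : β) → ι b → Qbar) (J : (b : β) → ι b) : Qbar := ∏ b, x b (J b)

omit [(b : β) → Fintype (ι b)] in
theorem blockTensor_ne_zero {x : (b : β) → ι b → Qbar} (hx : ∀ b, x b ≠ 0) :
    blockTensor x ≠ 0 := by
  choose J hJ using fun b => Function.ne_iff.mp (hx b)
  exact Function.ne_iff.mpr ⟨J, by simpa [blockTensor, Finset.prod_ne_zero_iff] using hJ⟩

/-- `f` is a form of degree `k` in each block. -/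
def IsForm [DecidableEq β] (k : ℕ) (f : ((b : β) → ι b → Qbar) → Qbar) : Prop :=
  ∃ A : (Fin k → (b : β) → ι b) → Qbar, ∀ x, f x = ∑ J, A J * ∏ t, blockTensor x (J t)

variable [DecidableEq β]

namespace IsForm

theorem coord (J : (b : β) → ι b) : IsForm 1 (fun x => blockTensor x J) := by
  classical
  refine ⟨fun J' => if J' = fun _ => J then 1 else 0, fun x => ?_⟩
  simp [ite_mul]

theorem zero (k : ℕ) : IsForm k (fun _ : (b : β) → ι b → Qbar => 0) :=
  ⟨0, fun x => by simp⟩

theorem const (c : Qbar) : IsForm 0 (fun _ : (b : β) → ι b → Qbar => c) :=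
  ⟨fun _ => c, fun x => by simp⟩

variable {k l : ℕ} {f g : ((b : β) → ι b → Qbar) → Qbar}

theorem add (hf : IsForm k f) (hg : IsForm k g) : IsForm k (fun x => f x + g x) := by
  obtain ⟨A, hA⟩ := hf
  obtain ⟨B, hB⟩ := hg
  exact ⟨A + B, fun x => by simp [hA, hB, add_mul, Finset.sum_add_distrib]⟩

theorem smul (hf : IsForm k f) (c : Qbar) : IsForm k (fun x => c * f x) := by
  obtain ⟨A, hA⟩ := hf
  exact ⟨c • A, fun x => by simp [hA, Finset.mul_sum, mul_assoc]⟩

theorem congr (hf : IsForm k f) (h : ∀ x, g x = f x) : IsForm k g := by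
  obtain ⟨A, hA⟩ := hf
  exact ⟨A, fun x => (h x).trans (hA x)⟩

theorem sum {α : Type*} (s : Finset α) {F : α → ((b : β) → ι b → Qbar) → Qbar}
    (h : ∀ a ∈ s, IsForm k (F a)) : IsForm k (fun x => ∑ a ∈ s, F a x) := by
  classical
  induction s using Finset.induction with
  | empty => exact (zero k).congr fun x => by simp
  | insert a s ha ih =>
    refine ((h a (Finset.mem_insert_self a s)).add
      (ih fun b hb => h b (Finset.mem_insert_of_mem hb))).congr fun x => ?_
    rw [Finset.sum_insert ha]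

theorem mul (hf : IsForm k f) (hg : IsForm l g) : IsForm (k + l) (fun x => f x * g x) := by
  obtain ⟨A, hA⟩ := hf
  obtain ⟨B, hB⟩ := hg
  refine ⟨fun J => A ((Fin.appendEquiv k l).symm J).1 * B ((Fin.appendEquiv k l).symm J).2,
    fun x => ?_⟩
  simp only
  rw [← (Fin.appendEquiv k l).sum_comp, Fintype.sum_prod_type, hA, hB, Finset.sum_mul_sum]
  refine Finset.sum_congr rfl fun J _ => Finset.sum_congr rfl fun J' _ => ?_
  rw [Equiv.symm_apply_apply, Fin.prod_univ_add]
  simp [Fin.appendEquiv, mul_mul_mul_comm]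

theorem prod {α : Type*} (s : Finset α) {F : α → ((b : β) → ι b → Qbar) → Qbar}
    (h : ∀ a ∈ s, IsForm k (F a)) : IsForm (s.card * k) (fun x => ∏ a ∈ s, F a x) := by
  classical
  induction s using Finset.induction with
  | empty =>
    rw [Finset.card_empty, zero_mul]
    exact (const 1).congr fun x => by simp
  | insert a s ha ih =>
    rw [Finset.card_insert_of_notMem ha, add_mul, one_mul, add_comm]
    refine ((h a (Finset.mem_insert_self a s)).mul
      (ih fun b hb => h b (Finset.mem_insert_of_mem hb))).congr fun x => ?_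
    rw [Finset.prod_insert ha]

theorem det {n : ℕ} {M : ((b : β) → ι b → Qbar) → Matrix (Fin n) (Fin n) Qbar}
    (h : ∀ i j, IsForm k (fun x => M x i j)) : IsForm (n * k) (fun x => (M x).det) := by
  refine (IsForm.sum Finset.univ (F := fun (π : Equiv.Perm (Fin n)) x =>
    ((Equiv.Perm.sign π : ℤ) : Qbar) * ∏ i, M x (π i) i) fun π _ => ?_).congr fun x => ?_
  · refine IsForm.smul ?_ _
    simpa using IsForm.prod Finset.univ fun i _ => h (π i) i
  · rw [Matrix.det_apply']

/-- Values of forms have height at most `k` times the height. -/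
theorem hgt_le {A : Type*} [Finite A] {F : A → ((b : β) → ι b → Qbar) → Qbar}
    (h : ∀ a, IsForm k (F a)) :
    ∃ C : ℝ, ∀ x : (b : β) → ι b → Qbar, hgt (fun a => F a x) ≤ k * (∑ b, hgt (x b)) + C := by
  choose c hc using h
  obtain ⟨C, hC⟩ := exists_hgt_linear_le (ι := Fin k → (b : β) → ι b) (fun a J => c a J)
  refine ⟨C, fun x => ?_⟩
  calc hgt (fun a => F a x) = hgt (fun a => ∑ J, c a J * ∏ t, blockTensor x (J t)) := by
        simp only [hc]
    _ ≤ hgt (fun J : Fin k → (b : β) → ι b => ∏ t, blockTensor x (J t)) + C := hC _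
    _ ≤ k * (∑ b, hgt (x b)) + C := by
        gcongr
        refine (hgt_prod_le (fun _ : Fin k => blockTensor x)).trans ?_
        simp only [Finset.sum_const, Finset.card_univ, Fintype.card_fin, nsmul_eq_mul]
        gcongr
        exact hgt_prod_le x

end IsForm

/-- The block degree of a monomial. -/
def blockDegree (m : ((b : β) × ι b) →₀ ℕ) : β →₀ ℕ :=
  Finsupp.equivFunOnFinite.symm fun b => ∑ i, m ⟨b, i⟩

omit [DecidableEq β] in
theorem exists_blockTensor_eq_monomial {d : ℕ} (m : ((b : β) × ι b) →₀ ℕ)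
    (h : ∀ b, ∑ i, m ⟨b, i⟩ = d) :
    ∃ J : Fin d → (b : β) → ι b, ∀ x : (b : β) → ι b → Qbar,
      ∏ s, x s.1 s.2 ^ m s = ∏ t, blockTensor x (J t) := by
  have hc : ∀ b, (∑ i, Multiset.replicate (m ⟨b, i⟩) i).toList.length = d := fun b => by
    simp [Multiset.length_toList, Multiset.card_sum, h b]
  refine ⟨fun t b => (∑ i, Multiset.replicate (m ⟨b, i⟩) i).toList.get
    (Fin.cast (hc b).symm t), fun x => ?_⟩
  simp only [blockTensor]
  rw [Finset.prod_comm, Fintype.prod_sigma]
  refine Finset.prod_congr rfl fun b _ => ?_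
  set L := (∑ i, Multiset.replicate (m ⟨b, i⟩) i).toList
  have h1 : ∏ t : Fin d, x b (L.get (Fin.cast (hc b).symm t)) = (L.map (x b)).prod := by
    rw [← Fin.prod_univ_fun_getElem]
    exact Fintype.prod_equiv (finCongr (hc b).symm) _ _ fun t => rfl
  rw [h1]
  have h2 : (L.map (x b)).prod = ((∑ i, Multiset.replicate (m ⟨b, i⟩) i).map (x b)).prod := by
    rw [← Multiset.prod_coe, ← Multiset.map_coe, Multiset.coe_toList]
  rw [h2, ← Multiset.coe_mapAddMonoidHom, map_sum, Multiset.prod_sum]
  simp

omit [Fintype β] [(b : β) → Fintype (ι b)] [DecidableEq β] in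
theorem eval_eval₂_C_mul_X (t : β → Qbar) (x : (b : β) → ι b → Qbar)
    (p : MvPolynomial ((b : β) × ι b) Qbar) :
    eval t (eval₂Hom C (fun s => C (x s.1 s.2) * X s.1) p) =
      eval (fun s => t s.1 * x s.1 s.2) p := by
  induction p using MvPolynomial.induction_on with
  | C a => simp
  | add p q hp hq => simp only [map_add, hp, hq]
  | mul_X p s hp =>
    rw [map_mul, map_mul, hp, map_mul]
    simp [mul_comm]

omit [DecidableEq β] [(b : β) → Fintype (ι b)] in
/-- A polynomial vanishing at all scalings of `x` substitutes to zero. -/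
theorem eval₂_C_mul_X_eq_zero (x : (b : β) → ι b → Qbar)
    {r : MvPolynomial ((b : β) × ι b) Qbar}
    (h : ∀ t : β → Qbar, (∀ b, t b ≠ 0) → eval (fun s => t s.1 * x s.1 s.2) r = 0) :
    eval₂Hom C (fun s => C (x s.1 s.2) * X s.1) r = 0 := by
  have h0 : (∏ b : β, X b) * eval₂Hom C (fun s => C (x s.1 s.2) * X s.1) r = 0 :=
    MvPolynomial.funext fun t => by
      rw [map_mul, map_zero, map_prod]
      by_cases ht : ∀ b, t b ≠ 0
      · rw [eval_eval₂_C_mul_X, h t ht, mul_zero]
      · push Not at ht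
        obtain ⟨b, hb⟩ := ht
        rw [Finset.prod_eq_zero (Finset.mem_univ b) (by simpa using hb), zero_mul]
  exact (mul_eq_zero.mp h0).resolve_left (Finset.prod_ne_zero_iff.mpr fun b _ => X_ne_zero b)

omit [DecidableEq β] in
/-- The coefficient of constant block degree `d` after substituting `x b i * T b`. -/
theorem coeff_eval₂_C_mul_X (x : (b : β) → ι b → Qbar) (p : MvPolynomial ((b : β) × ι b) Qbar)
    (d : ℕ) :
    coeff (Finsupp.equivFunOnFinite.symm fun _ : β => d)
        (eval₂Hom C (fun s => C (x s.1 s.2) * X s.1) p) =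
      ∑ m ∈ p.support.filter (fun m => ∀ b, ∑ i, m ⟨b, i⟩ = d),
        coeff m p * ∏ s, x s.1 s.2 ^ m s := by
  classical
  conv_lhs => rw [as_sum p]
  rw [map_sum, coeff_sum, Finset.sum_filter]
  refine Finset.sum_congr rfl fun m _ => ?_
  have hm : eval₂Hom C (fun s => C (x s.1 s.2) * X s.1) (monomial m (coeff m p)) =
      monomial (blockDegree m) (coeff m p * ∏ s, x s.1 s.2 ^ m s) := by
    simp only [coe_eval₂Hom, eval₂_monomial]
    rw [Finsupp.prod_fintype _ _ (by simp), monomial_eq, C_mul, mul_assoc]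
    congr 1
    rw [map_prod, Finsupp.prod_fintype _ _ (by simp)]
    simp only [mul_pow, Finset.prod_mul_distrib, ← map_pow]
    congr 1
    rw [Fintype.prod_sigma]
    exact Finset.prod_congr rfl fun b _ => by simp [blockDegree, Finset.prod_pow_eq_pow_sum]
  rw [hm, coeff_monomial]
  refine if_congr ?_ rfl rfl
  simp [blockDegree, funext_iff]

/-- A lower height bound: forms of degree `k` with no common zero on the closure of the scalings
of `S` have height at least `k` times the height on `S`. -/
theorem hgt_ge_of_no_zero {A : Type*} [Fintype A] {k : ℕ}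
    {F : A → ((b : β) → ι b → Qbar) → Qbar} (hF : ∀ a, IsForm k (F a))
    (S : Set ((b : β) → ι b → Qbar))
    (hzero : ∀ x : (b : β) → ι b → Qbar, (∀ b, x b ≠ 0) →
      (∀ p : MvPolynomial ((b : β) × ι b) Qbar,
        (∀ y ∈ S, ∀ c : β → Qbar, (∀ b, c b ≠ 0) → eval (fun s => c s.1 * y s.1 s.2) p = 0) →
        eval (fun s => x s.1 s.2) p = 0) →
      ∃ a, F a x ≠ 0) :
    ∃ C : ℝ, ∀ x ∈ S, (∀ b, x b ≠ 0) → k * (∑ b, hgt (x b)) ≤ hgt (fun a => F a x) + C := by
  classical
  choose c hc using hF
  let mono : ((b : β) → ι b) → MvPolynomial ((b : β) × ι b) Qbar := fun J => ∏ b, X ⟨b, J b⟩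
  have emono : ∀ (x : (b : β) → ι b → Qbar) J,
      eval (fun s => x s.1 s.2) (mono J) = blockTensor x J := fun x J => by
    simp [mono, blockTensor]
  let P : A → MvPolynomial ((b : β) × ι b) Qbar :=
    fun a => ∑ J, C (c a J) * ∏ t, mono (J t)
  have eP : ∀ (x : (b : β) → ι b → Qbar) a, eval (fun s => x s.1 s.2) (P a) = F a x :=
    fun x a => by simp [P, emono, hc]
  let V : Set (((b : β) × ι b) → Qbar) :=
    {z | ∃ y ∈ S, ∃ c : β → Qbar, (∀ b, c b ≠ 0) ∧ z = fun s => c s.1 * y s.1 s.2}
  let I : Ideal (MvPolynomial ((b : β) × ι b) Qbar) := vanishingIdeal Qbar V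
  let I' := I ⊔ Ideal.span (Set.range P)
  have hmem : ∀ J, mono J ∈ I'.radical := fun J => by
    rw [← vanishingIdeal_zeroLocus_eq_radical (K := Qbar), mem_vanishingIdeal_iff]
    intro z hz
    rw [mem_zeroLocus_iff] at hz
    by_contra hne
    let x : (b : β) → ι b → Qbar := fun b i => z ⟨b, i⟩
    have hzx : z = fun s => x s.1 s.2 := rfl
    rw [hzx, aeval_eq_eval, emono] at hne
    have hx : ∀ b, x b ≠ 0 := fun b h =>
      hne (Finset.prod_eq_zero (Finset.mem_univ b) (by simp [h]))
    obtain ⟨a, ha⟩ := hzero x hx fun p hp => by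
      have := hz p (Ideal.mem_sup_left (mem_vanishingIdeal_iff.mpr fun w hw => by
        obtain ⟨y, hy, c', hc', rfl⟩ := hw
        simpa [aeval_eq_eval] using hp y hy c' hc'))
      simpa [aeval_eq_eval, hzx] using this
    refine ha ?_
    have := hz (P a) (Ideal.mem_sup_right (Ideal.subset_span ⟨a, rfl⟩))
    rwa [hzx, aeval_eq_eval, eP] at this
  choose e he using fun J => Ideal.mem_radical_iff.mp (hmem J)
  set E := k + ∑ J, e J with hE
  have hE' : ∀ J, mono J ^ E ∈ I' := fun J => by
    obtain ⟨d, hd⟩ := Nat.exists_eq_add_of_le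
      ((Finset.single_le_sum (fun j _ => Nat.zero_le (e j)) (Finset.mem_univ J)).trans
        (Nat.le_add_left (∑ J, e J) k) : e J ≤ E)
    rw [hd, pow_add]
    exact I'.mul_mem_right _ (he J)
  choose r hr w hw heq using fun J => Submodule.mem_sup.mp (hE' J)
  choose q hq using fun J => Ideal.mem_span_range_iff_exists_fun.mp (hw J)
  -- the coefficient forms
  let G : ((b : β) → ι b) × A → ((b : β) → ι b → Qbar) → Qbar := fun p x =>
    ∑ m ∈ (q p.1 p.2).support.filter (fun m => ∀ b, ∑ i, m ⟨b, i⟩ = E - k),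
      coeff m (q p.1 p.2) * ∏ s, x s.1 s.2 ^ m s
  have hG : ∀ p, IsForm (E - k) (G p) := fun p => by
    refine IsForm.sum _ fun m hm => IsForm.smul ?_ _
    obtain ⟨J, hJ⟩ := exists_blockTensor_eq_monomial m (Finset.mem_filter.mp hm).2
    refine IsForm.congr (f := fun x => ∏ t, blockTensor x (J t)) ?_ hJ
    simpa using IsForm.prod Finset.univ (k := 1) fun t _ => IsForm.coord (J t)
  obtain ⟨C₁, hC₁⟩ := IsForm.hgt_le hG
  -- the bilinear contraction
  obtain ⟨C₂, hC₂⟩ := exists_hgt_linear_le
    (κ := (b : β) → ι b) (ι := (((b : β) → ι b) × A) × A)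
    (fun J p => if p.1.1 = J ∧ p.1.2 = p.2 then 1 else 0)
  refine ⟨C₁ + C₂, fun x hxS hx => ?_⟩
  -- the identity after substituting `x b i * T b`
  let φ : MvPolynomial ((b : β) × ι b) Qbar →+* MvPolynomial β Qbar :=
    eval₂Hom C (fun s => C (x s.1 s.2) * X s.1)
  have hkey : ∀ J, blockTensor x J ^ E = ∑ a, G (J, a) x * F a x := fun J => by
    have hφr : φ (r J) = 0 := eval₂_C_mul_X_eq_zero x fun t ht => by
      simpa [aeval_eq_eval] using (mem_vanishingIdeal_iff.mp (hr J))
        (fun s => t s.1 * x s.1 s.2) ⟨x, hxS, t, ht, rfl⟩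
    have hX : (∏ b : β, (X b : MvPolynomial β Qbar)) =
        monomial (Finsupp.equivFunOnFinite.symm fun _ => 1) 1 := by
      rw [monomial_eq, C_1, one_mul, Finsupp.prod_fintype _ _ (by simp)]
      simp
    have hpow : ∀ n : ℕ, (∏ b : β, (X b : MvPolynomial β Qbar)) ^ n =
        monomial (Finsupp.equivFunOnFinite.symm fun _ => n) 1 := fun n => by
      rw [hX, monomial_pow, one_pow]
      congr
      ext b
      simp
    have hφmono : ∀ J', φ (mono J') = C (blockTensor x J') * ∏ b, X b := fun J' => by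
      simp [φ, mono, blockTensor, Finset.prod_mul_distrib]
    have hφP : ∀ a, φ (P a) = C (F a x) * (∏ b, X b) ^ k := fun a => by
      rw [hc]
      simp only [P, map_sum, map_mul, map_prod, hφmono, Finset.sum_mul, Finset.prod_mul_distrib,
        Finset.prod_const, Finset.card_univ, Fintype.card_fin]
      refine Finset.sum_congr rfl fun J' _ => ?_
      simp [φ, mul_assoc]
    have hφ := congrArg φ (heq J)
    rw [← hq J, map_add, hφr, zero_add, map_sum, map_pow, hφmono, mul_pow, hpow] at hφ
    simp only [map_mul, hφP, hpow] at hφ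
    have h2 := congrArg (coeff (Finsupp.equivFunOnFinite.symm fun _ : β => E)) hφ
    rw [coeff_sum, ← map_pow, C_mul_monomial, mul_one, coeff_monomial, if_pos rfl] at h2
    rw [← h2]
    refine Finset.sum_congr rfl fun a _ => ?_
    rw [C_mul_monomial, mul_one, coeff_mul_monomial', if_pos (by intro b; simp [hE])]
    congr 1
    have hd : (Finsupp.equivFunOnFinite.symm fun _ : β => E) -
        Finsupp.equivFunOnFinite.symm (fun _ : β => k) =
        Finsupp.equivFunOnFinite.symm fun _ : β => E - k := by ext b; simp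
    rw [hd]
    exact coeff_eval₂_C_mul_X x (q J a) (E - k)
  have h3 : (E : ℝ) * ∑ b, hgt (x b) =
      hgt (fun J => blockTensor x J ^ E) := by
    rw [hgt_pow]
    unfold blockTensor
    rw [hgt_prod_eq hx]
  have h4 := hC₂ (fun p : (((b : β) → ι b) × A) × A => G p.1 x * F p.2 x)
  have h5 : (fun J => ∑ p : (((b : β) → ι b) × A) × A,
      (if p.1.1 = J ∧ p.1.2 = p.2 then (1 : Qbar) else 0) * (G p.1 x * F p.2 x)) =
      fun J => blockTensor x J ^ E := funext fun J => by
    rw [hkey, Fintype.sum_prod_type, Fintype.sum_prod_type]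
    simp [ite_and, ite_mul, Finset.sum_ite_eq']
  rw [h5, ← h3] at h4
  have h6 : hgt (fun p : (((b : β) → ι b) × A) × A => G p.1 x * F p.2 x) ≤
      hgt (fun p => G p x) + hgt (fun a => F a x) :=
    hgt_mul_le (fun p => G p x) (fun a => F a x)
  have h7 := hC₁ x
  have hEk : ((E - k : ℕ) : ℝ) = (E : ℝ) - k := by
    rw [Nat.cast_sub]; omega
  rw [hEk, sub_mul] at h7
  linarith

end Fermat.Agent.MW

end
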