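import Fermat.Agent.MW.Level

/-!
# The image of the curve is closed

A nonzero vector satisfying all polynomial relations of the embedded curve is a multiple of
a point of the curve. This gives the absence of common zeros needed by the height certificates.
-/

noncomputable section

open AlgebraicCurve Fermat.Agent.FF MvPolynomial

namespace Fermat.Agent.MW

variable {K F : Type*} [Field K] [Field F] [Algebra K F] [IsAlgClosed K] [IsFunctionField K F]

/-- Values at a place commute with polynomial evaluation. -/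
theorem valAt_aeval {σ : Type*} (v : Place K F)
    (g : σ → F) (hg : ∀ i, g i ∈ v.toValuationSubring) (p : MvPolynomial σ K) :
    aeval g p ∈ v.toValuationSubring ∧
      valAt v (aeval g p) = eval (fun i => valAt v (g i)) p := by
  induction p using MvPolynomial.induction_on with
  | C a => simp [valAt_algebraMap, v.algebraMap_mem' a]
  | add p q hp hq =>
    rw [map_add, map_add]
    exact ⟨add_mem hp.1 hq.1, by rw [valAt_add v hp.1 hq.1, hp.2, hq.2]⟩
  | mul_X p i hp =>
    rw [map_mul, map_mul, aeval_X, eval_X]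
    exact ⟨mul_mem hp.1 (hg i), by rw [valAt_mul v hp.1 (hg i), hp.2]⟩

omit [IsAlgClosed K] [IsFunctionField K F] in
/-- Homogenisation of a polynomial with respect to one coordinate. -/
theorem exists_homogenization {σ : Type*} [Finite σ] (q : MvPolynomial σ K) (i₀ : σ) :
    ∃ (G : MvPolynomial σ K) (D : ℕ),
      (∀ x : σ → F, x i₀ ≠ 0 → aeval x G = x i₀ ^ D * aeval (fun i => x i / x i₀) q) ∧
      (∀ x : σ → K, x i₀ ≠ 0 → eval x G = x i₀ ^ D * eval (fun i => x i / x i₀) q) ∧
      ∀ (x : σ → K) (c : K), eval (c • x) G = c ^ D * eval x G := by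
  classical
  have := Fintype.ofFinite σ
  let δ : (σ →₀ ℕ) → ℕ := fun m => ∑ i, m i
  set D := q.support.sup δ with hD
  refine ⟨∑ m ∈ q.support, MvPolynomial.C (coeff m q) *
    ((∏ i, X i ^ m i) * X i₀ ^ (D - δ m)), D, ?_, ?_, ?_⟩
  all_goals intro x
  rotate_left 2
  · intro c
    simp only [map_sum, Finset.mul_sum, map_mul, map_pow, map_prod, eval_X, eval_C, Pi.smul_apply,
      smul_eq_mul, mul_pow, Finset.prod_mul_distrib, Finset.prod_pow_eq_pow_sum]
    refine Finset.sum_congr rfl fun m hm => ?_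
    have hle : δ m ≤ D := Finset.le_sup hm
    rw [show c ^ D = c ^ (D - δ m) * c ^ (δ m) by rw [← pow_add, Nat.sub_add_cancel hle]]
    ring
  all_goals
    intro hx
    conv_rhs => rw [as_sum q]
    simp only [map_sum, Finset.mul_sum, map_mul, map_pow, map_prod, aeval_X, aeval_C,
      aeval_monomial, eval_X, eval_C, eval_monomial]
    refine Finset.sum_congr rfl fun m hm => ?_
    rw [Finsupp.prod_fintype _ _ (by simp)]
    simp only [div_pow, Finset.prod_div_distrib, Finset.prod_pow_eq_pow_sum]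
    have hle : δ m ≤ D := Finset.le_sup hm
    rw [show x i₀ ^ D = x i₀ ^ (D - δ m) * x i₀ ^ (δ m) by rw [← pow_add, Nat.sub_add_cancel hle]]
    field_simp
    ring

variable (Φ : Frame K F) (n : ℕ)

/-- A vector in the zero set of all relations is a point of the curve. -/
theorem Frame.exists_eq_smul_X (h : 2 * gen K F + 1 ≤ n) {y : Fin (Φ.dim n) → K} (hy : y ≠ 0)
    (hG : ∀ p : MvPolynomial (Fin (Φ.dim n)) K,
      (∀ (v : Place K F) (c : K), c ≠ 0 → eval (c • Φ.X n v) p = 0) → eval y p = 0) :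
    ∃ (v : Place K F) (c : K), c ≠ 0 ∧ y = c • Φ.X n v := by
  classical
  obtain ⟨i₀, hi₀⟩ := Function.ne_iff.mp hy
  simp only [Pi.zero_apply] at hi₀
  have hfn0 : ∀ i, Φ.fn n i ≠ 0 := fun i h0 =>
    (Φ.basis n).ne_zero i (Subtype.ext h0)
  set g : Fin (Φ.dim n) → F := fun i => Φ.fn n i / Φ.fn n i₀ with hg
  have hker : ∀ q : MvPolynomial (Fin (Φ.dim n)) K, aeval g q = 0 →
      eval (fun i => y i / y i₀) q = 0 := by
    intro q hq
    obtain ⟨G, D, hGF, hGK, hGs⟩ := exists_homogenization (F := F) q i₀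
    have h0 : aeval (Φ.fn n) G = 0 := by rw [hGF _ (hfn0 i₀)]; simp [← hg, hq]
    have hGy : eval y G = 0 := hG G fun v c _ => by
      rw [hGs]
      set π := unif v ^ (Φ.DO n v)
      have hmem : ∀ i, Φ.fn n i * π ∈ v.toValuationSubring := fun i =>
        (mul_zpow_mem_iff v (unif_ne_zero v) (ord_unif v)).mpr (Φ.fn_mem n i v)
      have h1 := (valAt_aeval v _ hmem G).2
      have h2 : aeval (fun i => Φ.fn n i * π) G = π ^ D * aeval (Φ.fn n) G := by
        rw [hGF _ (mul_ne_zero (hfn0 i₀) (zpow_ne_zero _ (unif_ne_zero v))), hGF _ (hfn0 i₀)]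
        have h3 : (fun i => Φ.fn n i * π / (Φ.fn n i₀ * π)) =
            fun i => Φ.fn n i / Φ.fn n i₀ :=
          funext fun i => mul_div_mul_right _ _ (zpow_ne_zero _ (unif_ne_zero v))
        rw [h3]
        ring
      rw [h2, h0, mul_zero, valAt_zero] at h1
      rw [show Φ.X n v = fun i => valAt v (Φ.fn n i * π) from rfl, ← h1, mul_zero]
    rw [hGK y hi₀] at hGy
    exact (mul_eq_zero.mp hGy).resolve_left (pow_ne_zero _ hi₀)
  -- the induced point of `K[fn i / fn i₀]`
  let R := (aeval g : MvPolynomial (Fin (Φ.dim n)) K →ₐ[K] F).range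
  let ψ : R →+* K :=
    RingHom.liftOfSurjective (aeval g).rangeRestrict.toRingHom (AlgHom.rangeRestrict_surjective _)
      ⟨eval (fun i => y i / y i₀), fun q hq => by
        rw [RingHom.mem_ker] at hq ⊢
        exact hker q (congrArg Subtype.val hq)⟩
  have hψ : ∀ q, ψ ⟨aeval g q, q, rfl⟩ = eval (fun i => y i / y i₀) q := fun q =>
    RingHom.liftOfRightInverse_comp_apply _ _ _ _ q
  let I : Ideal R.toSubring := RingHom.ker ψ
  obtain ⟨A, hRA, hIA⟩ := Ideal.image_subset_nonunits_valuationSubring I (RingHom.ker_ne_top ψ)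
  have hK : ∀ a, algebraMap K F a ∈ A := fun a => hRA (R.algebraMap_mem a)
  have hgI : ∀ i, (⟨g i - algebraMap K F (y i / y i₀),
      ⟨MvPolynomial.X i - C (y i / y i₀), by simp⟩⟩ : R.toSubring) ∈ I := fun i => by
    have := hψ (MvPolynomial.X i - C (y i / y i₀))
    simp only [map_sub, aeval_X, aeval_C, eval_X, eval_C, sub_self] at this
    exact this
  have hAtop : A ≠ ⊤ := by
    intro htop
    have hall : ∀ i, g i = algebraMap K F (y i / y i₀) := fun i => by
      have h1 := hIA ⟨_, hgI i, rfl⟩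
      rw [htop] at h1
      by_contra hne
      have h2 : (g i - algebraMap K F (y i / y i₀))⁻¹ ∈ (⊤ : ValuationSubring F) := trivial
      have h3 := ((⊤ : ValuationSubring F).valuation_le_one_iff _).mpr h2
      rw [map_inv₀, inv_le_one₀ (zero_lt_iff.mpr
        ((Valuation.ne_zero_iff _).mpr (sub_ne_zero.mpr hne)))] at h3
      exact absurd h3 (not_le.mpr ((⊤ : ValuationSubring F).mem_nonunits_iff.mp h1))
    have hle : riemannRochSpace (Φ.DO n) ≤ Submodule.span K {Φ.fn n i₀} := by
      rw [← Φ.span_range_fn n, Submodule.span_le]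
      rintro f ⟨i, rfl⟩
      refine Submodule.mem_span_singleton.mpr ⟨y i / y i₀, ?_⟩
      rw [Algebra.smul_def, ← hall i]
      exact div_mul_cancel₀ _ (hfn0 i₀)
    have h1 := Submodule.finrank_mono hle
    rw [finrank_span_singleton (hfn0 i₀)] at h1
    have h2 := Φ.dim_eq n (by omega)
    unfold Frame.dim ell at h2
    omega
  set v := placeOfValuationSubring A hK hAtop
  have hgv : ∀ i, g i ∈ v.toValuationSubring ∧ valAt v (g i) = y i / y i₀ := fun i => by
    have h1 : g i ∈ v.toValuationSubring := hRA ⟨MvPolynomial.X i, aeval_X g i⟩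
    refine ⟨h1, ?_⟩
    have h2 : g i - algebraMap K F (y i / y i₀) ∈ v.toValuationSubring :=
      sub_mem h1 (v.algebraMap_mem' _)
    have h3 : valAt v (g i - algebraMap K F (y i / y i₀)) = 0 := by
      rw [valAt_of_mem v h2, valHom, RingHom.comp_apply, map_eq_zero,
        IsLocalRing.residue_eq_zero_iff, ← SetLike.mem_coe]
      obtain ⟨h4, h5⟩ := ValuationSubring.mem_nonunits_iff_exists_mem_maximalIdeal.mp
        (hIA ⟨_, hgI i, rfl⟩ : g i - algebraMap K F (y i / y i₀) ∈ A.nonunits)
      exact h5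
    have h6 := valAt_add v h2 (v.algebraMap_mem' (y i / y i₀))
    rwa [sub_add_cancel, h3, valAt_algebraMap, zero_add] at h6
  set π := unif v ^ (Φ.DO n v)
  have hXi : ∀ i, Φ.X n v i = y i / y i₀ * Φ.X n v i₀ := fun i => by
    have h1 : Φ.fn n i * π = g i * (Φ.fn n i₀ * π) := by
      rw [hg]; field_simp [hfn0 i₀]
    show valAt v (Φ.fn n i * π) = y i / y i₀ * valAt v (Φ.fn n i₀ * π)
    rw [h1, valAt_mul v (hgv i).1
      ((mul_zpow_mem_iff v (unif_ne_zero v) (ord_unif v)).mpr (Φ.fn_mem n i₀ v)), (hgv i).2]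
  have hX0 : Φ.X n v i₀ ≠ 0 := fun h0 =>
    Φ.X_ne_zero n (by omega) v (funext fun i => by rw [hXi i, h0, mul_zero]; rfl)
  refine ⟨v, y i₀ / Φ.X n v i₀, div_ne_zero hi₀ hX0, funext fun i => ?_⟩
  rw [Pi.smul_apply, smul_eq_mul, hXi i]
  field_simp

end Fermat.Agent.MW

end
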