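import Fermat.Agent.MW.Cert

/-!
# Linear algebra behind the comparison of families in a fixed space

A family of vectors with nonvanishing minors bounds the heights of the other families in the
same space, and a Plücker vector is reproduced by its contractions. Used to compare different
ways of writing `L(k m O - E)`.
-/

noncomputable section

namespace Fermat.Agent.MW

variable {N μ : ℕ} {A B : Type*}

/-- The `ν × ν` minors of a family. -/
def minors {ν : ℕ} (u : A → Fin N → Qbar) : (Fin ν → A) × (Fin ν → Fin N) → Qbar :=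
  fun p => Matrix.det (Matrix.of fun i j => u (p.1 i) (p.2 j))

/-- The values of a family at a vector. -/
def evFam (u : A → Fin N → Qbar) (X : Fin N → Qbar) : A → Qbar := fun a => ∑ s, u a s * X s

/-- The uncurried family. -/
def flatFam (u : A → Fin N → Qbar) : A × Fin N → Qbar := fun p => u p.1 p.2

variable [Fintype A] [Fintype B]

theorem exists_hgt_det_cons_le (A B : Type*) [Fintype A] [Fintype B] (N μ : ℕ) :
    ∃ C : ℝ, ∀ (u : A → Fin N → Qbar) (v : B → Fin N → Qbar),
      hgt (fun q : B × (Fin μ → A) × (Fin (μ + 1) → Fin N) => Matrix.det (Matrix.of fun i j =>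
        (Fin.cons (v q.1) (fun k => u (q.2.1 k)) : Fin (μ + 1) → Fin N → Qbar) i (q.2.2 j))) ≤
      hgt (flatFam v) + μ * hgt (flatFam u) + C := by
  classical
  obtain ⟨C, hC⟩ := exists_hgt_linear_le
    (κ := B × (Fin μ → A) × (Fin (μ + 1) → Fin N))
    (ι := (B × Fin N) × (Fin μ → A × Fin N))
    (fun q p => ∑ π : Equiv.Perm (Fin (μ + 1)),
      if p = ((q.1, q.2.2 (π 0)), fun k => (q.2.1 k, q.2.2 (π k.succ))) then
        ((Equiv.Perm.sign π : ℤ) : Qbar) else 0)
  refine ⟨C, fun u v => ?_⟩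
  have h := hC (fun p => flatFam v p.1 * ∏ k, flatFam u (p.2 k))
  refine le_trans (le_of_eq ?_) (h.trans ?_)
  · congr 1
    funext q
    rw [Matrix.det_apply', ← Equiv.sum_comp (Equiv.inv (Equiv.Perm (Fin (μ + 1))))]
    simp only [Finset.sum_mul]
    rw [Finset.sum_comm]
    refine Finset.sum_congr rfl fun π _ => ?_
    simp only [Equiv.inv_apply, Equiv.Perm.sign_inv]
    rw [← Equiv.prod_comp π, Fin.prod_univ_succ]
    simp [ite_mul, flatFam]
  · gcongr
    refine (hgt_mul_le (flatFam v)
      (fun J : Fin μ → A × Fin N => ∏ k, flatFam u (J k))).trans ?_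
    gcongr
    refine (hgt_prod_le (fun _ : Fin μ => flatFam u)).trans ?_
    simp

variable {u : A → Fin N → Qbar} {v : B → Fin N → Qbar}

theorem det_extend_eq_zero {V : Submodule Qbar (Fin N → Qbar)}
    (hV : Module.finrank Qbar V ≤ μ + 1) (w : Fin (μ + 2) → Fin N → Qbar) (hw : ∀ i, w i ∈ V)
    (c : Fin (μ + 2) → Fin N) : Matrix.det (Matrix.of fun i j => w i (c j)) = 0 := by
  have hli : ¬LinearIndependent Qbar (fun i => (⟨w i, hw i⟩ : V)) := fun h => by
    have := h.fintype_card_le_finrank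
    simp only [Fintype.card_fin] at this
    omega
  rw [Fintype.not_linearIndependent_iff] at hli
  obtain ⟨g, hg, i₀, hi₀⟩ := hli
  rw [← Matrix.exists_vecMul_eq_zero_iff]
  refine ⟨g, fun h => hi₀ (congrFun h i₀), funext fun j => ?_⟩
  have := congrArg (fun x : V => (x : Fin N → Qbar) (c j)) hg
  simpa [Matrix.vecMul, dotProduct] using this

/-- Comparison: a family with nonvanishing minors dominates the others. -/
theorem exists_compare (A B : Type*) [Fintype A] [Fintype B] (N μ : ℕ) :
    ∃ C : ℝ, ∀ (V : Submodule Qbar (Fin N → Qbar)), Module.finrank Qbar V ≤ μ + 1 →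
      ∀ (u : A → Fin N → Qbar) (v : B → Fin N → Qbar) (X : Fin N → Qbar),
      (∀ a, u a ∈ V) → (∀ b, v b ∈ V) → minors (ν := μ + 1) u ≠ 0 → evFam v X ≠ 0 →
      hgt (minors (ν := μ + 1) u) + hgt (evFam v X) ≤
        hgt (flatFam v) + μ * hgt (flatFam u) + hgt (evFam u X) + C := by
  classical
  obtain ⟨C₁, hC₁⟩ := exists_hgt_det_cons_le A B N μ
  obtain ⟨C₂, hC₂⟩ := exists_hgt_linear_le
    (κ := ((Fin (μ + 1) → A) × (Fin (μ + 1) → Fin N)) × B)
    (ι := (B × (Fin μ → A) × (Fin (μ + 1) → Fin N)) × A)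
    (fun q p => ∑ j : Fin (μ + 1),
      if p = ((q.2, q.1.1 ∘ j.succAbove, q.1.2), q.1.1 j) then
        -((-1 : Qbar) ^ (j.succ : ℕ)) else 0)
  refine ⟨C₁ + C₂, fun V hV u v X hu hv hΔ hev => ?_⟩
  set D := fun q : B × (Fin μ → A) × (Fin (μ + 1) → Fin N) => Matrix.det (Matrix.of fun i j =>
        (Fin.cons (v q.1) (fun k => u (q.2.1 k)) : Fin (μ + 1) → Fin N → Qbar) i (q.2.2 j))
  have key : ∀ (q : ((Fin (μ + 1) → A) × (Fin (μ + 1) → Fin N)) × B),
      minors u q.1 * evFam v X q.2 = ∑ j : Fin (μ + 1), -((-1 : Qbar) ^ (j.succ : ℕ)) *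
        (D (q.2, q.1.1 ∘ j.succAbove, q.1.2) * evFam u X (q.1.1 j)) := by
    rintro ⟨⟨σ, τ⟩, l⟩
    have hs : ∀ s, minors u (σ, τ) * v l s + ∑ j : Fin (μ + 1), (-1 : Qbar) ^ (j.succ : ℕ) *
        u (σ j) s * D (l, σ ∘ j.succAbove, τ) = 0 := fun s => by
      have h := det_extend_eq_zero hV (Fin.cons (v l) fun k => u (σ k))
        (fun i => Fin.cases (hv l) (fun k => hu (σ k)) i) (Fin.cons s τ)
      rw [Matrix.det_succ_column_zero, Fin.sum_univ_succ] at h
      rw [← h]
      congr 1
      · simp [minors, mul_comm]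
        left
        rfl
      · refine Finset.sum_congr rfl fun j _ => ?_
        simp only [Matrix.of_apply, Fin.cons_succ, Fin.cons_zero]
        congr 1
        show Matrix.det _ = Matrix.det _
        congr 1
        ext i k
        refine Fin.cases ?_ (fun i' => ?_) i <;>
          simp [Matrix.submatrix, Fin.succ_succAbove_succ]
    have h2 : ∑ s, (minors u (σ, τ) * v l s + ∑ j : Fin (μ + 1), (-1 : Qbar) ^ (j.succ : ℕ) *
        u (σ j) s * D (l, σ ∘ j.succAbove, τ)) * X s = 0 :=
      Finset.sum_eq_zero fun s _ => by rw [hs s, zero_mul]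
    simp only [add_mul, Finset.sum_add_distrib, Finset.sum_mul] at h2
    rw [Finset.sum_comm] at h2
    simp only [evFam, Finset.mul_sum]
    simp only [← mul_assoc]
    rw [eq_neg_of_add_eq_zero_left h2, ← Finset.sum_neg_distrib]
    refine Finset.sum_congr rfl fun j _ => ?_
    rw [← Finset.sum_neg_distrib]
    exact Finset.sum_congr rfl fun s _ => by ring
  have h1 : hgt (minors (ν := μ + 1) u) + hgt (evFam v X) = hgt (fun q :
      ((Fin (μ + 1) → A) × (Fin (μ + 1) → Fin N)) × B => minors u q.1 * evFam v X q.2) :=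
    (hgt_mul_eq hΔ hev).symm
  have h2 := hC₂ (fun p : (B × (Fin μ → A) × (Fin (μ + 1) → Fin N)) × A => D p.1 * evFam u X p.2)
  have h3 := hgt_mul_le D (evFam u X)
  have h4 := hC₁ u v
  rw [h1]
  refine le_trans (le_trans (le_of_eq (congrArg hgt (funext fun q => ?_))) h2) (by linarith)
  rw [key q]
  simp only [Finset.sum_mul]
  rw [Finset.sum_comm]
  simp [ite_mul]

omit [Fintype A] in
/-- Reproduction: the contractions of a Plücker vector dominate. -/
theorem exists_reproduce (A : Type*) [Fintype A] (N μ : ℕ) :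
    ∃ C : ℝ, ∀ (V : Submodule Qbar (Fin N → Qbar)), Module.finrank Qbar V ≤ μ + 1 →
      ∀ (e : Fin (μ + 1) → Fin N → Qbar) (u : A → Fin N → Qbar) (X : Fin N → Qbar),
      (∀ i, e i ∈ V) → (∀ a, u a ∈ V) →
      (fun τ : Fin (μ + 1) → Fin N => Matrix.det (Matrix.of fun i j => e i (τ j))) ≠ 0 →
      evFam u X ≠ 0 →
      hgt (fun τ : Fin (μ + 1) → Fin N => Matrix.det (Matrix.of fun i j => e i (τ j))) +
          hgt (evFam u X) ≤
        hgt (flatFam u) + hgt (evFam (fun τ' : Fin μ → Fin N => fun s =>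
          Matrix.det (Matrix.of fun i j => e i ((Fin.cons s τ' : Fin (μ + 1) → Fin N) j))) X) +
          C := by
  classical
  obtain ⟨C, hC⟩ := exists_hgt_linear_le
    (κ := (Fin (μ + 1) → Fin N) × A) (ι := (A × Fin N) × (Fin μ → Fin N))
    (fun q p => ∑ j : Fin (μ + 1),
      if p = ((q.2, q.1 j), q.1 ∘ j.succAbove) then -((-1 : Qbar) ^ (j.succ : ℕ)) else 0)
  refine ⟨C, fun V hV e u X he hu hπ hev => ?_⟩
  set π := fun τ : Fin (μ + 1) → Fin N => Matrix.det (Matrix.of fun i j => e i (τ j))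
  set w := evFam (fun τ' : Fin μ → Fin N => fun s =>
    Matrix.det (Matrix.of fun i j => e i ((Fin.cons s τ' : Fin (μ + 1) → Fin N) j))) X with hw
  have key : ∀ q : (Fin (μ + 1) → Fin N) × A, π q.1 * evFam u X q.2 =
      ∑ j : Fin (μ + 1), -((-1 : Qbar) ^ (j.succ : ℕ)) *
        (u q.2 (q.1 j) * w (q.1 ∘ j.succAbove)) := by
    rintro ⟨τ, a⟩
    have hs : ∀ s, π τ * u a s + ∑ j : Fin (μ + 1), (-1 : Qbar) ^ (j.succ : ℕ) *
        u a (τ j) * π (Fin.cons s (τ ∘ j.succAbove)) = 0 := fun s => by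
      have h := det_extend_eq_zero hV (Fin.cons (u a) e)
        (fun i => Fin.cases (hu a) he i) (Fin.cons s τ)
      rw [Matrix.det_succ_row_zero, Fin.sum_univ_succ] at h
      rw [← h]
      congr 1
      · simp [π, mul_comm]
        left
        rfl
      · refine Finset.sum_congr rfl fun j _ => ?_
        simp only [Matrix.of_apply, Fin.cons_succ, Fin.cons_zero]
        congr 1
        show Matrix.det _ = Matrix.det _
        congr 1
        ext i k
        refine Fin.cases ?_ (fun k' => ?_) k <;>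
          simp [Matrix.submatrix, Fin.succ_succAbove_succ]
    have h2 : ∑ s, (π τ * u a s + ∑ j : Fin (μ + 1), (-1 : Qbar) ^ (j.succ : ℕ) *
        u a (τ j) * π (Fin.cons s (τ ∘ j.succAbove))) * X s = 0 :=
      Finset.sum_eq_zero fun s _ => by rw [hs s, zero_mul]
    simp only [add_mul, Finset.sum_add_distrib, Finset.sum_mul] at h2
    rw [Finset.sum_comm] at h2
    simp only [hw, evFam, Finset.mul_sum]
    simp only [← mul_assoc]
    rw [eq_neg_of_add_eq_zero_left h2, ← Finset.sum_neg_distrib]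
    refine Finset.sum_congr rfl fun j _ => ?_
    rw [← Finset.sum_neg_distrib]
    exact Finset.sum_congr rfl fun s _ => by ring
  have h1 : hgt π + hgt (evFam u X) =
      hgt (fun q : (Fin (μ + 1) → Fin N) × A => π q.1 * evFam u X q.2) :=
    (hgt_mul_eq hπ hev).symm
  have h2 := hC (fun p : (A × Fin N) × (Fin μ → Fin N) => flatFam u p.1 * w p.2)
  have h3 := hgt_mul_le (flatFam u) w
  rw [h1]
  refine le_trans (le_trans (le_of_eq (congrArg hgt (funext fun q => ?_))) h2) (by linarith)
  rw [key q]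
  simp only [Finset.sum_mul]
  rw [Finset.sum_comm]
  simp [ite_mul, flatFam]

omit [Fintype A] in
/-- Independent vectors have a nonzero minor. -/
theorem exists_minor_ne_zero {ν : ℕ} {e : Fin ν → Fin N → Qbar}
    (he : LinearIndependent Qbar e) :
    ∃ τ : Fin ν → Fin N, Matrix.det (Matrix.of fun i j => e i (τ j)) ≠ 0 := by
  classical
  set M : Matrix (Fin ν) (Fin N) Qbar := Matrix.of e
  obtain ⟨f, hfs, -, hli⟩ := Submodule.exists_fun_fin_finrank_span_eq Qbar (Set.range M.col)
  have hd : Module.finrank Qbar (Submodule.span Qbar (Set.range M.col)) = ν := by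
    rw [← Matrix.rank_eq_finrank_span_cols, LinearIndependent.rank_matrix (M := M) he,
      Fintype.card_fin]
  choose τ hτ using fun i => hfs (finCongr hd.symm i)
  refine ⟨τ, ?_⟩
  rw [← isUnit_iff_ne_zero, ← Matrix.isUnit_iff_isUnit_det,
    ← Matrix.linearIndependent_cols_iff_isUnit]
  have h := hli.comp _ (finCongr hd.symm).injective
  rwa [← show (fun i => M.col (τ i)) = f ∘ finCongr hd.symm from funext hτ] at h

end Fermat.Agent.MW

end
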