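import Fermat.Agent.MW.Closed
import Fermat.Agent.MW.Compare

/-!
# Heights of the families attached to effective divisors

The height of a place in a projective embedding, the pairing of two places, and height bounds
for product families cutting out effective divisors; the height is multiplicative in the level.
Input of the main lemma.
-/

noncomputable section

open AlgebraicCurve Fermat.Agent.FF

namespace Fermat.Agent.MW

variable {F : Type*} [Field F] [Algebra Qbar F] [IsFunctionField Qbar F] (Φ : Frame Qbar F)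
variable (m k : ℕ)

/-- The height of a place in the embedding of level `m`. -/
def Frame.hX (v : Place Qbar F) : ℝ := hgt (Φ.X m v)

/-- The wedge of two points. -/
def Frame.wedge (P Q : Place Qbar F) : Fin (Φ.dim m) × Fin (Φ.dim m) → Qbar :=
  fun p => Φ.X m P p.2 * Φ.X m Q p.1 - Φ.X m P p.1 * Φ.X m Q p.2

theorem Frame.wedge_ne_zero (hm : 2 * gen Qbar F + 1 ≤ m) {P Q : Place Qbar F} (h : P ≠ Q) :
    Φ.wedge m P Q ≠ 0 := by
  intro h0
  obtain ⟨i, hi⟩ := Function.ne_iff.mp (Φ.X_ne_zero m (by omega) Q)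
  refine h (Φ.X_injective m hm (c := Φ.X m P i / Φ.X m Q i) (funext fun j => ?_))
  have := congrFun h0 (i, j)
  simp only [Frame.wedge, Pi.zero_apply] at this
  simp only [Pi.zero_apply] at hi
  rw [Pi.smul_apply, smul_eq_mul]
  field_simp
  linear_combination this

/-- The pairing of two distinct places. -/
def Frame.bP (P Q : Place Qbar F) : ℝ :=
  haveI := Classical.dec (P = Q)
  if P = Q then 0 else hgt (Φ.wedge m P Q) - Φ.hX m P - Φ.hX m Q

theorem Frame.bP_of_ne {P Q : Place Qbar F} (h : P ≠ Q) :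
    Φ.bP m P Q = hgt (Φ.wedge m P Q) - Φ.hX m P - Φ.hX m Q := by
  rw [Frame.bP, if_neg h]

theorem Frame.bP_comm (P Q : Place Qbar F) : Φ.bP m P Q = Φ.bP m Q P := by
  rcases eq_or_ne P Q with rfl | h
  · rfl
  rw [Φ.bP_of_ne m h, Φ.bP_of_ne m h.symm]
  have : Φ.wedge m Q P = fun p => -Φ.wedge m P Q p := funext fun p => by
    simp only [Frame.wedge]; ring
  rw [this, hgt_neg]; ring

/-- The multiset of a tuple. -/
def ofTup {α : Type*} {r : ℕ} (A : Fin r → α) : Multiset α := Finset.univ.val.map A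

theorem card_ofTup {α : Type*} {r : ℕ} (A : Fin r → α) : (ofTup A).card = r := by
  simp [ofTup]

theorem mem_ofTup {α : Type*} {r : ℕ} {A : Fin r → α} {a : α} :
    a ∈ ofTup A ↔ ∃ i, A i = a := by
  simp [ofTup]

theorem exists_ofTup {α : Type*} (s : Multiset α) {r : ℕ} (h : s.card = r) :
    ∃ A : Fin r → α, ofTup A = s := by
  subst h
  induction s using Quot.inductionOn with
  | h l =>
    refine ⟨fun i => l.get i, ?_⟩
    simp only [ofTup, Fin.univ_val_map]
    exact congrArg _ (List.ofFn_get l)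

/-- The space of level `k m` of functions vanishing on `E`, in coordinates. -/
def Frame.VK (E : Multiset (Place Qbar F)) :
    Submodule Qbar (Fin (Φ.dim (k * m)) → Qbar) :=
  Submodule.map (Φ.co (k * m)) (riemannRochSpace (Φ.DO (k * m) - msDiv E))

omit [IsFunctionField Qbar F] in
theorem Frame.sub_msDiv_le (n : ℕ) (E : Multiset (Place Qbar F)) :
    riemannRochSpace (Φ.DO n - msDiv E) ≤ riemannRochSpace (Φ.DO n) :=
  rrSpace_sub_msDiv_le_self E

theorem Frame.finrank_VK {E : Multiset (Place Qbar F)}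
    (h : 2 * gen Qbar F + E.card ≤ k * m + 1) :
    Module.finrank Qbar (Φ.VK m k E) + gen Qbar F + E.card = k * m + 1 := by
  have hinj : Function.Injective
      ((Φ.co (k * m)).domRestrict (riemannRochSpace (Φ.DO (k * m) - msDiv E))) :=
    fun f g hfg =>
      Subtype.ext (Φ.co_injOn (k * m) (Φ.sub_msDiv_le _ E f.2) (Φ.sub_msDiv_le _ E g.2) hfg)
  have h1 : Module.finrank Qbar (Φ.VK m k E) = ell (Φ.DO (k * m) - msDiv E) := by
    rw [ell, ← LinearMap.finrank_range_of_inj hinj, Frame.VK, LinearMap.range_domRestrict]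
  have h2 := ell_large (D := Φ.DO (k * m) - msDiv E)
    (by rw [map_sub, Φ.degree_DO, degree_msDiv]; omega)
  rw [map_sub, Φ.degree_DO, degree_msDiv] at h2
  omega

theorem exists_minors_ne_zero {A : Type*} {N μ : ℕ} {V : Submodule Qbar (Fin N → Qbar)}
    (hV : Module.finrank Qbar V = μ + 1) {u : A → Fin N → Qbar}
    (hu : Submodule.span Qbar (Set.range u) = V) : minors (ν := μ + 1) u ≠ 0 := by
  obtain ⟨f, hfs, -, hli⟩ := Submodule.exists_fun_fin_finrank_span_eq Qbar (Set.range u)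
  have hd : Module.finrank Qbar (Submodule.span Qbar (Set.range u)) = μ + 1 := by rw [hu, hV]
  choose σ hσ using fun i => hfs (finCongr hd.symm i)
  have hli' : LinearIndependent Qbar fun i => u (σ i) := by
    rw [show (fun i => u (σ i)) = f ∘ finCongr hd.symm from funext hσ]
    exact hli.comp _ (Equiv.injective _)
  obtain ⟨τ, hτ⟩ := exists_minor_ne_zero hli'
  exact Function.ne_iff.mpr ⟨(σ, τ), hτ⟩

section Pad

/-- The functions `x₂ f₁ - x₁ f₂`. -/
def Frame.aFun (x : Fin (Φ.dim m) → Qbar) (p : Fin (Φ.dim m) × Fin (Φ.dim m)) : F :=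
  x p.2 • Φ.fn m p.1 - x p.1 • Φ.fn m p.2

omit [IsFunctionField Qbar F] in
theorem Frame.aFun_mem (x : Fin (Φ.dim m) → Qbar) (p : Fin (Φ.dim m) × Fin (Φ.dim m)) :
    Φ.aFun m x p ∈ riemannRochSpace (Φ.DO m) :=
  sub_mem (Submodule.smul_mem _ _ (Φ.fn_mem m _)) (Submodule.smul_mem _ _ (Φ.fn_mem m _))

theorem Frame.ev_aFun (P Q : Place Qbar F) (p : Fin (Φ.dim m) × Fin (Φ.dim m)) :
    ev Q (Φ.DO m Q) (Φ.aFun m (Φ.X m P) p) = Φ.wedge m P Q p := by
  have h := (evL Q (Φ.DO m)).map_sub (Φ.X m P p.2 • ⟨Φ.fn m p.1, Φ.fn_mem m _⟩)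
    (Φ.X m P p.1 • ⟨Φ.fn m p.2, Φ.fn_mem m _⟩)
  rw [map_smul, map_smul] at h
  exact h

theorem Frame.span_aFun (hm : 2 * gen Qbar F ≤ m) (P : Place Qbar F) :
    Submodule.span Qbar (Set.range (Φ.aFun m (Φ.X m P))) =
      riemannRochSpace (Φ.DO m - Finsupp.single P 1) := by
  refine le_antisymm (Submodule.span_le.mpr ?_) fun f hf => ?_
  · rintro g ⟨p, rfl⟩
    refine (mem_rrSpace_sub_single P).mpr ⟨Φ.aFun_mem m _ p, ?_⟩
    rw [Φ.ev_aFun]
    simp [Frame.wedge, mul_comm]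
  have hfD := ((mem_rrSpace_sub_single P).mp hf).1
  have h0 := (Φ.mem_sub_single_iff m P hfD).mp hf
  obtain ⟨i₀, hi₀⟩ := Function.ne_iff.mp (Φ.X_ne_zero m hm P)
  simp only [Pi.zero_apply] at hi₀
  have hdecomp : f = ∑ i, (Φ.co m f i / Φ.X m P i₀) • Φ.aFun m (Φ.X m P) (i, i₀) := by
    simp only [Frame.aFun, smul_sub, Finset.sum_sub_distrib, smul_smul]
    rw [← Finset.sum_smul]
    have h1 : ∑ i, Φ.co m f i / Φ.X m P i₀ * Φ.X m P i = 0 := by
      simp only [div_mul_eq_mul_div, ← Finset.sum_div, h0, zero_div]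
    rw [h1, zero_smul, sub_zero]
    conv_lhs => rw [← Φ.sum_co m hfD]
    exact Finset.sum_congr rfl fun i _ => by rw [div_mul_cancel₀ _ hi₀]
  rw [hdecomp]
  exact Submodule.sum_mem _ fun i _ =>
    Submodule.smul_mem _ _ (Submodule.subset_span ⟨(i, i₀), rfl⟩)

variable (r : ℕ)

/-- The product family of a tuple of points. -/
def Frame.cPoly (x : Fin r → Fin (Φ.dim m) → Qbar)
    (J : (Fin r → Fin (Φ.dim m) × Fin (Φ.dim m)) × Fin (Φ.dim ((k - r) * m))) : F :=
  (∏ i, Φ.aFun m (x i) (J.1 i)) * Φ.fn ((k - r) * m) J.2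

/-- The product family in coordinates of level `k m`. -/
def Frame.cFam (x : Fin r → Fin (Φ.dim m) → Qbar)
    (J : (Fin r → Fin (Φ.dim m) × Fin (Φ.dim m)) × Fin (Φ.dim ((k - r) * m))) :
    Fin (Φ.dim (k * m)) → Qbar :=
  Φ.co (k * m) (Φ.cPoly m k r x J)

omit [IsFunctionField Qbar F] in
theorem Frame.isForm_cFam (J : (Fin r → Fin (Φ.dim m) × Fin (Φ.dim m)) ×
      Fin (Φ.dim ((k - r) * m))) (s : Fin (Φ.dim (k * m))) :
    IsForm (ι := fun _ : Fin r => Fin (Φ.dim m)) 1 (fun x => Φ.cFam m k r x J s) := by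
  let idx : Fin r → Bool → Fin (Φ.dim m) := fun i ε => bif ε then (J.1 i).2 else (J.1 i).1
  let g : Fin r → Bool → F := fun i ε =>
    bif ε then Φ.fn m (J.1 i).1 else -Φ.fn m (J.1 i).2
  have hexp : ∀ x : Fin r → Fin (Φ.dim m) → Qbar, Φ.cFam m k r x J s =
      ∑ ε : Fin r → Bool, Φ.co (k * m) ((∏ i, g i (ε i)) * Φ.fn ((k - r) * m) J.2) s *
        blockTensor x (fun i => idx i (ε i)) := fun x => by
    have h1 : ∏ i, Φ.aFun m (x i) (J.1 i) =
        ∑ ε : Fin r → Bool, blockTensor x (fun i => idx i (ε i)) • ∏ i, g i (ε i) := by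
      have : ∀ i, Φ.aFun m (x i) (J.1 i) = ∑ ε : Bool, x i (idx i ε) • g i ε := fun i => by
        simp [Frame.aFun, idx, g, sub_eq_add_neg]
      simp only [this, Finset.prod_univ_sum, Fintype.piFinset_univ]
      refine Finset.sum_congr rfl fun ε _ => ?_
      simp only [blockTensor, Algebra.smul_def, Finset.prod_mul_distrib, map_prod]
    rw [Frame.cFam, Frame.cPoly, h1, Finset.sum_mul, map_sum, Finset.sum_apply]
    refine Finset.sum_congr rfl fun ε _ => ?_
    rw [smul_mul_assoc, map_smul, Pi.smul_apply, smul_eq_mul, mul_comm]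
  refine (IsForm.sum Finset.univ fun ε _ => ?_).congr hexp
  exact (IsForm.coord (fun i => idx i (ε i))).smul _

theorem Frame.span_cPoly (hm : 2 * gen Qbar F + 1 ≤ m) (hk : r + 2 ≤ k)
    (A : Fin r → Place Qbar F) :
    Submodule.span Qbar (Set.range (Φ.cPoly m k r fun i => Φ.X m (A i))) =
      riemannRochSpace (Φ.DO (k * m) - msDiv (ofTup A)) := by
  classical
  have hrk : (ofTup A).card + (k - r) = k := by rw [card_ofTup]; omega
  have h := rrSpace_prod (D := Φ.DO m) (by rw [Φ.degree_DO]; omega) (ofTup A) (j := k - r)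
    (by omega)
  rw [hrk, Φ.nsmul_DO, Φ.nsmul_DO] at h
  rw [← h, ofTup, Multiset.map_map]
  change _ = (∏ i, riemannRochSpace (Φ.DO m - Finsupp.single (A i) 1)) * _
  rw [← Φ.span_range_fn ((k - r) * m)]
  simp_rw [← Φ.span_aFun m (by omega)]
  rw [Submodule.prod_span, Submodule.span_mul_span]
  congr 1
  ext f
  simp only [Set.mem_range, Set.mem_mul, Frame.cPoly, Prod.exists]
  constructor
  · rintro ⟨J, l, rfl⟩
    exact ⟨_, Set.finsetProd_mem_finsetProd _ _ _ fun i _ => ⟨J i, rfl⟩, _, ⟨l, rfl⟩, rfl⟩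
  · rintro ⟨a, ha, b, ⟨l, rfl⟩, rfl⟩
    rw [Set.mem_fintype_prod] at ha
    obtain ⟨g, hg, rfl⟩ := ha
    choose J hJ using hg
    exact ⟨J, l, by simp only [hJ]⟩

theorem Frame.span_cFam (hm : 2 * gen Qbar F + 1 ≤ m) (hk : r + 2 ≤ k)
    (A : Fin r → Place Qbar F) :
    Submodule.span Qbar (Set.range (Φ.cFam m k r fun i => Φ.X m (A i))) =
      Φ.VK m k (ofTup A) := by
  rw [Frame.VK, ← Φ.span_cPoly m k r hm hk A, Submodule.map_span, ← Set.range_comp]
  rfl

theorem Frame.evFam_cFam (hm : 2 * gen Qbar F + 1 ≤ m) (hk : r + 2 ≤ k)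
    (A : Fin r → Place Qbar F) (Q : Place Qbar F)
    (J : (Fin r → Fin (Φ.dim m) × Fin (Φ.dim m)) × Fin (Φ.dim ((k - r) * m))) :
    evFam (Φ.cFam m k r fun i => Φ.X m (A i)) (Φ.X (k * m) Q) J =
      (∏ i, Φ.wedge m (A i) Q (J.1 i)) * Φ.X ((k - r) * m) Q J.2 := by
  have hmem : Φ.cPoly m k r (fun i => Φ.X m (A i)) J ∈ riemannRochSpace (Φ.DO (k * m)) := by
    refine Φ.sub_msDiv_le _ (ofTup A) ?_
    rw [← Φ.span_cPoly m k r hm hk A]
    exact Submodule.subset_span ⟨J, rfl⟩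
  rw [evFam]
  simp only [Frame.cFam]
  rw [← Φ.ev_eq_sum (k * m) Q hmem]
  obtain ⟨h1, h2⟩ := ev_finset_prod Q Finset.univ (fun _ : Fin r => Φ.DO m Q)
    (fun i => Φ.aFun m (Φ.X m (A i)) (J.1 i)) fun i _ => Φ.aFun_mem m _ _ Q
  have hd : Φ.DO (k * m) Q = (∑ _i : Fin r, Φ.DO m Q) + Φ.DO ((k - r) * m) Q := by
    have : Φ.DO (k * m) = r • Φ.DO m + Φ.DO ((k - r) * m) := by
      rw [Φ.nsmul_DO, Φ.DO_add, ← add_mul, Nat.add_sub_cancel' (by omega : r ≤ k)]
    rw [this, Finsupp.add_apply, Finsupp.smul_apply, Finset.sum_const, Finset.card_univ,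
      Fintype.card_fin]
  rw [Frame.cPoly, hd, ev_mul Q h1 (Φ.fn_mem _ _ Q), h2]
  simp only [Φ.ev_aFun]
  rfl

theorem Frame.hgt_evFam_cFam (hm : 2 * gen Qbar F + 1 ≤ m) (hk : r + 2 ≤ k)
    (A : Fin r → Place Qbar F) (Q : Place Qbar F) (hQ : ∀ i, A i ≠ Q) :
    hgt (evFam (Φ.cFam m k r fun i => Φ.X m (A i)) (Φ.X (k * m) Q)) =
        (∑ i, hgt (Φ.wedge m (A i) Q)) + Φ.hX ((k - r) * m) Q ∧
      evFam (Φ.cFam m k r fun i => Φ.X m (A i)) (Φ.X (k * m) Q) ≠ 0 := by
  have hkr : 2 * gen Qbar F ≤ (k - r) * m :=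
    le_trans (by omega : 2 * gen Qbar F ≤ m) (Nat.le_mul_of_pos_left m (by omega))
  have hw : ∀ i, Φ.wedge m (A i) Q ≠ 0 := fun i => Φ.wedge_ne_zero m hm (hQ i)
  have h0 : (fun J : Fin r → Fin (Φ.dim m) × Fin (Φ.dim m) =>
      ∏ i, Φ.wedge m (A i) Q (J i)) ≠ 0 := by
    choose J hJ using fun i => Function.ne_iff.mp (hw i)
    exact Function.ne_iff.mpr ⟨J, by simpa [Finset.prod_ne_zero_iff] using hJ⟩
  have he : evFam (Φ.cFam m k r fun i => Φ.X m (A i)) (Φ.X (k * m) Q) = fun J =>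
      (fun J : Fin r → Fin (Φ.dim m) × Fin (Φ.dim m) => ∏ i, Φ.wedge m (A i) Q (J i)) J.1 *
        Φ.X ((k - r) * m) Q J.2 := funext fun J => Φ.evFam_cFam m k r hm hk A Q J
  have hX := Φ.X_ne_zero ((k - r) * m) hkr Q
  constructor
  · rw [he, hgt_mul_eq h0 hX, hgt_prod_eq hw]
    rfl
  · rw [he]
    obtain ⟨i, hi⟩ := Function.ne_iff.mp h0
    obtain ⟨j, hj⟩ := Function.ne_iff.mp hX
    exact Function.ne_iff.mpr ⟨(i, j), mul_ne_zero hi hj⟩

theorem minors_smul {A : Type*} {N ν : ℕ} (c : Qbar) (u : A → Fin N → Qbar) :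
    minors (ν := ν) (c • u) = c ^ ν • minors (ν := ν) u := by
  funext p
  simp only [minors, Pi.smul_apply, smul_eq_mul]
  have : (Matrix.of fun i j => c * u (p.1 i) (p.2 j)) =
      c • Matrix.of fun i j => u (p.1 i) (p.2 j) := rfl
  rw [this, Matrix.det_smul, Fintype.card_fin]

omit [IsFunctionField Qbar F] in
theorem Frame.cFam_smul (c : Fin r → Qbar) (x : Fin r → Fin (Φ.dim m) → Qbar) :
    Φ.cFam m k r (fun i => c i • x i) = (∏ i, c i) • Φ.cFam m k r x := by
  funext J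
  simp only [Pi.smul_apply, Frame.cFam, Frame.cPoly]
  rw [← map_smul, ← smul_mul_assoc]
  congr 2
  simp only [Algebra.smul_def, map_prod, ← Finset.prod_mul_distrib, Frame.aFun, Pi.smul_apply,
    map_mul, mul_sub, mul_assoc, Algebra.algebraMap_self, RingHom.id_apply]

/-- The height bounds for the product family. -/
theorem Frame.exists_cFam_bounds (hm : 4 * gen Qbar F + 1 ≤ m) (hk : r + 2 ≤ k) (μ : ℕ)
    (hμ : μ + 1 + gen Qbar F + r = k * m + 1) :
    ∃ C : ℝ, ∀ A : Fin r → Place Qbar F,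
      minors (ν := μ + 1) (Φ.cFam m k r fun i => Φ.X m (A i)) ≠ 0 ∧
      (μ + 1 : ℝ) * (∑ i, Φ.hX m (A i)) ≤
        hgt (minors (ν := μ + 1) (Φ.cFam m k r fun i => Φ.X m (A i))) + C ∧
      hgt (flatFam (Φ.cFam m k r fun i => Φ.X m (A i))) ≤ (∑ i, Φ.hX m (A i)) + C := by
  have hm' : 2 * gen Qbar F + 1 ≤ m := by omega
  obtain ⟨C₁, hC₁⟩ := IsForm.hgt_le (β := Fin r) (ι := fun _ => Fin (Φ.dim m)) (k := 1)
    (F := fun (p : ((Fin r → Fin (Φ.dim m) × Fin (Φ.dim m)) × Fin (Φ.dim ((k - r) * m))) ×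
      Fin (Φ.dim (k * m))) x => Φ.cFam m k r x p.1 p.2) fun p => Φ.isForm_cFam m k r p.1 p.2
  have hne : ∀ A : Fin r → Place Qbar F,
      minors (ν := μ + 1) (Φ.cFam m k r fun i => Φ.X m (A i)) ≠ 0 := fun A => by
    refine exists_minors_ne_zero ?_ (Φ.span_cFam m k r hm' hk A)
    have hkm : (r + 2) * m ≤ k * m := Nat.mul_le_mul_right m hk
    have := Φ.finrank_VK m k (E := ofTup A) (by rw [card_ofTup]; nlinarith)
    rw [card_ofTup] at this
    omega
  obtain ⟨C₂, hC₂⟩ := hgt_ge_of_no_zero (β := Fin r) (ι := fun _ => Fin (Φ.dim m))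
    (k := (μ + 1) * 1)
    (F := fun p x => minors (ν := μ + 1) (Φ.cFam m k r x) p)
    (fun p => IsForm.det fun i j => Φ.isForm_cFam m k r (p.1 i) (p.2 j))
    (Set.range fun (A : Fin r → Place Qbar F) i => Φ.X m (A i)) (fun x hx hp => by
      have hb : ∀ b, ∃ (v : Place Qbar F) (c : Qbar), c ≠ 0 ∧ x b = c • Φ.X m v := fun b =>
        Φ.exists_eq_smul_X m hm' (hx b) fun q hq => by
          have := hp (MvPolynomial.rename (Sigma.mk b) q) (by
            rintro y ⟨A, rfl⟩ c hc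
            rw [MvPolynomial.eval_rename]
            exact hq (A b) (c b) (hc b))
          rwa [MvPolynomial.eval_rename] at this
      choose A c hc hxA using hb
      refine Function.ne_iff.mp ?_
      rw [show x = fun i => c i • Φ.X m (A i) from funext hxA]
      simp only [Φ.cFam_smul, minors_smul]
      exact smul_ne_zero (pow_ne_zero _ (Finset.prod_ne_zero_iff.mpr fun i _ => hc i)) (hne A))
  refine ⟨max C₁ C₂, fun A => ⟨hne A, ?_, ?_⟩⟩
  · have h := hC₂ _ ⟨A, rfl⟩ fun i => Φ.X_ne_zero m (by omega) (A i)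
    have := le_max_right C₁ C₂
    simp only [mul_one] at h
    push_cast at h
    simp only [Frame.hX]
    linarith
  · have h := hC₁ fun i => Φ.X m (A i)
    have := le_max_left C₁ C₂
    simp only [Nat.cast_one, one_mul] at h
    simp only [Frame.hX]
    exact h.trans (by linarith)

end Pad

/-- The height is multiplicative in the level. -/
theorem Frame.exists_hX_mul (hm : 4 * gen Qbar F + 1 ≤ m) {j : ℕ} (hj : 1 ≤ j) :
    ∃ C : ℝ, ∀ v : Place Qbar F, |Φ.hX (j * m) v - j * Φ.hX m v| ≤ C := by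
  classical
  have hpow : riemannRochSpace (Φ.DO m) ^ j = riemannRochSpace (Φ.DO (j * m)) := by
    rw [rrSpace_pow (by rw [Φ.degree_DO]; omega) hj, Φ.nsmul_DO]
  have hspan : riemannRochSpace (Φ.DO (j * m)) =
      Submodule.span Qbar (Set.range fun J : Fin j → Fin (Φ.dim m) => ∏ t, Φ.fn m (J t)) := by
    rw [← hpow, ← Φ.span_range_fn m]
    have : (Submodule.span Qbar (Set.range (Φ.fn m))) ^ j =
        ∏ _t : Fin j, Submodule.span Qbar (Set.range (Φ.fn m)) := by simp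
    rw [this, Submodule.prod_span]
    congr 1
    ext f
    rw [Set.mem_fintype_prod]
    constructor
    · rintro ⟨g, hg, rfl⟩
      choose J hJ using hg
      exact ⟨J, by simp only [hJ]⟩
    · rintro ⟨J, rfl⟩
      exact ⟨_, fun t => ⟨J t, rfl⟩, rfl⟩
  have hmem : ∀ J : Fin j → Fin (Φ.dim m),
      ∏ t, Φ.fn m (J t) ∈ riemannRochSpace (Φ.DO m) ^ j :=
    fun J => hpow.symm ▸ hspan.symm ▸ Submodule.subset_span ⟨J, rfl⟩
  have hev : ∀ (v : Place Qbar F) (J : Fin j → Fin (Φ.dim m)),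
      ev v (Φ.DO (j * m) v) (∏ t, Φ.fn m (J t)) = ∏ t, Φ.X m v (J t) := fun v J => by
    have h := (ev_finset_prod v Finset.univ (fun _ : Fin j => Φ.DO m v)
      (fun t => Φ.fn m (J t)) fun t _ => Φ.fn_mem m _ v).2
    rw [← Φ.nsmul_DO m j, Finsupp.smul_apply]
    simpa [Frame.X] using h
  have hfn : ∀ i, ∃ a : (Fin j → Fin (Φ.dim m)) → Qbar,
      ∑ J, a J • ∏ t, Φ.fn m (J t) = Φ.fn (j * m) i := fun i =>
    Submodule.mem_span_range_iff_exists_fun _ |>.mp (hspan ▸ Φ.fn_mem (j * m) i)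
  choose a ha using hfn
  obtain ⟨C₁, hC₁⟩ := exists_hgt_linear_le a
  obtain ⟨C₂, hC₂⟩ := exists_hgt_linear_le
    (fun (J : Fin j → Fin (Φ.dim m)) => Φ.co (j * m) (∏ t, Φ.fn m (J t)))
  refine ⟨max C₁ C₂, fun v => ?_⟩
  have hprod : hgt (fun J : Fin j → Fin (Φ.dim m) => ∏ t, Φ.X m v (J t)) = j * Φ.hX m v := by
    rw [hgt_prod_eq (x := fun _ : Fin j => Φ.X m v) fun _ => Φ.X_ne_zero m (by omega) v]
    simp [Frame.hX]
  have h1 : Φ.X (j * m) v = fun i => ∑ J, a i J * ∏ t, Φ.X m v (J t) := funext fun i => by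
    show ev v (Φ.DO (j * m) v) (Φ.fn (j * m) i) = _
    rw [← ha i]
    have hmem' : ∀ J : Fin j → Fin (Φ.dim m),
        ∏ t, Φ.fn m (J t) ∈ riemannRochSpace (Φ.DO (j * m)) := fun J => hpow ▸ hmem J
    have := map_sum (evL v (Φ.DO (j * m)))
      (fun J => a i J • (⟨_, hmem' J⟩ : riemannRochSpace (Φ.DO (j * m)))) Finset.univ
    simp only [map_smul, smul_eq_mul] at this
    simp only [evL, LinearMap.coe_mk, AddHom.coe_mk, Submodule.coe_sum, Submodule.coe_smul] at this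
    rw [this]
    exact Finset.sum_congr rfl fun J _ => by rw [hev]
  have h2 : (fun J : Fin j → Fin (Φ.dim m) => ∏ t, Φ.X m v (J t)) =
      fun J => ∑ i, Φ.co (j * m) (∏ t, Φ.fn m (J t)) i * Φ.X (j * m) v i := funext fun J => by
    rw [← Φ.ev_eq_sum (j * m) v (hpow ▸ hmem J), hev]
  have h3 := hC₁ fun J => ∏ t, Φ.X m v (J t)
  rw [← h1, hprod] at h3
  have h4 := hC₂ (Φ.X (j * m) v)
  rw [← h2, hprod] at h4
  have := le_max_left C₁ C₂
  have := le_max_right C₁ C₂
  change Φ.hX (j * m) v ≤ _ at h3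
  change _ ≤ Φ.hX (j * m) v + _ at h4
  rw [abs_le]
  constructor <;> linarith

end Fermat.Agent.MW

end
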