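import Fermat.Agent.MW.LocalMul

/-!
# `J₀(N)(ℂ)` is divisible

Points close to each other differ by `m` times a class, and the upper half plane is connected,
so `J₀(N)(ℂ)` is divisible. Used for the divisibility of `J₀(N)(ℚ̄)`.
-/

noncomputable section

open AlgebraicCurve Fermat.Agent.FF
open UpperHalfPlane hiding I
open scoped MatrixGroups ModularForm Manifold Topology

namespace Fermat.Agent.MW

/-- A locally constant predicate on a preconnected open set. -/
theorem forall_or_forall_not {α : Type*} [TopologicalSpace α] {s : Set α} (hs : IsPreconnected s)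
    (ho : IsOpen s) {T : α → Prop} (h : ∀ x ∈ s, ∀ᶠ y in 𝓝 x, (T y ↔ T x)) :
    (∀ x ∈ s, T x) ∨ ∀ x ∈ s, ¬ T x := by
  set u := {x | x ∈ s ∧ ∀ᶠ y in 𝓝 x, T y}
  set w := {x | x ∈ s ∧ ∀ᶠ y in 𝓝 x, ¬ T y}
  have hu : IsOpen u := ho.inter isOpen_setOfPred_eventually_nhds
  have hw : IsOpen w := ho.inter isOpen_setOfPred_eventually_nhds
  have hd : Disjoint u w :=
    Set.disjoint_left.mpr fun x hx hx' => hx'.2.self_of_nhds hx.2.self_of_nhds
  have hsub : s ⊆ u ∪ w := fun x hx => by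
    by_cases hT : T x
    · exact Or.inl ⟨hx, (h x hx).mono fun y hy => hy.mpr hT⟩
    · exact Or.inr ⟨hx, (h x hx).mono fun y hy => fun hy' => hT (hy.mp hy')⟩
  rcases hs.subset_or_subset hu hw hd hsub with h' | h'
  · exact Or.inl fun x hx => (h' hx).2.self_of_nhds
  · exact Or.inr fun x hx => (h' hx).2.self_of_nhds

/-- A punctured disc is connected. -/
theorem forall_or_forall_not_punctured {z₀ : ℂ} {ε : ℝ} (hε : 0 < ε) {T : ℂ → Prop}
    (h : ∀ z ∈ Metric.ball z₀ ε, z ≠ z₀ → ∀ᶠ w in 𝓝 z, (T w ↔ T z)) :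
    (∀ z ∈ Metric.ball z₀ ε, z ≠ z₀ → T z) ∨ ∀ z ∈ Metric.ball z₀ ε, z ≠ z₀ → ¬ T z := by
  set H : Set ℂ := {w | w.re < Real.log ε}
  have hmem : ∀ w ∈ H, z₀ + Complex.exp w ∈ Metric.ball z₀ ε ∧ z₀ + Complex.exp w ≠ z₀ :=
    fun w hw => by
    refine ⟨?_, by simp [Complex.exp_ne_zero]⟩
    rw [Metric.mem_ball, dist_eq_norm, add_sub_cancel_left, Complex.norm_exp]
    exact (Real.exp_lt_exp.mpr hw).trans_eq (Real.exp_log hε)
  have hsurj : ∀ z ∈ Metric.ball z₀ ε, z ≠ z₀ → ∃ w ∈ H, z₀ + Complex.exp w = z :=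
      fun z hz hz0 => by
    refine ⟨Complex.log (z - z₀), ?_, by rw [Complex.exp_log (sub_ne_zero.mpr hz0)]; ring⟩
    rw [Metric.mem_ball, dist_eq_norm] at hz
    show (Complex.log (z - z₀)).re < _
    rw [Complex.log_re]
    exact Real.log_lt_log (norm_pos_iff.mpr (sub_ne_zero.mpr hz0)) hz
  have hd := forall_or_forall_not (T := fun w => T (z₀ + Complex.exp w))
    (convex_halfSpace_re_lt (Real.log ε)).isPreconnected
    (isOpen_lt Complex.continuous_re continuous_const) (fun w hw =>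
      (Continuous.continuousAt (f := fun w => z₀ + Complex.exp w) (by fun_prop)).eventually
        (h _ (hmem w hw).1 (hmem w hw).2))
  rcases hd with hd | hd
  · refine Or.inl fun z hz hz0 => ?_
    obtain ⟨w, hw, rfl⟩ := hsurj z hz hz0
    exact hd w hw
  · refine Or.inr fun z hz hz0 => ?_
    obtain ⟨w, hw, rfl⟩ := hsurj z hz hz0
    exact hd w hw

variable {N : ℕ} [NeZero N] {Φ : Frame ℂ (Mono.FC N)} {n : ℕ} {M : LevelForms Φ n}

/-- The admissible points all differ by `m` times a class. -/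
theorem LevelForms.inMul_pt (M : LevelForms Φ n) {e : ℕ} (he : 1 ≤ e)
    (hn : n = (e + 4) * gen ℂ (Mono.FC N) + 5) (hO : Φ.O.ord (X0.jC N) < 0) {τ τ' : ℍ}
    (hτ : M.Adm τ) (hτ' : M.Adm τ') :
    InMul (e + 1) (Finsupp.single (pt N τ) 1 - Finsupp.single (pt N τ') 1) := by
  set T : ℂ → Prop := fun z =>
    InMul (e + 1) (Finsupp.single (pt N (ofComplex z)) 1 - Finsupp.single (pt N τ') 1)
  have hloc : ∀ z : ℂ, 0 < z.im → M.Adm (ofComplex z) → ∀ᶠ w in 𝓝 z, (T w ↔ T z) := by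
    intro z hz hA
    have h := M.eventually_inMul he hn hO (τ₀ := ofComplex z) hA
    rw [ofComplex_apply_of_im_pos hz] at h
    refine h.mono fun w hw => ?_
    rw [← ofComplex_apply_of_im_pos hz] at hw
    simp only [T]
    refine ⟨fun h1 => ?_, fun h1 => ?_⟩
    · have := h1.sub hw
      rwa [sub_sub_sub_cancel_left] at this
    · have := hw.add h1
      rwa [sub_add_sub_cancel] at this
  have hpunct : ∀ z : ℂ, 0 < z.im → ∀ᶠ w in 𝓝[≠] z, 0 < w.im ∧ M.Adm (ofComplex w) := by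
    intro z hz
    have hA := Mono.analyticAt_coe M.avoid_mdiff ⟨z, hz⟩
    obtain ⟨a, ha⟩ := Mono.exists_hasPtOrd M.avoid_mdiff M.avoid_ne_zero ⟨z, hz⟩
    rcases hA.eventually_eq_zero_or_eventually_ne_zero with h | h
    · exfalso
      unfold Mono.HasPtOrd at ha
      rw [analyticOrderAt_eq_top.mpr h] at ha
      exact absurd ha (ENat.top_ne_natCast a)
    · exact (eventually_nhdsWithin_of_eventually_nhds
        ((isOpen_lt continuous_const Complex.continuous_im).eventually_mem hz)).and h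
  set T' : ℂ → Prop := fun z => ∀ᶠ w in 𝓝[≠] z, T w
  have hloc' : ∀ z ∈ {z : ℂ | 0 < z.im}, ∀ᶠ y in 𝓝 z, (T' y ↔ T' z) := by
    intro z hz
    obtain ⟨ε, hε, hball⟩ := Metric.eventually_nhds_iff_ball.mp
      (eventually_nhdsWithin_iff.mp (hpunct z hz))
    have hd := forall_or_forall_not_punctured hε (T := T) fun w hw hw0 =>
      hloc w (hball w hw hw0).1 (hball w hw hw0).2
    have hev : ∀ y ∈ Metric.ball z ε, ∀ᶠ w in 𝓝[≠] y, w ∈ Metric.ball z ε ∧ w ≠ z := by
      intro y hy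
      refine (eventually_nhdsWithin_of_eventually_nhds
        (Metric.isOpen_ball.eventually_mem hy)).and ?_
      rcases eq_or_ne y z with rfl | hyz
      · exact eventually_mem_nhdsWithin
      · exact eventually_nhdsWithin_of_eventually_nhds (eventually_ne_nhds hyz)
    refine Filter.eventually_of_mem (Metric.ball_mem_nhds z hε) fun y hy => ?_
    rcases hd with hd | hd
    · exact iff_of_true ((hev y hy).mono fun w hw => hd w hw.1 hw.2)
        ((hev z (Metric.mem_ball_self hε)).mono fun w hw => hd w hw.1 hw.2)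
    · refine iff_of_false (fun h => ?_) fun h => ?_
      · obtain ⟨w, hw, hw'⟩ := ((hev y hy).and h).exists
        exact hd w hw.1 hw.2 hw'
      · obtain ⟨w, hw, hw'⟩ := ((hev z (Metric.mem_ball_self hε)).and h).exists
        exact hd w hw.1 hw.2 hw'
  have hiff : ∀ σ : ℍ, M.Adm σ → (T' (σ : ℂ) ↔ T (σ : ℂ)) := fun σ hσ => by
    have h := eventually_nhdsWithin_of_eventually_nhds (s := {(σ : ℂ)}ᶜ)
      (hloc σ σ.im_pos (by rwa [ofComplex_apply]))
    refine ⟨fun h' => ?_, fun h' => h.mono fun w hw => hw.mpr h'⟩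
    obtain ⟨w, hw, hw'⟩ := (h.and h').exists
    exact hw.mp hw'
  have hT' : T (τ' : ℂ) := by
    simp only [T, ofComplex_apply, sub_self]
    exact InMul.zero
  rcases forall_or_forall_not (convex_halfSpace_im_gt 0).isPreconnected
    (isOpen_lt continuous_const Complex.continuous_im) hloc' with h | h
  · have := (hiff τ hτ).mp (h _ τ.im_pos)
    simpa [T] using this
  · exact absurd ((hiff τ' hτ').mpr hT') (h _ τ'.im_pos)

/-- All but finitely many places are admissible points. -/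
theorem LevelForms.exists_finset_pt (M : LevelForms Φ n) :
    ∃ S : Finset (Place ℂ (Mono.FC N)), ∀ v ∉ S, ∃ τ, M.Adm τ ∧ pt N τ = v := by
  classical
  have hden := (M.isRep 0 (zero_mem _)).den
  have hden0 := (M.isRep 0 (zero_mem _)).den_ne
  set e₁ := (-M.k).toNat
  set e₂ := M.k.toNat
  set A : ℍ → ℂ := M.den ^ 12 * MF.deltaFn ^ e₁
  set B : ℍ → ℂ := MF.deltaFn ^ e₂
  have hd : MF.IsFormFn (CongruenceSubgroup.Gamma0 N) 12 MF.deltaFn :=
    MF.isFormFn_delta.mono le_top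
  have hA : MF.IsFormFn (CongruenceSubgroup.Gamma0 N) (e₂ * 12) A :=
    ((hden.pow 12).mul (hd.pow e₁)).cast (by simp only [e₁, e₂]; push_cast; omega)
  have hB : MF.IsFormFn (CongruenceSubgroup.Gamma0 N) (e₂ * 12) B := hd.pow e₂
  have hB0 : B ≠ 0 := Mono.pow_ne_zero_fun MF.deltaFn_ne_zero' _
  have hA0 : A ≠ 0 := mul_ne_zero_fun (hden.pow 12).mdiff (hd.pow e₁).mdiff
    (Mono.pow_ne_zero_fun hden0 12) (Mono.pow_ne_zero_fun MF.deltaFn_ne_zero' _)
  have hlB : MF.lq B ≠ 0 := fun h => hB0 ((MF.lq_eq_zero_iff hB.isQFn0).mp h)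
  have heq : MF.lq A * (MF.lq B)⁻¹ * MF.lq B = MF.lq A := by
    rw [mul_assoc, inv_mul_cancel₀ hlB, mul_one]
  set x : Mono.FC N := ⟨MF.lq A * (MF.lq B)⁻¹,
    (Mono.mem_FC_iff N).mpr ⟨_, A, B, hA, hB, hB0, heq⟩⟩
  have hx : Mono.IsRep N x (e₂ * 12) A B := ⟨hA, hB, hB0, heq⟩
  have hx0 : x ≠ 0 := fun h => by
    have h' := congrArg Subtype.val h
    simp only [x, ZeroMemClass.coe_zero, mul_eq_zero, inv_eq_zero, hlB, or_false] at h'
    exact hA0 ((MF.lq_eq_zero_iff hA.isQFn0).mp h')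
  refine ⟨(finite_ord_ne_zero (K := ℂ) (X0.jC N)).toFinset ∪
    (finite_ord_ne_zero (K := ℂ) (X0.jC N - algebraMap ℂ (Mono.FC N) 1728)).toFinset ∪
    (finite_ord_ne_zero (K := ℂ) x).toFinset, fun v hv => ?_⟩
  simp only [Finset.mem_union, Set.Finite.mem_toFinset, Set.mem_ofPred_eq, not_or, not_not] at hv
  obtain ⟨τ, c, hc, hP, -⟩ := Mono.covered_of_ord_nonneg v hv.1.1.ge
  have h1 : (c : ℤ) * v.ord (X0.jC N - algebraMap ℂ (Mono.FC N) (X0.jFun τ)) =
      (X0.ellOrder τ : ℤ) := by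
    have := hP _ _ _ _ _ _ (Mono.isRep_jC_sub (X0.jFun τ)) (X0.jC_sub_ne_zero _)
      (Mono.hasPtOrd_num_jC_sub τ) (Mono.hasPtOrd_deltaFn τ)
    simpa using this
  have hpos := X0.one_le_ellOrder τ
  have hell : X0.ellOrder τ = 1 := by
    rw [X0.ellOrder_eq]
    split_ifs with h0 h0'
    · exfalso
      rw [h0, map_zero, sub_zero, hv.1.1] at h1
      omega
    · exfalso
      rw [h0', hv.1.2] at h1
      omega
    · rfl
  rw [hell] at h1
  have hc1 : c = 1 := by
    have : (c : ℤ) ∣ 1 := ⟨_, by simpa using h1.symm⟩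
    exact_mod_cast Int.eq_one_of_dvd_one (by positivity) this
  have hord : ∀ y : Mono.FC N, y ≠ 0 → v.ord y = (pt N τ).ord y := fun y hy => by
    obtain ⟨k, A', B', hr⟩ := Mono.exists_isRep (N := N) y
    obtain ⟨a, ha⟩ := Mono.exists_hasPtOrd hr.num.mdiff (hr.num_ne hy) τ
    obtain ⟨b, hb⟩ := Mono.exists_hasPtOrd hr.den.mdiff hr.den_ne τ
    have h2 := hP _ _ _ _ _ _ hr hy ha hb
    rw [hc1] at h2
    rw [pt_ord N hell hr hy ha hb]
    simpa using h2
  have hne : M.den τ ≠ 0 := fun h0 => by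
    obtain ⟨a, ha⟩ := Mono.exists_hasPtOrd hden.mdiff hden0 τ
    have haA : Mono.HasPtOrd A τ (12 * a + e₁ * 0) :=
      (ha.pow hden.mdiff 12).mul (hden.pow 12).mdiff (hd.pow e₁).mdiff
        ((Mono.hasPtOrd_deltaFn τ).pow hd.mdiff e₁)
    have h2 := hP _ _ _ _ _ _ hx hx0 haA ((Mono.hasPtOrd_deltaFn τ).pow hd.mdiff e₂)
    rw [hv.2] at h2
    have ha0 : a ≠ 0 := fun h => by
      unfold Mono.HasPtOrd at ha
      rw [h, Nat.cast_zero, (Mono.analyticAt_coe hden.mdiff τ).analyticOrderAt_eq_zero] at ha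
      exact ha (by simpa using h0)
    push_cast at h2
    omega
  refine ⟨τ, ?_, ?_⟩
  · have hE : ModularForm.E₄ τ ≠ 0 ∧ ModularForm.E₆ τ ≠ 0 := by
      rw [X0.ellOrder] at hell
      split_ifs at hell with h4 h6 <;> first | omega | exact ⟨h4, h6⟩
    exact mul_ne_zero (mul_ne_zero hE.1 hE.2) hne
  · refine Place.ext (SetLike.ext fun y => ?_)
    rcases eq_or_ne y 0 with rfl | hy
    · simp [zero_mem]
    · rw [mem_iff_ord_nonneg, mem_iff_ord_nonneg, hord y hy]

variable (N)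

/-- Every class of `J₀(N)(ℂ)` is `e + 1` times another one. -/
theorem exists_succ_nsmul_C {e : ℕ} (he : 1 ≤ e) (z : Pic0 ℂ (Mono.FC N)) :
    ∃ y, (e + 1) • y = z := by
  classical
  obtain ⟨O, hO⟩ : ∃ O : Place ℂ (Mono.FC N), O.ord (X0.jC N) < 0 := by
    obtain ⟨v, hv⟩ := exists_place_ord_pos (K := ℂ) (x := (X0.jC N)⁻¹)
      (fun h => X0.transcendental_jC (N := N) (inv_inv (X0.jC N) ▸ h.inv))
    exact ⟨v, by rw [v.ord_inv] at hv; omega⟩
  set g := gen ℂ (Mono.FC N)
  obtain ⟨M⟩ := exists_levelForms (Frame.ofPlace O) ((e + 4) * g + 5)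
  obtain ⟨S, hS⟩ := M.exists_finset_pt
  obtain ⟨D, rfl⟩ := Pic0.mk_surjective z
  obtain ⟨W₀, hW₀, hW₀S⟩ := exists_member_avoiding (D := Finsupp.single O (2 * (g : ℤ)))
    (by rw [degree_single']) S
  obtain ⟨W, hW, hWS⟩ := exists_member_avoiding
    (D := (D : Divisor ℂ (Mono.FC N)) + Finsupp.single O (2 * (g : ℤ)))
    (by rw [map_add, Divisor.mem_degZero.mp D.2, zero_add, degree_single']) S
  obtain ⟨τ', hτ', -⟩ := M.infinite_pt.nonempty.choose_spec
  have key : ∀ A : Multiset (Place ℂ (Mono.FC N)), (∀ v ∈ S, v ∉ A) →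
      InMul (e + 1) (msDiv A - (A.card : ℤ) • Finsupp.single (pt N τ') 1) := by
    intro A
    induction A using Multiset.induction_on with
    | empty => intro _; simpa [msDiv_zero] using InMul.zero
    | cons v A ih =>
      intro hA
      obtain ⟨τ, hτ, rfl⟩ := hS v fun h => hA v h (Multiset.mem_cons_self _ _)
      have h2 := (M.inMul_pt he rfl hO hτ hτ').add
        (ih fun u hu hmem => hA u hu (Multiset.mem_cons_of_mem hmem))
      convert h2 using 1
      rw [msDiv_cons, Multiset.card_cons]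
      push_cast
      rw [add_smul, one_smul]
      abel
  have hcard : W.card = W₀.card := by
    have h1 := hW.degree_eq
    have h2 := hW₀.degree_eq
    rw [degree_msDiv, map_add, Divisor.mem_degZero.mp D.2, zero_add] at h1
    rw [degree_msDiv] at h2
    omega
  have h := (key W hWS).sub (key W₀ hW₀S)
  rw [hcard, sub_sub_sub_cancel_right] at h
  refine InMul.exists_nsmul (h.congr ?_)
  have := hW.sub hW₀
  rw [add_sub_cancel_right] at this
  exact this.symm

/-- `J₀(N)(ℂ)` is a divisible group. -/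
theorem exists_nsmul_C {m : ℕ} (hm : 0 < m) (z : Pic0 ℂ (Mono.FC N)) : ∃ y, m • y = z := by
  rcases Nat.lt_or_ge m 2 with h | h
  · obtain rfl : m = 1 := by omega
    exact ⟨z, one_nsmul z⟩
  · obtain ⟨e, rfl⟩ : ∃ e, m = e + 1 := ⟨m - 1, by omega⟩
    exact exists_succ_nsmul_C N (by omega) z

end Fermat.Agent.MW

end
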