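import Fermat.Agent.FF.Duality

/-!
# Values at places and their twisted versions

The value of a function at a place, and its leading coefficient for a prescribed pole order.
These give the projective coordinates of places in the height theory.
-/

noncomputable section

open AlgebraicCurve Fermat.Agent.FF

namespace Fermat.Agent.MW

variable {K F : Type*} [Field K] [Field F] [Algebra K F] [IsAlgClosed K] [IsFunctionField K F]
variable (v : Place K F)

/-- The value of a regular function at a place, as a ring homomorphism. -/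
def valHom : v.toValuationSubring →+* K :=
  ((RingEquiv.ofBijective (algebraMap K v.ResidueField)
    (algebraMap_residueField_bijective v)).symm : v.ResidueField →+* K).comp
    (IsLocalRing.residue v.toValuationSubring)

theorem valHom_algebraMap (c : K) : valHom v (algebraMap K v.toValuationSubring c) = c :=
  (RingEquiv.ofBijective (algebraMap K v.ResidueField)
    (algebraMap_residueField_bijective v)).symm_apply_apply c

/-- The value of a function at a place (zero at poles). -/
def valAt (f : F) : K :=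
  haveI := Classical.dec (f ∈ v.toValuationSubring)
  if h : f ∈ v.toValuationSubring then valHom v ⟨f, h⟩ else 0

theorem valAt_of_mem {f : F} (h : f ∈ v.toValuationSubring) : valAt v f = valHom v ⟨f, h⟩ := by
  rw [valAt, dif_pos h]

theorem valAt_add {f g : F} (hf : f ∈ v.toValuationSubring) (hg : g ∈ v.toValuationSubring) :
    valAt v (f + g) = valAt v f + valAt v g := by
  rw [valAt_of_mem v hf, valAt_of_mem v hg, valAt_of_mem v (add_mem hf hg), ← map_add]
  rfl

theorem valAt_mul {f g : F} (hf : f ∈ v.toValuationSubring) (hg : g ∈ v.toValuationSubring) :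
    valAt v (f * g) = valAt v f * valAt v g := by
  rw [valAt_of_mem v hf, valAt_of_mem v hg, valAt_of_mem v (mul_mem hf hg), ← map_mul]
  rfl

theorem valAt_algebraMap (c : K) : valAt v (algebraMap K F c) = c := by
  rw [valAt_of_mem v (v.algebraMap_mem' c)]
  exact valHom_algebraMap v c

theorem valAt_zero : valAt v (0 : F) = 0 := by
  rw [valAt_of_mem v (zero_mem _)]; exact map_zero _

theorem valAt_one : valAt v (1 : F) = 1 := by
  simpa using valAt_algebraMap v 1

theorem valAt_eq_zero_iff {f : F} (hf : f ∈ v.toValuationSubring) :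
    valAt v f = 0 ↔ f = 0 ∨ 0 < v.ord f := by
  rcases eq_or_ne f 0 with rfl | hf0
  · simp [valAt_zero]
  simp only [hf0, false_or]
  rw [valAt_of_mem v hf, valHom, RingHom.comp_apply, map_eq_zero,
    IsLocalRing.residue_eq_zero_iff, IsLocalRing.mem_maximalIdeal, mem_nonunits_iff,
    ← v.adicValuation_coe_eq_one_iff]
  have h0 := (mem_iff_ord_nonneg v).mp hf
  rw [show ((⟨f, hf⟩ : v.toValuationSubring) : F) = f from rfl,
    v.adicValuation_eq_exp_neg_ord hf0, ← WithZero.exp_zero, WithZero.exp_inj]
  omega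

/-- A chosen uniformizer. -/
def unif : F := (exists_ord_eq_one v).choose

omit [IsAlgClosed K] [IsFunctionField K F] in
theorem unif_ne_zero : unif v ≠ 0 := (exists_ord_eq_one v).choose_spec.1

omit [IsAlgClosed K] [IsFunctionField K F] in
theorem ord_unif : v.ord (unif v) = 1 := (exists_ord_eq_one v).choose_spec.2

omit [IsAlgClosed K] [IsFunctionField K F] in
theorem mul_zpow_mem_iff {n : ℤ} {f π : F} (hπ0 : π ≠ 0) (hπ : v.ord π = 1) :
    f * π ^ n ∈ v.toValuationSubring ↔ f ∈ poleLe v n := by
  rcases eq_or_ne f 0 with rfl | hf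
  · simp
  rw [mem_iff_ord_nonneg, mem_poleLe_of_ne v hf, v.ord_mul hf (zpow_ne_zero _ hπ0), v.ord_zpow, hπ]
  omega

/-- The leading coefficient at order `-n`. -/
def ev (n : ℤ) (f : F) : K := valAt v (f * unif v ^ n)

theorem ev_mul {m n : ℤ} {f g : F} (hf : f ∈ poleLe v m) (hg : g ∈ poleLe v n) :
    ev v (m + n) (f * g) = ev v m f * ev v n g := by
  rw [ev, ev, ev, ← valAt_mul v ((mul_zpow_mem_iff v (unif_ne_zero v) (ord_unif v)).mpr hf)
    ((mul_zpow_mem_iff v (unif_ne_zero v) (ord_unif v)).mpr hg), zpow_add₀ (unif_ne_zero v)]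
  congr 1
  ring

theorem ev_add {n : ℤ} {f g : F} (hf : f ∈ poleLe v n) (hg : g ∈ poleLe v n) :
    ev v n (f + g) = ev v n f + ev v n g := by
  rw [ev, ev, ev, add_mul, valAt_add v ((mul_zpow_mem_iff v (unif_ne_zero v) (ord_unif v)).mpr hf)
    ((mul_zpow_mem_iff v (unif_ne_zero v) (ord_unif v)).mpr hg)]

theorem ev_smul {n : ℤ} (c : K) {f : F} (hf : f ∈ poleLe v n) :
    ev v n (c • f) = c * ev v n f := by
  rw [ev, ev, Algebra.smul_def, mul_assoc, valAt_mul v (v.algebraMap_mem' c)
    ((mul_zpow_mem_iff v (unif_ne_zero v) (ord_unif v)).mpr hf), valAt_algebraMap]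

theorem ev_zero (n : ℤ) : ev v n (0 : F) = 0 := by
  rw [ev, zero_mul, valAt_zero]

theorem ev_one : ev v 0 (1 : F) = 1 := by
  rw [ev, zpow_zero, mul_one, valAt_one]

theorem ev_eq_zero_iff {n : ℤ} {f : F} (hf : f ∈ poleLe v n) :
    ev v n f = 0 ↔ f ∈ poleLe v (n - 1) := by
  rw [ev, valAt_eq_zero_iff v ((mul_zpow_mem_iff v (unif_ne_zero v) (ord_unif v)).mpr hf)]
  rcases eq_or_ne f 0 with rfl | hf0
  · simp
  rw [mem_poleLe_of_ne v hf0, v.ord_mul hf0 (zpow_ne_zero _ (unif_ne_zero v)), v.ord_zpow,
    ord_unif]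
  simp only [mul_eq_zero, hf0, zpow_ne_zero _ (unif_ne_zero v), or_self, false_or]
  omega

theorem ev_ne_zero_iff {n : ℤ} {f : F} (hf : f ∈ poleLe v n) (hf0 : f ≠ 0) :
    ev v n f ≠ 0 ↔ v.ord f = -n := by
  rw [ne_eq, ev_eq_zero_iff v hf, mem_poleLe_of_ne v hf0]
  rw [mem_poleLe_of_ne v hf0] at hf
  omega

theorem ev_finset_prod {α : Type*} (s : Finset α) (n : α → ℤ) (f : α → F)
    (hf : ∀ a ∈ s, f a ∈ poleLe v (n a)) :
    ∏ a ∈ s, f a ∈ poleLe v (∑ a ∈ s, n a) ∧
      ev v (∑ a ∈ s, n a) (∏ a ∈ s, f a) = ∏ a ∈ s, ev v (n a) (f a) := by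
  classical
  induction s using Finset.induction with
  | empty => simp [ev_one, poleLe_zero_eq]
  | insert a s ha ih =>
    obtain ⟨h1, h2⟩ := ih fun b hb => hf b (Finset.mem_insert_of_mem hb)
    have h3 := hf a (Finset.mem_insert_self a s)
    rw [Finset.prod_insert ha, Finset.sum_insert ha, Finset.prod_insert ha]
    exact ⟨mul_mem_poleLe v h3 h1, by rw [ev_mul v h3 h1, h2]⟩

/-- Evaluation at a place on a Riemann–Roch space. -/
def evL (D : Divisor K F) : riemannRochSpace D →ₗ[K] K where
  toFun f := ev v (D v) f.1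
  map_add' f g := ev_add v (f.2 v) (g.2 v)
  map_smul' c f := ev_smul v c (f.2 v)

theorem mem_rrSpace_sub_single {D : Divisor K F} {f : F} :
    f ∈ riemannRochSpace (D - Finsupp.single v 1) ↔
      f ∈ riemannRochSpace D ∧ ev v (D v) f = 0 := by
  constructor
  · intro h
    have h' : f ∈ riemannRochSpace D := rrSpace_mono (fun w => by
      rcases eq_or_ne w v with rfl | hw <;> simp [*]) h
    refine ⟨h', (ev_eq_zero_iff v (h' v)).mpr ?_⟩
    have hv := mem_rrSpace_iff.mp h v
    rwa [Finsupp.sub_apply, Finsupp.single_eq_same] at hv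
  · rintro ⟨h, h0⟩
    refine mem_rrSpace_iff.mpr fun w => ?_
    rcases eq_or_ne w v with rfl | hw
    · rw [Finsupp.sub_apply, Finsupp.single_eq_same]
      exact (ev_eq_zero_iff w (h w)).mp h0
    · rw [Finsupp.sub_apply, Finsupp.single_eq_of_ne hw, sub_zero]
      exact h w

variable (K F) in
/-- The genus. -/
abbrev gen : ℕ := genusFF K F

theorem degree_single_one : Divisor.degree (Finsupp.single v (1 : ℤ)) = 1 := by
  rw [Divisor.degree_single, place_deg_eq_one, Nat.cast_one, mul_one]

theorem degree_single' (n : ℤ) : Divisor.degree (Finsupp.single v n) = n := by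
  rw [Divisor.degree_single, place_deg_eq_one, Nat.cast_one, mul_one]

/-- Riemann–Roch in degree `≥ 2g - 1`. -/
theorem ell_large {D : Divisor K F} (h : 2 * (gen K F : ℤ) - 1 ≤ Divisor.degree D) :
    (ell D : ℤ) = Divisor.degree D + 1 - gen K F :=
  ell_eq_of_large_degree h

/-- Base point freeness in degree `≥ 2g`. -/
theorem exists_ev_ne_zero {D : Divisor K F} (h : 2 * (gen K F : ℤ) ≤ Divisor.degree D) :
    ∃ f ∈ riemannRochSpace D, ev v (D v) f ≠ 0 := by
  by_contra hcon
  push Not at hcon
  have heq : riemannRochSpace (D - Finsupp.single v 1) = riemannRochSpace D :=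
    le_antisymm (fun f hf => ((mem_rrSpace_sub_single v).mp hf).1)
      fun f hf => (mem_rrSpace_sub_single v).mpr ⟨hf, hcon f hf⟩
  have h1 := ell_large (D := D) (by omega)
  have h2 := ell_large (D := D - Finsupp.single v 1)
    (by rw [map_sub, degree_single_one]; omega)
  rw [ell, heq] at h2
  rw [ell] at h1
  rw [map_sub, degree_single_one] at h2
  omega

/-- Finitely many linear conditions avoided simultaneously. -/
theorem exists_ev_ne_zero_finset {D : Divisor K F} (h : 2 * (gen K F : ℤ) ≤ Divisor.degree D)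
    (S : Finset (Place K F)) :
    ∃ f ∈ riemannRochSpace D, f ≠ 0 ∧ ∀ w ∈ S, ev w (D w) f ≠ 0 := by
  classical
  induction S using Finset.induction with
  | empty =>
    obtain ⟨f, hf0, hf⟩ := exists_ne_zero_mem_of_genusFF_le (D := D) (by unfold gen at h; omega)
    exact ⟨f, hf, hf0, by simp⟩
  | insert w S hw ih =>
    obtain ⟨f, hf, hf0, hfS⟩ := ih
    obtain ⟨g, hg, hgw⟩ := exists_ev_ne_zero w h
    have hev : ∀ (u : Place K F) (c : K),
        ev u (D u) (f + c • g) = ev u (D u) f + c * ev u (D u) g := fun u c => by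
      rw [ev_add u (hf u) (Submodule.smul_mem _ c (hg u)), ev_smul u c (hg u)]
    have hfin : {c : K | ∃ u ∈ insert w S, (ev u (D u) f ≠ 0 ∨ ev u (D u) g ≠ 0) ∧
        ev u (D u) f + c * ev u (D u) g = 0}.Finite := by
      refine Set.Finite.subset (Finset.finite_toSet
        ((insert w S).image fun u => -ev u (D u) f / ev u (D u) g)) ?_
      rintro c ⟨u, hu, hor, hc⟩
      rw [Finset.coe_image]
      refine ⟨u, hu, ?_⟩
      have hg0 : ev u (D u) g ≠ 0 := fun h0 => by
        rw [h0, mul_zero, add_zero] at hc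
        exact hor.elim (fun h1 => h1 hc) fun h1 => h1 h0
      field_simp
      linear_combination -hc
    obtain ⟨c, hc⟩ := hfin.exists_notMem
    have key : ∀ u ∈ insert w S, ev u (D u) (f + c • g) ≠ 0 := fun u hu h0 => by
      rw [hev] at h0
      refine hc ⟨u, hu, ?_, h0⟩
      rcases Finset.mem_insert.mp hu with rfl | hu
      · exact Or.inr hgw
      · exact Or.inl (hfS u hu)
    refine ⟨f + c • g, add_mem hf (Submodule.smul_mem _ c hg), fun h0 => ?_, key⟩
    exact key w (Finset.mem_insert_self w S) (by rw [h0, ev_zero])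

omit [IsAlgClosed K] in
theorem exists_transcendental : ∃ x : F, Transcendental K x :=
  let ⟨x, hx, _⟩ := IsFunctionField.exists_transcendental (K := K) (F := F)
  ⟨x, hx⟩

instance infinite_place : Infinite (Place K F) := by
  obtain ⟨x, hx⟩ := exists_transcendental (K := K) (F := F)
  choose P hP using fun c : K => exists_place_ord_pos (transcendental_sub_const hx c)
  refine Infinite.of_injective P fun c d hcd => ?_
  have h1 := hP c
  have h2 := hP d
  rw [← hcd] at h2
  exact const_unique (P c) (Or.inr h1) (Or.inr h2)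

end Fermat.Agent.MW

end
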