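import Fermat.Agent.MW.Eval

/-!
# Projective embeddings by the levels `L(n • O)`

Effective divisors are multisets of places. A `Frame` is a chosen base point with bases of all
`L(n • O)`. The base point free pencil trick gives the surjectivity of multiplication maps.
-/

noncomputable section

open AlgebraicCurve Fermat.Agent.FF

namespace Fermat.Agent.MW

variable {K F : Type*} [Field K] [Field F] [Algebra K F]

/-- The effective divisor of a multiset of places. -/
def msDiv (s : Multiset (Place K F)) : Divisor K F := (s.map fun v => Finsupp.single v (1 : ℤ)).sum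

theorem msDiv_zero : msDiv (0 : Multiset (Place K F)) = 0 := rfl

theorem msDiv_cons (v : Place K F) (s : Multiset (Place K F)) :
    msDiv (v ::ₘ s) = Finsupp.single v 1 + msDiv s := by
  simp [msDiv]

theorem msDiv_add (s t : Multiset (Place K F)) : msDiv (s + t) = msDiv s + msDiv t := by
  simp [msDiv]

theorem msDiv_apply [DecidableEq (Place K F)] (s : Multiset (Place K F)) (v : Place K F) :
    msDiv s v = (s.count v : ℤ) := by
  induction s using Multiset.induction_on with
  | empty => simp [msDiv_zero]
  | cons w s ih =>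
    rw [msDiv_cons, Finsupp.add_apply, ih, Multiset.count_cons]
    rcases eq_or_ne v w with rfl | h
    · rw [Finsupp.single_eq_same, if_pos rfl]; push_cast; ring
    · rw [Finsupp.single_eq_of_ne h, if_neg h]; simp

theorem msDiv_nonneg (s : Multiset (Place K F)) : 0 ≤ msDiv s := fun v => by
  classical
  simp [msDiv_apply]

theorem msDiv_apply_eq_zero {s : Multiset (Place K F)} {v : Place K F} :
    msDiv s v = 0 ↔ v ∉ s := by
  classical
  simp [msDiv_apply]

/-- The multiset of an effective divisor. -/
def msOf (D : Divisor K F) : Multiset (Place K F) :=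
  ∑ v ∈ D.support, Multiset.replicate (D v).toNat v

theorem msDiv_msOf {D : Divisor K F} (h : 0 ≤ D) : msDiv (msOf D) = D := by
  classical
  refine Finsupp.ext fun v => ?_
  rw [msDiv_apply, msOf, Multiset.count_sum']
  simp only [Multiset.count_replicate]
  rw [Finset.sum_ite_eq']
  have := h v
  simp only [Finsupp.coe_zero, Pi.zero_apply] at this
  split_ifs with hv
  · exact Int.toNat_of_nonneg this
  · simpa using (Finsupp.notMem_support_iff.mp hv).symm

variable [IsAlgClosed K] [IsFunctionField K F]

theorem degree_msDiv (s : Multiset (Place K F)) :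
    Divisor.degree (msDiv s) = (s.card : ℤ) := by
  induction s using Multiset.induction_on with
  | empty => simp [msDiv_zero]
  | cons w s ih =>
    rw [msDiv_cons, map_add, ih, degree_single_one, Multiset.card_cons]
    push_cast
    ring

omit [IsAlgClosed K] [IsFunctionField K F] in
theorem rrSpace_sub_msDiv_le {D : Divisor K F} {s t : Multiset (Place K F)} (h : t ≤ s) :
    riemannRochSpace (D - msDiv s) ≤ riemannRochSpace (D - msDiv t) := by
  classical
  refine rrSpace_mono fun v => ?_
  rw [Finsupp.sub_apply, Finsupp.sub_apply, msDiv_apply, msDiv_apply]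
  have := Multiset.count_le_of_le v h
  omega

omit [IsAlgClosed K] [IsFunctionField K F] in
/-- Removing an effective divisor shrinks the Riemann–Roch space. -/
theorem rrSpace_sub_msDiv_le_self {D : Divisor K F} (s : Multiset (Place K F)) :
    riemannRochSpace (D - msDiv s) ≤ riemannRochSpace D := by
  simpa [msDiv_zero] using rrSpace_sub_msDiv_le (D := D) (Multiset.zero_le s)

omit [IsAlgClosed K] [IsFunctionField K F] in
/-- Multiplication of Riemann–Roch spaces lands in the sum. -/
theorem mul_mem_rrSpace_add {D E : Divisor K F} {f g : F} (hf : f ∈ riemannRochSpace D)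
    (hg : g ∈ riemannRochSpace E) : f * g ∈ riemannRochSpace (D + E) :=
  mem_rrSpace_iff.mpr fun v => by
    rw [Finsupp.add_apply]
    exact mul_mem_poleLe v (hf v) (hg v)

/-- The base point free pencil trick. -/
theorem rrSpace_mul {D E : Divisor K F} (hD : 2 * (gen K F : ℤ) ≤ Divisor.degree D)
    (hDE : 2 * (gen K F : ℤ) - 1 ≤ Divisor.degree E - Divisor.degree D) :
    riemannRochSpace D * riemannRochSpace E = riemannRochSpace (D + E) := by
  classical
  have hg0 : (0 : ℤ) ≤ gen K F := Nat.cast_nonneg _
  refine le_antisymm (Submodule.mul_le.mpr fun f hf g hg => mul_mem_rrSpace_add hf hg) ?_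
  obtain ⟨a, haD, ha0, -⟩ := exists_ev_ne_zero_finset hD (∅ : Finset (Place K F))
  have hposa := neg_divOf_le ha0 haD
  obtain ⟨b, hbD, hb0, hb⟩ := exists_ev_ne_zero_finset hD (D + divOf a).support
  let ψ : riemannRochSpace E × riemannRochSpace E →ₗ[K] riemannRochSpace (D + E) :=
    { toFun := fun p => ⟨a * p.1.1 + b * p.2.1,
        add_mem (mul_mem_rrSpace_add haD p.1.2) (mul_mem_rrSpace_add hbD p.2.2)⟩
      map_add' := fun p q => Subtype.ext (by simp; ring)
      map_smul' := fun c p => Subtype.ext (by simp [smul_add]) }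
  have hdiv : ∀ p : LinearMap.ker ψ, (p : riemannRochSpace E × riemannRochSpace E).2.1 / a ∈
      riemannRochSpace (E - D) := by
    rintro ⟨⟨⟨p, hp⟩, ⟨q, hq⟩⟩, hpq⟩
    have hpq' : a * p + b * q = 0 := congrArg Subtype.val (LinearMap.mem_ker.mp hpq)
    refine mem_rrSpace_iff.mpr fun v => ?_
    rcases eq_or_ne q 0 with rfl | hq0
    · simp
    have hp0 : p ≠ 0 := by
      rintro rfl
      simp [hb0, hq0] at hpq'
    rw [mem_poleLe_of_ne v (div_ne_zero hq0 ha0), Finsupp.sub_apply, ord_div v hq0 ha0]
    by_cases hv : v ∈ (D + divOf a).support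
    · have h1 : v.ord b = -D v := (ev_ne_zero_iff v (hbD v) hb0).mp (hb v hv)
      have h2 : v.ord a + v.ord p = v.ord b + v.ord q := by
        rw [← v.ord_mul ha0 hp0, ← v.ord_mul hb0 hq0, eq_neg_of_add_eq_zero_left hpq', ord_neg]
      have h3 := (mem_poleLe_of_ne v hp0).mp (hp v)
      omega
    · have h1 : D v + v.ord a = 0 := by
        simpa [divOf_apply] using Finsupp.notMem_support_iff.mp hv
      have h3 := (mem_poleLe_of_ne v hq0).mp (hq v)
      omega
  let χ : LinearMap.ker ψ →ₗ[K] riemannRochSpace (E - D) :=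
    { toFun := fun p => ⟨_, hdiv p⟩
      map_add' := fun p q => Subtype.ext (by simp [add_div])
      map_smul' := fun c p => Subtype.ext (by simp [Algebra.smul_def, mul_div_assoc]) }
  have hχ : Function.Injective χ := by
    rintro ⟨⟨⟨p, hp⟩, ⟨q, hq⟩⟩, hpq⟩ ⟨⟨⟨p', hp'⟩, ⟨q', hq'⟩⟩, hpq'⟩ h
    have h1 : q / a = q' / a := congrArg Subtype.val h
    have h2 : q = q' := by field_simp at h1; exact h1
    have h3 : a * p + b * q = 0 := congrArg Subtype.val (LinearMap.mem_ker.mp hpq)
    have h4 : a * p' + b * q' = 0 := congrArg Subtype.val (LinearMap.mem_ker.mp hpq')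
    have h5 : p = p' := mul_left_cancel₀ ha0 (by subst h2; linear_combination h3 - h4)
    subst h2 h5
    rfl
  have hker := LinearMap.finrank_le_finrank_of_injective hχ
  have hrn := ψ.finrank_range_add_finrank_ker
  rw [Module.finrank_prod] at hrn
  have hE : 2 * (gen K F : ℤ) - 1 ≤ Divisor.degree E := by omega
  have e1 := ell_large hE
  have e2 := ell_large (D := E - D) (by rw [map_sub]; omega)
  have e3 := ell_large (D := D + E) (by rw [map_add]; omega)
  rw [map_sub] at e2
  rw [map_add] at e3
  simp only [ell] at e1 e2 e3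
  have htop : LinearMap.range ψ = ⊤ :=
    Submodule.eq_top_of_finrank_eq (le_antisymm (Submodule.finrank_le _) (by omega))
  intro f hf
  obtain ⟨p, hp⟩ := LinearMap.range_eq_top.mp htop ⟨f, hf⟩
  have hf' : a * p.1.1 + b * p.2.1 = f := congrArg Subtype.val hp
  rw [← hf']
  exact add_mem (Submodule.mul_mem_mul haD p.1.2) (Submodule.mul_mem_mul hbD p.2.2)

/-- Products of the spaces `L(D - P)` over the points of `s`, times a padding space. -/
theorem rrSpace_prod {D : Divisor K F} (hD : 2 * (gen K F : ℤ) + 1 ≤ Divisor.degree D)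
    (s : Multiset (Place K F)) {j : ℕ} (hj : 2 ≤ j) :
    (s.map fun v => riemannRochSpace (D - Finsupp.single v 1)).prod *
        riemannRochSpace (j • D) =
      riemannRochSpace ((s.card + j) • D - msDiv s) := by
  induction s using Multiset.induction_on with
  | empty => simp [msDiv_zero]
  | cons v s ih =>
    rw [Multiset.map_cons, Multiset.prod_cons, mul_assoc, ih, rrSpace_mul, Multiset.card_cons,
      msDiv_cons]
    · congr 1
      rw [show s.card + 1 + j = s.card + j + 1 by ring, succ_nsmul]
      abel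
    · rw [map_sub, degree_single_one]; omega
    · rw [map_sub, map_sub, map_nsmul, degree_single_one, degree_msDiv, nsmul_eq_mul]
      push_cast
      have h2 : ((s.card : ℤ) + 2) ≤ (s.card : ℤ) + j := by omega
      nlinarith [mul_le_mul_of_nonneg_right h2 (by omega : (0 : ℤ) ≤ Divisor.degree D - 1)]

/-- `L(D) ^ j = L(j D)` in degree `≥ 4g + 1`. -/
theorem rrSpace_pow {D : Divisor K F} (hD : 4 * (gen K F : ℤ) + 1 ≤ Divisor.degree D) {j : ℕ}
    (hj : 1 ≤ j) : riemannRochSpace D ^ j = riemannRochSpace (j • D) := by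
  have hg0 : (0 : ℤ) ≤ gen K F := Nat.cast_nonneg _
  obtain ⟨P⟩ : Nonempty (Place K F) := inferInstance
  have h2 : riemannRochSpace D * riemannRochSpace D = riemannRochSpace (D + D) := by
    refine le_antisymm (Submodule.mul_le.mpr fun f hf g hg => mul_mem_rrSpace_add hf hg) ?_
    set A : Divisor K F := Finsupp.single P (2 * (gen K F : ℤ)) with hA
    have hdA : Divisor.degree A = 2 * (gen K F : ℤ) := degree_single' P _
    have e1 : riemannRochSpace A * riemannRochSpace (D + D - A) = riemannRochSpace (D + D) := by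
      rw [rrSpace_mul (by omega) (by rw [map_sub, map_add, hdA]; omega), add_sub_cancel]
    have e2 : riemannRochSpace (D - A) * riemannRochSpace D = riemannRochSpace (D + D - A) := by
      rw [rrSpace_mul (by rw [map_sub, hdA]; omega) (by rw [map_sub, hdA]; omega),
        sub_add_eq_add_sub]
    rw [← e1, ← e2, ← mul_assoc]
    have e3 : riemannRochSpace A * riemannRochSpace (D - A) ≤ riemannRochSpace D :=
      Submodule.mul_le.mpr fun f hf g hg => by simpa using mul_mem_rrSpace_add hf hg
    exact mul_le_mul' e3 le_rfl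
  induction j, hj using Nat.le_induction with
  | base => simp
  | succ j hj ih =>
    rw [pow_succ', ih]
    rcases Nat.lt_or_ge j 2 with hj2 | hj2
    · obtain rfl : j = 1 := by omega
      rw [one_nsmul, h2, two_nsmul]
    · rw [rrSpace_mul (by omega) ?_, succ_nsmul', add_comm]
      rw [map_nsmul, nsmul_eq_mul]
      have hj3 : (2 : ℤ) ≤ j := by exact_mod_cast hj2
      nlinarith [mul_le_mul_of_nonneg_right hj3 (by omega : (0 : ℤ) ≤ Divisor.degree D)]

variable (K F) in
/-- A base point with bases of all `L(n • O)`. -/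
structure Frame where
  /-- The base point. -/
  O : Place K F
  /-- The bases. -/
  basis : ∀ n : ℕ, Module.Basis (Fin (ell (Finsupp.single O (n : ℤ)))) K
    (riemannRochSpace (Finsupp.single O (n : ℤ)))

variable (Φ : Frame K F) (n : ℕ)

/-- The divisor `n • O`. -/
abbrev Frame.DO : Divisor K F := Finsupp.single Φ.O (n : ℤ)

theorem Frame.degree_DO : Divisor.degree (Φ.DO n) = (n : ℤ) := degree_single' _ _

omit [IsAlgClosed K] [IsFunctionField K F] in
theorem Frame.nsmul_DO (j : ℕ) : j • Φ.DO n = Φ.DO (j * n) := by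
  simp [Frame.DO, Finsupp.smul_single]

omit [IsAlgClosed K] [IsFunctionField K F] in
theorem Frame.DO_add (m : ℕ) : Φ.DO n + Φ.DO m = Φ.DO (n + m) := by
  simp [Frame.DO, Finsupp.single_add]

/-- The dimension of `L(n • O)`. -/
abbrev Frame.dim : ℕ := ell (Φ.DO n)

theorem Frame.dim_eq (h : 2 * gen K F ≤ n + 1) : Φ.dim n + gen K F = n + 1 := by
  have := ell_large (D := Φ.DO n) (by rw [Φ.degree_DO]; omega)
  rw [Φ.degree_DO] at this
  unfold Frame.dim
  omega

/-- The basis functions of level `n`. -/
def Frame.fn (i : Fin (Φ.dim n)) : F := (Φ.basis n i : F)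

omit [IsAlgClosed K] [IsFunctionField K F] in
theorem Frame.fn_mem (i : Fin (Φ.dim n)) : Φ.fn n i ∈ riemannRochSpace (Φ.DO n) :=
  (Φ.basis n i).2

omit [IsAlgClosed K] [IsFunctionField K F] in
theorem Frame.span_range_fn :
    Submodule.span K (Set.range (Φ.fn n)) = riemannRochSpace (Φ.DO n) := by
  have := congrArg (Submodule.map (riemannRochSpace (Φ.DO n)).subtype) (Φ.basis n).span_eq
  rwa [Submodule.map_span, ← Set.range_comp, Submodule.map_top, Submodule.range_subtype] at this

/-- A linear extension of the coordinates of level `n` to all of `F`. -/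
def Frame.co : F →ₗ[K] (Fin (Φ.dim n) → K) :=
  (LinearMap.exists_extend (Φ.basis n).equivFun.toLinearMap).choose

omit [IsAlgClosed K] [IsFunctionField K F] in
theorem Frame.co_coe (f : riemannRochSpace (Φ.DO n)) :
    Φ.co n f.1 = (Φ.basis n).equivFun f :=
  LinearMap.congr_fun (LinearMap.exists_extend (Φ.basis n).equivFun.toLinearMap).choose_spec f

omit [IsAlgClosed K] [IsFunctionField K F] in
theorem Frame.sum_co {f : F} (hf : f ∈ riemannRochSpace (Φ.DO n)) :
    ∑ i, Φ.co n f i • Φ.fn n i = f := by
  rw [Φ.co_coe n ⟨f, hf⟩]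
  have := congrArg Subtype.val ((Φ.basis n).sum_equivFun ⟨f, hf⟩)
  push_cast at this
  exact this

omit [IsAlgClosed K] [IsFunctionField K F] in
theorem Frame.co_injOn : Set.InjOn (Φ.co n) (riemannRochSpace (Φ.DO n) : Set F) :=
  fun f hf g hg h => by rw [← Φ.sum_co n hf, ← Φ.sum_co n hg, h]

omit [IsAlgClosed K] [IsFunctionField K F] in
theorem Frame.co_eq_zero_iff {f : F} (hf : f ∈ riemannRochSpace (Φ.DO n)) :
    Φ.co n f = 0 ↔ f = 0 :=
  ⟨fun h => Φ.co_injOn n hf (zero_mem _) (by rw [h, map_zero]), fun h => by rw [h, map_zero]⟩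

omit [IsAlgClosed K] [IsFunctionField K F] in
theorem Frame.co_fn (i : Fin (Φ.dim n)) : Φ.co n (Φ.fn n i) = Pi.single i 1 := by
  classical
  rw [Frame.fn, Φ.co_coe n (Φ.basis n i)]
  ext j
  simp [Pi.single_apply, eq_comm]

/-- The point of level `n` attached to a place. -/
def Frame.X (v : Place K F) : Fin (Φ.dim n) → K := fun i => ev v (Φ.DO n v) (Φ.fn n i)

theorem Frame.ev_eq_sum (v : Place K F) {f : F} (hf : f ∈ riemannRochSpace (Φ.DO n)) :
    ev v (Φ.DO n v) f = ∑ i, Φ.co n f i * Φ.X n v i := by
  have h : ∀ g : riemannRochSpace (Φ.DO n), evL v (Φ.DO n) g = ev v (Φ.DO n v) g.1 := fun g => rfl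
  rw [← h ⟨f, hf⟩, Φ.co_coe n ⟨f, hf⟩]
  conv_lhs => rw [← (Φ.basis n).sum_equivFun ⟨f, hf⟩]
  rw [map_sum]
  simp only [map_smul, smul_eq_mul]
  rfl

theorem Frame.X_ne_zero (h : 2 * gen K F ≤ n) (v : Place K F) : Φ.X n v ≠ 0 := by
  obtain ⟨f, hf, hne⟩ := exists_ev_ne_zero v (D := Φ.DO n) (by rw [Φ.degree_DO]; omega)
  intro h0
  exact hne (by rw [Φ.ev_eq_sum n v hf, h0]; simp)

theorem Frame.mem_sub_single_iff (v : Place K F) {f : F}
    (hf : f ∈ riemannRochSpace (Φ.DO n)) :
    f ∈ riemannRochSpace (Φ.DO n - Finsupp.single v 1) ↔ ∑ i, Φ.co n f i * Φ.X n v i = 0 := by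
  rw [mem_rrSpace_sub_single, Φ.ev_eq_sum n v hf]
  exact and_iff_right hf

/-- The embedding of level `n ≥ 2g + 1` separates places. -/
theorem Frame.X_injective (h : 2 * gen K F + 1 ≤ n) {v w : Place K F} {c : K}
    (hc : Φ.X n v = c • Φ.X n w) : v = w := by
  classical
  by_contra hne
  set D := Φ.DO n
  have heq : riemannRochSpace (D - Finsupp.single w 1) =
      riemannRochSpace (D - msDiv {v, w}) := by
    refine le_antisymm (fun f hf => ?_) ?_
    · have hfD := ((mem_rrSpace_sub_single w).mp hf).1
      have hw0 := (Φ.mem_sub_single_iff n w hfD).mp hf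
      have hv0 : f ∈ riemannRochSpace (D - Finsupp.single v 1) := by
        rw [Φ.mem_sub_single_iff n v hfD, hc]
        simp [mul_left_comm _ c, ← Finset.mul_sum, hw0]
      refine mem_rrSpace_iff.mpr fun u => ?_
      have hfw := mem_rrSpace_iff.mp hf u
      have hfv := mem_rrSpace_iff.mp hv0 u
      rcases eq_or_ne u v with rfl | huv
      · simpa [msDiv_apply, hne] using hfv
      · rcases eq_or_ne u w with rfl | huw
        · simpa [msDiv_apply, huv] using hfw
        · simpa [msDiv_apply, huv, huw, Finsupp.single_eq_of_ne] using hfw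
    · have hle := rrSpace_sub_msDiv_le (D := D)
        (show ({w} : Multiset (Place K F)) ≤ {v, w} from Multiset.le_cons_self {w} v)
      simpa [msDiv] using hle
  have h1 := ell_large (D := D - Finsupp.single w 1)
    (by rw [map_sub, degree_single_one, Φ.degree_DO]; omega)
  have h2 := ell_large (D := D - msDiv {v, w})
    (by rw [map_sub, degree_msDiv, Φ.degree_DO]; simp; omega)
  rw [map_sub, degree_single_one, Φ.degree_DO] at h1
  rw [map_sub, degree_msDiv, Φ.degree_DO] at h2
  simp only [Multiset.insert_eq_cons, Multiset.card_cons, Multiset.card_singleton] at h2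
  rw [ell, heq, Multiset.insert_eq_cons] at h1
  rw [ell] at h2
  omega

end Fermat.Agent.MW

end
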