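import Fermat.Agent.FF.DiffUnramified
import Fermat.Agent.MW.Level

/-!
# Members of linear systems in general position

Linear equivalence, and members of base point free systems which are reduced and avoid a given
finite set of places. Used to choose representatives of classes in general position.
-/

noncomputable section

open AlgebraicCurve Fermat.Agent.FF Fermat.Agent.FF.Diff

namespace Fermat.Agent.MW

variable {K F : Type*} [Field K] [Field F] [Algebra K F] [IsAlgClosed K] [IsFunctionField K F]

/-- Linear equivalence. -/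
def LinEq (D E : Divisor K F) : Prop := ∃ f : F, f ≠ 0 ∧ D = E + divOf f

theorem LinEq.refl (D : Divisor K F) : LinEq D D :=
  ⟨1, one_ne_zero, by
    refine Finsupp.ext fun v => ?_
    simp [divOf_apply]⟩

theorem LinEq.symm {D E : Divisor K F} (h : LinEq D E) : LinEq E D := by
  obtain ⟨f, hf, rfl⟩ := h
  exact ⟨f⁻¹, inv_ne_zero hf, by rw [divOf_inv]; abel⟩

theorem LinEq.trans {D E G : Divisor K F} (h₁ : LinEq D E) (h₂ : LinEq E G) : LinEq D G := by
  obtain ⟨f, hf, rfl⟩ := h₁
  obtain ⟨g, hg, rfl⟩ := h₂
  exact ⟨g * f, mul_ne_zero hg hf, by rw [divOf_mul hg hf]; abel⟩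

theorem LinEq.add {D E D' E' : Divisor K F} (h₁ : LinEq D E) (h₂ : LinEq D' E') :
    LinEq (D + D') (E + E') := by
  obtain ⟨f, hf, rfl⟩ := h₁
  obtain ⟨g, hg, rfl⟩ := h₂
  exact ⟨f * g, mul_ne_zero hf hg, by rw [divOf_mul hf hg]; abel⟩

theorem LinEq.neg {D E : Divisor K F} (h : LinEq D E) : LinEq (-D) (-E) := by
  obtain ⟨f, hf, rfl⟩ := h
  exact ⟨f⁻¹, inv_ne_zero hf, by rw [divOf_inv]; abel⟩

theorem LinEq.sub {D E D' E' : Divisor K F} (h₁ : LinEq D E) (h₂ : LinEq D' E') :
    LinEq (D - D') (E - E') := by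
  simpa [sub_eq_add_neg] using h₁.add h₂.neg

theorem LinEq.degree_eq {D E : Divisor K F} (h : LinEq D E) :
    Divisor.degree D = Divisor.degree E := by
  obtain ⟨f, -, rfl⟩ := h
  rw [map_add, degree_divOf, add_zero]

theorem linEq_iff_mem_principal {D E : Divisor K F} :
    LinEq D E ↔ D - E ∈ Divisor.principal (K := K) (F := F) := by
  rw [Divisor.mem_principal, isPrincipal_iff]
  simp [LinEq, sub_eq_iff_eq_add']

/-- A member of a base point free system avoiding a finite set. -/
theorem exists_member_avoiding {D : Divisor K F} (h : 2 * (gen K F : ℤ) ≤ Divisor.degree D)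
    (S : Finset (Place K F)) :
    ∃ W : Multiset (Place K F), LinEq (msDiv W) D ∧ (∀ v ∈ S, v ∉ W) := by
  obtain ⟨f, hf, hf0, hS⟩ := exists_ev_ne_zero_finset h S
  have hpos := neg_divOf_le hf0 hf
  refine ⟨msOf (D + divOf f), ⟨f, hf0, msDiv_msOf hpos⟩, fun v hv => ?_⟩
  rw [← msDiv_apply_eq_zero, msDiv_msOf hpos, Finsupp.add_apply, divOf_apply,
    (ev_ne_zero_iff v (hf v) hf0).mp (hS v hv)]
  ring

variable [CharZero K]

/-- In characteristic zero almost all fibres of a function are reduced. -/
theorem exists_finset_ord_sub_le_one {φ : F} (hφ : Transcendental K φ) :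
    ∃ B : Finset (Place K F), ∀ v : Place K F, v ∉ B → ∀ t : K,
      v.ord (φ - algebraMap K F t) ≤ 1 := by
  classical
  have := finiteDimensional_adjoin_of_transcendental hφ
  have : CharZero (IntermediateField.adjoin K ({φ} : Set F)) :=
    charZero_of_injective_algebraMap (algebraMap K _).injective
  have : PerfectField (IntermediateField.adjoin K ({φ} : Set F)) := PerfectField.ofCharZero
  have : Algebra.IsSeparable (IntermediateField.adjoin K ({φ} : Set F)) F :=
    Algebra.IsAlgebraic.isSeparable_of_perfectField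
  obtain ⟨y, hy⟩ := Field.exists_primitive_element (IntermediateField.adjoin K ({φ} : Set F)) F
  have htop : IntermediateField.adjoin K ({φ, y} : Set F) = ⊤ := by
    have h := congrArg (IntermediateField.restrictScalars K) hy
    rwa [IntermediateField.adjoin_simple_adjoin_simple, IntermediateField.restrictScalars_top] at h
  obtain ⟨G, hG, hroot, hder⟩ :=
    exists_root_of_isSeparable (K := K) (t := φ) (f := y) (Algebra.IsSeparable.isSeparable _ _)
  refine ⟨(finite_ord_ne_zero (K := K) y).toFinset ∪
    (finite_ord_ne_zero (K := K) (G.derivative.eval y)).toFinset, fun v hv t => ?_⟩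
  simp only [Finset.mem_union, Set.Finite.mem_toFinset, Set.mem_ofPred_eq, not_or, not_not] at hv
  by_contra hlt
  push Not at hlt
  have hne : φ - algebraMap K F t ≠ 0 := fun h => by rw [h, Place.ord_zero] at hlt; omega
  have hφv : φ ∈ v.toValuationSubring := by
    have : φ - algebraMap K F t ∈ v.toValuationSubring :=
      (mem_iff_ord_nonneg v).mpr (by omega)
    simpa using add_mem this (v.algebraMap_mem' t)
  have h1 := ord_sub_eq_one_of_simple_root (c := t)
    (constResidue_of_deg_eq_one v (place_deg_eq_one v)) htop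
    ((mem_iff_adicValuation_le_one v).mp hφv)
    ((mem_iff_adicValuation_le_one v).mp ((mem_iff_ord_nonneg v).mpr (le_of_eq hv.1.symm)))
    G hG hroot
    (by rw [val_eq_exp hder, hv.2, neg_zero, WithZero.exp_zero])
    (by rw [val_eq_exp hne, WithZero.exp_le_exp]; omega) hne
  omega

/-- A reduced member avoiding a finite set. -/
theorem exists_reduced_avoiding {D : Divisor K F}
    (h : 2 * (gen K F : ℤ) + 1 ≤ Divisor.degree D) (S : Finset (Place K F)) :
    ∃ W : Multiset (Place K F), LinEq (msDiv W) D ∧ W.Nodup ∧ (∀ v ∈ S, v ∉ W) := by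
  classical
  have hg : (0 : ℤ) ≤ gen K F := Nat.cast_nonneg _
  obtain ⟨a, haD, ha0, haS⟩ := exists_ev_ne_zero_finset (D := D) (by omega) S
  have hposa := neg_divOf_le ha0 haD
  obtain ⟨b, hbD, hb0, hb⟩ :=
    exists_ev_ne_zero_finset (D := D) (by omega) (S ∪ (D + divOf a).support)
  set φ := a / b with hφdef
  have hne : (D + divOf a) ≠ 0 := fun h0 => by
    have := congrArg Divisor.degree h0
    rw [map_add, degree_divOf, map_zero] at this
    omega
  have hφ : Transcendental K φ := by
    obtain ⟨P, hP⟩ := Finsupp.support_nonempty_iff.mpr hne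
    refine transcendental_of_ord_ne_zero (v := P) ?_
    have h1 := (ev_ne_zero_iff P (hbD P) hb0).mp (hb P (Finset.mem_union_right _ hP))
    rw [hφdef, ord_div P ha0 hb0, h1]
    simp only [Finsupp.mem_support_iff, Finsupp.add_apply, divOf_apply] at hP
    omega
  obtain ⟨B, hB⟩ := exists_finset_ord_sub_le_one hφ
  obtain ⟨t, ht⟩ := ((B ∪ S).finite_toSet.image fun v => valAt v φ).toFinset.exists_notMem
  rw [Set.Finite.mem_toFinset] at ht
  set f := a - t • b with hfdef
  have hfb : f = (φ - algebraMap K F t) * b := by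
    rw [hfdef, hφdef, Algebra.smul_def, sub_mul, div_mul_cancel₀ a hb0]
  have hφt : φ - algebraMap K F t ≠ 0 := fun h0 =>
    hφ (by rw [sub_eq_zero.mp h0]; exact isAlgebraic_algebraMap t)
  have hf0 : f ≠ 0 := by rw [hfb]; exact mul_ne_zero hφt hb0
  have hf : f ∈ riemannRochSpace D := sub_mem haD (Submodule.smul_mem _ _ hbD)
  have hpos := neg_divOf_le hf0 hf
  have key : ∀ v, msDiv (msOf (D + divOf f)) v =
      D v + v.ord (φ - algebraMap K F t) + v.ord b := fun v => by
    rw [msDiv_msOf hpos, Finsupp.add_apply, divOf_apply, hfb, v.ord_mul hφt hb0]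
    ring
  have hreg : ∀ v, v.ord (φ - algebraMap K F t) > 0 →
      φ ∈ v.toValuationSubring ∧ valAt v φ = t := fun v hv => by
    have h1 : φ - algebraMap K F t ∈ v.toValuationSubring :=
      (mem_iff_ord_nonneg v).mpr (by omega)
    have h2 : φ ∈ v.toValuationSubring := by simpa using add_mem h1 (v.algebraMap_mem' t)
    refine ⟨h2, ?_⟩
    have h3 := valAt_add v h1 (v.algebraMap_mem' t)
    rwa [sub_add_cancel, (valAt_eq_zero_iff v h1).mpr (Or.inr hv), valAt_algebraMap,
      zero_add] at h3
  have hbz : ∀ v, v ∈ msOf (D + divOf f) →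
      D v + v.ord b = 0 ∧ v.ord (φ - algebraMap K F t) > 0 := by
    intro v hv
    have h0 : msDiv (msOf (D + divOf f)) v ≠ 0 := fun h => msDiv_apply_eq_zero.mp h hv
    have hpos' : 0 ≤ D v + v.ord (φ - algebraMap K F t) + v.ord b := by
      rw [← key]; exact msDiv_nonneg _ v
    rw [key] at h0
    by_cases hb1 : D v + v.ord b = 0
    · exact ⟨hb1, by omega⟩
    exfalso
    -- then `a` does not vanish at `v`
    have hvb : 0 < D v + v.ord b := by
      have := (mem_poleLe_of_ne v hb0).mp (hbD v)
      omega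
    have hva : D v + v.ord a = 0 := by
      by_contra hne'
      have hsupp : v ∈ (D + divOf a).support := by simpa [divOf_apply] using hne'
      have := (ev_ne_zero_iff v (hbD v) hb0).mp (hb v (Finset.mem_union_right _ hsupp))
      omega
    have hφv : v.ord φ < 0 := by rw [hφdef, ord_div v ha0 hb0]; omega
    have h2 : v.ord (φ - algebraMap K F t) = v.ord φ := by
      rw [sub_eq_add_neg, ord_add_eq_of_lt v (fun h => by simp [h] at hφv)]
      rcases eq_or_ne t 0 with rfl | ht0
      · exact Or.inl (by simp)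
      · refine Or.inr ?_
        rw [ord_neg, ord_algebraMap]; exact hφv
    rw [h2] at h0
    rw [hφdef, ord_div v ha0 hb0] at h0
    omega
  refine ⟨msOf (D + divOf f), ⟨f, hf0, msDiv_msOf hpos⟩, ?_, fun v hv hvW => ?_⟩
  · rw [Multiset.nodup_iff_count_le_one]
    intro v
    by_cases hv : v ∈ msOf (D + divOf f)
    · obtain ⟨h1, h2⟩ := hbz v hv
      have h3 : v.ord (φ - algebraMap K F t) ≤ 1 := by
        refine hB v (fun hvB => ht ⟨v, Finset.mem_union_left _ hvB, (hreg v h2).2⟩) t
      have h4 := key v
      rw [msDiv_apply] at h4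
      omega
    · simp [Multiset.count_eq_zero.mpr hv]
  · exact ht ⟨v, Finset.mem_union_right _ hv, (hreg v (hbz v hvW).2).2⟩

end Fermat.Agent.MW

end
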