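import Fermat.Agent.MW.HeightExt

/-!
# The absolute height of a tuple of algebraic numbers

The absolute logarithmic height `hgt` of a tuple in `ℚ̄`: invariance under scaling, bounds for
products and linear maps, and Northcott over `ℚ`. It is the height used in the proof of
Mordell–Weil for `J₀(N)`.
-/

noncomputable section

open NumberField Height IntermediateField

namespace Fermat.Agent.MW

/-- The field of algebraic numbers. -/
abbrev Qbar : Type := AlgebraicClosure ℚ

variable {ι κ : Type*}

/-- The number field generated by the entries of a tuple. -/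
def entryField (x : ι → Qbar) : IntermediateField ℚ Qbar := adjoin ℚ (Set.range x)

theorem mem_entryField (x : ι → Qbar) (i : ι) : x i ∈ entryField x :=
  subset_adjoin ℚ _ (Set.mem_range_self i)

instance finiteDimensional_entryField [Finite ι] (x : ι → Qbar) :
    FiniteDimensional ℚ (entryField x) :=
  IntermediateField.finiteDimensional_adjoin fun a _ =>
    ((AlgebraicClosure.isAlgebraic ℚ).isAlgebraic a).isIntegral

/-- The absolute logarithmic height of a tuple, invariant under scaling. -/
def hgt [Finite ι] (x : ι → Qbar) : ℝ :=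
  have : NumberField (entryField x) := {}
  logHeight (fun i => (⟨x i, mem_entryField x i⟩ : entryField x)) /
    Module.finrank ℚ (entryField x)

/-- The height can be computed in any number field containing the entries. -/
theorem hgt_eq [Finite ι] (x : ι → Qbar) (L : IntermediateField ℚ Qbar) [FiniteDimensional ℚ L]
    [NumberField L] (h : ∀ i, x i ∈ L) :
    hgt x = logHeight (fun i => (⟨x i, h i⟩ : L)) / Module.finrank ℚ L := by
  have hle : entryField x ≤ L := adjoin_le_iff.mpr (by rintro a ⟨i, rfl⟩; exact h i)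
  let : Algebra (entryField x) L := (IntermediateField.inclusion hle).toRingHom.toAlgebra
  have : IsScalarTower ℚ (entryField x) L :=
    IsScalarTower.of_algebraMap_eq fun q => (IntermediateField.inclusion hle).commutes q |>.symm
  have : NumberField (entryField x) := {}
  have h1 := logHeight_algebraMap (L' := L) (fun i => (⟨x i, mem_entryField x i⟩ : entryField x))
  have h2 : (fun i => algebraMap (entryField x) L ⟨x i, mem_entryField x i⟩) =
      fun i => (⟨x i, h i⟩ : L) := rfl
  have : Module.Finite (entryField x) L := Module.Finite.of_restrictScalars_finite ℚ _ _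
  rw [h2] at h1
  have : Module.Free (entryField x) L := Module.Free.of_divisionRing _ _
  rw [hgt, h1, ← Module.finrank_mul_finrank ℚ (entryField x) L, Nat.cast_mul]
  have hp : (0 : ℝ) < Module.finrank ℚ (entryField x) := Nat.cast_pos.mpr Module.finrank_pos
  have hq : (0 : ℝ) < Module.finrank (entryField x) L := Nat.cast_pos.mpr Module.finrank_pos
  field_simp

/-- A number field containing a finite family of algebraic numbers. -/
theorem exists_field {α : Type*} [Finite α] (a : α → Qbar) :
    ∃ L : IntermediateField ℚ Qbar, FiniteDimensional ℚ L ∧ ∀ t, a t ∈ L :=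
  ⟨entryField a, inferInstance, mem_entryField a⟩

theorem hgt_nonneg [Finite ι] (x : ι → Qbar) : 0 ≤ hgt x := by
  have : NumberField (entryField x) := {}
  exact div_nonneg (logHeight_nonneg _) (Nat.cast_nonneg _)

@[simp]
theorem hgt_zero [Finite ι] : hgt (0 : ι → Qbar) = 0 := by
  have : NumberField (entryField (0 : ι → Qbar)) := {}
  rw [hgt]
  have : (fun i => (⟨(0 : ι → Qbar) i, mem_entryField 0 i⟩ : entryField (0 : ι → Qbar))) = 0 := rfl
  rw [this, logHeight_zero, zero_div]

/-- The height is invariant under scaling. -/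
theorem hgt_smul [Finite ι] (x : ι → Qbar) {c : Qbar} (hc : c ≠ 0) :
    hgt (c • x) = hgt x := by
  obtain ⟨L, _, hL⟩ := exists_field (Sum.elim (fun _ : Unit => c) x)
  have : NumberField L := {}
  have hcL : c ∈ L := hL (Sum.inl ())
  have hxL : ∀ i, x i ∈ L := fun i => hL (Sum.inr i)
  rw [hgt_eq (c • x) L (fun i => mul_mem hcL (hxL i)), hgt_eq x L hxL]
  congr 1
  have hc' : (⟨c, hcL⟩ : L) ≠ 0 := fun h => hc (congrArg Subtype.val h)
  exact logHeight_smul_eq_logHeight (fun i => (⟨x i, hxL i⟩ : L)) hc'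

theorem hgt_fun_smul [Finite ι] (x : ι → Qbar) {c : Qbar} (hc : c ≠ 0) :
    hgt (fun i => c * x i) = hgt x :=
  hgt_smul x hc

theorem hgt_neg [Finite ι] (x : ι → Qbar) : hgt (fun i => -x i) = hgt x := by
  simpa using hgt_fun_smul x (show (-1 : Qbar) ≠ 0 by norm_num)

theorem hgt_comp_le [Finite ι] [Finite κ] (f : κ → ι) (x : ι → Qbar) :
    hgt (fun j => x (f j)) ≤ hgt x := by
  have : NumberField (entryField x) := {}
  rw [hgt_eq (fun j => x (f j)) (entryField x) (fun j => mem_entryField x (f j)), hgt]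
  exact div_le_div_of_nonneg_right
    (logHeight_comp_le f (fun i => (⟨x i, mem_entryField x i⟩ : entryField x)))
    (Nat.cast_nonneg _)

theorem hgt_comp_surjective [Finite ι] [Finite κ] {f : κ → ι} (hf : Function.Surjective f)
    (x : ι → Qbar) : hgt (fun j => x (f j)) = hgt x :=
  le_antisymm (hgt_comp_le f x) <| by
    obtain ⟨g, hg⟩ := hf.hasRightInverse
    simpa [hg _] using hgt_comp_le g (fun j => x (f j))

theorem hgt_mul_eq [Finite ι] [Finite κ] {x : ι → Qbar} (hx : x ≠ 0) {y : κ → Qbar}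
    (hy : y ≠ 0) : hgt (fun a : ι × κ => x a.1 * y a.2) = hgt x + hgt y := by
  obtain ⟨L, _, hL⟩ := exists_field (Sum.elim x y)
  have : NumberField L := {}
  have hxL : ∀ i, x i ∈ L := fun i => hL (Sum.inl i)
  have hyL : ∀ i, y i ∈ L := fun i => hL (Sum.inr i)
  rw [hgt_eq x L hxL, hgt_eq y L hyL,
    hgt_eq (fun a : ι × κ => x a.1 * y a.2) L fun a => mul_mem (hxL _) (hyL _), ← add_div]
  congr 1
  have hx' : (fun i => (⟨x i, hxL i⟩ : L)) ≠ 0 := fun h =>
    hx (funext fun i => congrArg Subtype.val (congrFun h i))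
  have hy' : (fun i => (⟨y i, hyL i⟩ : L)) ≠ 0 := fun h =>
    hy (funext fun i => congrArg Subtype.val (congrFun h i))
  exact logHeight_fun_mul_eq hx' hy'

theorem hgt_prod_eq {α : Type*} [Fintype α] {β : α → Type*} [∀ a, Finite (β a)]
    {x : (a : α) → β a → Qbar} (hx : ∀ a, x a ≠ 0) :
    hgt (fun I : (a : α) → β a => ∏ a, x a (I a)) = ∑ a, hgt (x a) := by
  obtain ⟨L, _, hL⟩ := exists_field (fun p : (a : α) × β a => x p.1 p.2)
  have : NumberField L := {}
  have hxL : ∀ a i, x a i ∈ L := fun a i => hL ⟨a, i⟩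
  have hsum : ∀ a, hgt (x a) =
      logHeight (fun i => (⟨x a i, hxL a i⟩ : L)) / Module.finrank ℚ L :=
    fun a => hgt_eq (x a) L (hxL a)
  rw [Finset.sum_congr rfl (fun a _ => hsum a), ← Finset.sum_div,
    hgt_eq (fun I : (a : α) → β a => ∏ a, x a (I a)) L fun I => prod_mem fun a _ => hxL _ _]
  congr 1
  have hx' : ∀ a, (fun i => (⟨x a i, hxL a i⟩ : L)) ≠ 0 := fun a h =>
    hx a (funext fun i => congrArg Subtype.val (congrFun h i))
  rw [← logHeight_fun_prod_eq hx']
  exact congrArg logHeight (funext fun I => Subtype.ext (by simp))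

theorem hgt_mul_le [Finite ι] [Finite κ] (x : ι → Qbar) (y : κ → Qbar) :
    hgt (fun a : ι × κ => x a.1 * y a.2) ≤ hgt x + hgt y := by
  rcases eq_or_ne x 0 with rfl | hx
  · simpa [show (fun _ : ι × κ => (0 : Qbar)) = 0 from rfl] using
      hgt_nonneg y
  rcases eq_or_ne y 0 with rfl | hy
  · simpa [show (fun _ : ι × κ => (0 : Qbar)) = 0 from rfl] using
      hgt_nonneg x
  exact (hgt_mul_eq hx hy).le

theorem hgt_pow [Finite ι] (x : ι → Qbar) (n : ℕ) : hgt (fun i => x i ^ n) = n * hgt x := by
  have : NumberField (entryField x) := {}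
  rw [hgt_eq (fun i => x i ^ n) (entryField x) fun i => pow_mem (mem_entryField x i) n,
    hgt, ← mul_div_assoc]
  congr 1
  rw [← logHeight_pow]
  rfl

theorem hgt_prod_le {α : Type*} [Fintype α] {β : α → Type*} [∀ a, Finite (β a)]
    (x : (a : α) → β a → Qbar) :
    hgt (fun I : (a : α) → β a => ∏ a, x a (I a)) ≤ ∑ a, hgt (x a) := by
  by_cases hx : ∀ a, x a ≠ 0
  · exact (hgt_prod_eq hx).le
  push Not at hx
  obtain ⟨a, ha⟩ := hx
  have : (fun I : (a : α) → β a => ∏ a, x a (I a)) = 0 :=
    funext fun I => Finset.prod_eq_zero (Finset.mem_univ a) (by simp [ha])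
  rw [this, hgt_zero]
  exact Finset.sum_nonneg fun _ _ => hgt_nonneg _

/-- Applying a fixed linear map changes the height by at most a constant. -/
theorem exists_hgt_linear_le [Fintype ι] [Finite κ] (A : κ → ι → Qbar) :
    ∃ C : ℝ, ∀ x : ι → Qbar, hgt (fun j => ∑ i, A j i * x i) ≤ hgt x + C := by
  refine ⟨Real.log (Nat.card ι) + hgt (fun p : κ × ι => A p.1 p.2), fun x => ?_⟩
  obtain ⟨L, _, hL⟩ := exists_field (Sum.elim (fun p : κ × ι => A p.1 p.2) x)
  have : NumberField L := {}
  have hA : ∀ p : κ × ι, A p.1 p.2 ∈ L := fun p => hL (Sum.inl p)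
  have hxL : ∀ i, x i ∈ L := fun i => hL (Sum.inr i)
  rw [hgt_eq x L hxL, hgt_eq (fun p : κ × ι => A p.1 p.2) L hA,
    hgt_eq (fun j => ∑ i, A j i * x i) L fun j => sum_mem fun i _ => mul_mem (hA (j, i)) (hxL i)]
  have h := logHeight_linearMap_apply_le (fun p : κ × ι => (⟨A p.1 p.2, hA p⟩ : L))
    (fun i => (⟨x i, hxL i⟩ : L))
  rw [NumberField.totalWeight_eq_finrank] at h
  have e : (fun j => (⟨∑ i, A j i * x i, sum_mem fun i _ => mul_mem (hA (j, i)) (hxL i)⟩ : L)) =
      fun j => ∑ i, (⟨A j i, hA (j, i)⟩ : L) * ⟨x i, hxL i⟩ :=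
    funext fun j => Subtype.ext (by simp)
  have hp : (0 : ℝ) < Module.finrank ℚ L := Nat.cast_pos.mpr Module.finrank_pos
  rw [e, div_le_iff₀ hp]
  field_simp
  linarith

/-- Northcott for rational tuples with a coordinate equal to one. -/
theorem finite_rat_tuples [Finite ι] (i₀ : ι) (B : ℝ) :
    {x : ι → ℚ | x i₀ = 1 ∧ hgt (fun i => (algebraMap ℚ Qbar (x i))) ≤ B}.Finite := by
  have hfin : {a : ℚ | logHeight₁ a ≤ B}.Finite :=
    NumberField.finite_setOfPred_logHeight₁_le (K := ℚ) B
  refine (Set.Finite.pi fun _ : ι => hfin).subset ?_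
  rintro x ⟨h1, hB⟩ i -
  let φ : ℚ →ₐ[ℚ] (⊥ : IntermediateField ℚ Qbar) := Algebra.ofId ℚ _
  have : NumberField (⊥ : IntermediateField ℚ Qbar) := {}
  have hmem : ∀ i, algebraMap ℚ Qbar (x i) ∈ (⊥ : IntermediateField ℚ Qbar) :=
    fun i => IntermediateField.algebraMap_mem _ _
  rw [hgt_eq _ ⊥ hmem, IntermediateField.finrank_bot, Nat.cast_one, div_one] at hB
  have hl := logHeight_algebraMap (L' := (⊥ : IntermediateField ℚ Qbar)) x
  rw [IntermediateField.finrank_bot, Nat.cast_one, one_mul] at hl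
  have e : (fun i => algebraMap ℚ (⊥ : IntermediateField ℚ Qbar) (x i)) =
      fun i => (⟨algebraMap ℚ Qbar (x i), hmem i⟩ : (⊥ : IntermediateField ℚ Qbar)) := rfl
  rw [e] at hl
  rw [hl] at hB
  show logHeight₁ (x i) ≤ B
  rw [logHeight₁_eq_logHeight]
  refine le_trans ?_ hB
  have : ![x i, 1] = fun k : Fin 2 => x (![i, i₀] k) := by
    funext k; fin_cases k <;> simp [h1]
  rw [this]
  exact logHeight_comp_le _ x

end Fermat.Agent.MW

end
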