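import Mathlib

/-!
# Behaviour of the height of a tuple under an extension of number fields

The logarithmic height of a tuple is multiplied by the degree in a finite extension, which
makes the absolute height well defined.
-/

noncomputable section

open NumberField Height Finset

namespace Fermat.Agent.MW

variable {L : Type*} [Field L] [NumberField L] {ι : Type*} [Finite ι]

/-- The archimedean part of a height, as a product over all complex embeddings. -/
def embProd (L : Type*) [Field L] [NumberField L] (x : ι → L) : ℝ :=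
  ∏ φ : L →+* ℂ, ⨆ i, ‖φ (x i)‖

omit [Finite ι] in
theorem embProd_eq_prod_infinitePlace (x : ι → L) :
    embProd L x = ∏ v : InfinitePlace L, (⨆ i, v (x i)) ^ v.mult := by
  classical
  rw [embProd, ← Finset.prod_fiberwise Finset.univ InfinitePlace.mk
    (fun φ : L →+* ℂ => ⨆ i, ‖φ (x i)‖)]
  refine Finset.prod_congr rfl fun v _ => ?_
  have h : ∀ φ ∈ Finset.univ.filter (fun φ : L →+* ℂ => InfinitePlace.mk φ = v),
      (⨆ i, ‖φ (x i)‖) = ⨆ i, v (x i) := fun φ hφ => by
    rw [← (Finset.mem_filter.mp hφ).2]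
    exact iSup_congr fun i => (InfinitePlace.apply φ (x i)).symm
  rw [Finset.prod_congr rfl h, Finset.prod_const, InfinitePlace.card_filter_mk_eq]

theorem mulHeight_integral_mul (x : ι → 𝓞 L) (hx : x ≠ 0) :
    mulHeight (fun i => (x i : L)) * ((Ideal.span (Set.range x)).absNorm : ℝ) =
      embProd L (fun i => (x i : L)) := by
  have hx' : (fun i => (x i : L)) ≠ 0 := by
    obtain ⟨i, hi⟩ := Function.ne_iff.mp hx
    exact Function.ne_iff.mpr ⟨i, by simpa using hi⟩
  rw [NumberField.mulHeight_eq hx', ← embProd_eq_prod_infinitePlace, mul_assoc,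
    mul_comm (∏ᶠ v : FinitePlace L, _), NumberField.absNorm_mul_finprod_finitePlace_eq_one hx,
    mul_one]

variable {L' : Type*} [Field L'] [NumberField L'] [Algebra L L']

omit [Finite ι] in
theorem embProd_algebraMap (x : ι → L) :
    embProd L' (fun i => algebraMap L L' (x i)) = embProd L x ^ Module.finrank L L' := by
  classical
  rw [embProd, embProd, ← Finset.prod_pow,
    ← Finset.prod_fiberwise Finset.univ (fun ψ : L' →+* ℂ => ψ.comp (algebraMap L L'))
      (fun ψ : L' →+* ℂ => ⨆ i, ‖ψ (algebraMap L L' (x i))‖)]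
  refine Finset.prod_congr rfl fun φ _ => ?_
  have h : ∀ ψ ∈ Finset.univ.filter (fun ψ : L' →+* ℂ => ψ.comp (algebraMap L L') = φ),
      (⨆ i, ‖ψ (algebraMap L L' (x i))‖) = ⨆ i, ‖φ (x i)‖ := fun ψ hψ => by
    rw [← (Finset.mem_filter.mp hψ).2]
    rfl
  rw [Finset.prod_congr rfl h, Finset.prod_const]
  congr 1
  let : Algebra L ℂ := (φ : L →+* ℂ).toAlgebra
  rw [← AlgHom.card L L' ℂ]
  refine Finset.card_bij'
    (fun ψ hψ => ({ toRingHom := ψ, commutes' := fun r =>
      RingHom.congr_fun (Finset.mem_filter.mp hψ).2 r } : L' →ₐ[L] ℂ))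
    (fun ψ _ => ψ.toRingHom) (fun _ _ => Finset.mem_univ _)
    (fun ψ _ => Finset.mem_filter.mpr ⟨Finset.mem_univ _, RingHom.ext ψ.commutes⟩)
    (fun _ _ => rfl) (fun _ _ => rfl)

theorem mulHeight_algebraMap (x : ι → L) :
    mulHeight (fun i => algebraMap L L' (x i)) = mulHeight x ^ Module.finrank L L' := by
  rcases eq_or_ne x 0 with rfl | hx
  · simp [show (fun _ : ι => (0 : L')) = 0 from rfl, mulHeight_zero]
  obtain ⟨⟨b, hb⟩, hint⟩ :=
    IsLocalization.exist_integer_multiples_of_finite (nonZeroDivisors (𝓞 L)) x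
  have hb0 : (b : L) ≠ 0 := by simpa using nonZeroDivisors.ne_zero hb
  choose z hz using hint
  have hzx : (fun i => (z i : L)) = (b : L) • x := funext fun i => by
    simpa [Algebra.smul_def] using hz i
  have hz0 : z ≠ 0 := by
    rintro rfl
    refine smul_ne_zero hb0 hx ?_
    rw [← hzx]
    exact funext fun i => by simp
  set z' : ι → 𝓞 L' := fun i => algebraMap (𝓞 L) (𝓞 L') (z i) with hz'
  have hz'0 : z' ≠ 0 := by
    obtain ⟨i, hi⟩ := Function.ne_iff.mp hz0
    exact Function.ne_iff.mpr ⟨i,
      fun h => hi ((map_eq_zero_iff _ (RingOfIntegers.algebraMap.injective L L')).mp h)⟩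
  have hcast : ∀ i, (z' i : L') = algebraMap L L' (z i : L) := fun i => by
    rw [hz', ← IsScalarTower.algebraMap_apply (𝓞 L) L L',
      IsScalarTower.algebraMap_apply (𝓞 L) (𝓞 L') L']
  have h1 := mulHeight_integral_mul z' hz'0
  simp only [hcast] at h1
  rw [embProd_algebraMap, ← mulHeight_integral_mul z hz0, mul_pow] at h1
  have hspan : Ideal.span (Set.range z') =
      (Ideal.span (Set.range z)).map (algebraMap (𝓞 L) (𝓞 L')) := by
    rw [Ideal.map_span, ← Set.range_comp]; rfl
  have hfin : Module.finrank (𝓞 L) (𝓞 L') = Module.finrank L L' :=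
    (IsFractionRing.finrank_eq (𝓞 L) L (𝓞 L') L').symm
  rw [hspan, Ideal.absNorm_algebraMap, hfin, Nat.cast_pow] at h1
  have hn : ((Ideal.span (Set.range z)).absNorm : ℝ) ^ Module.finrank L L' ≠ 0 := by
    refine pow_ne_zero _ (Nat.cast_ne_zero.mpr ?_)
    rw [Ne, Ideal.absNorm_eq_zero_iff, Ideal.span_eq_bot]
    intro h
    exact hz0 (funext fun i => h _ (Set.mem_range_self i))
  have h2 := mul_right_cancel₀ hn h1
  have e1 : (fun i => algebraMap L L' (z i : L)) =
      algebraMap L L' (b : L) • (fun i => algebraMap L L' (x i)) := by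
    funext i
    simp [congrFun hzx i]
  rw [e1, hzx, mulHeight_smul_eq_mulHeight _ ((map_ne_zero _).mpr hb0),
    mulHeight_smul_eq_mulHeight _ hb0] at h2
  exact h2

/-- The logarithmic height is multiplied by the degree in an extension of number fields. -/
theorem logHeight_algebraMap (x : ι → L) :
    logHeight (fun i => algebraMap L L' (x i)) = Module.finrank L L' * logHeight x := by
  rw [logHeight_eq_log_mulHeight, logHeight_eq_log_mulHeight, mulHeight_algebraMap, Real.log_pow]

end Fermat.Agent.MW

end
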