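import Fermat.Agent.FF.Modular
import Fermat.Agent.MW.Level
import Fermat.Agent.Mono.PlaceData

/-!
# Points of the upper half plane as places of `X₀(N)_ℂ`

Away from the zeros of an auxiliary holomorphic function the functions of a level `L(n • O)` are
given by forms of one weight, and the order at the place of a point is the analytic order. This
brings complex analysis to the divisibility of the Jacobian.
-/

noncomputable section

open AlgebraicCurve Fermat.Agent.FF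
open UpperHalfPlane hiding I
open scoped MatrixGroups ModularForm Manifold Topology

namespace Fermat.Agent.MW

/-- A frame with a given base point. -/
def Frame.ofPlace {K F : Type*} [Field K] [Field F] [Algebra K F] [IsAlgClosed K]
    [IsFunctionField K F] (O : Place K F) : Frame K F :=
  ⟨O, fun _ => Module.finBasis K _⟩

theorem mul_ne_zero_fun {f g : ℍ → ℂ} (hf : MDiff f) (hg : MDiff g) (hf0 : f ≠ 0) (hg0 : g ≠ 0) :
    f * g ≠ 0 := fun h => ((UpperHalfPlane.mul_eq_zero_iff hf hg).mp h).elim hf0 hg0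

theorem prod_mdiff_ne_zero {ι : Type*} (s : Finset ι) {f : ι → ℍ → ℂ}
    (h : ∀ i ∈ s, MDiff (f i) ∧ f i ≠ 0) : MDiff (∏ i ∈ s, f i) ∧ ∏ i ∈ s, f i ≠ 0 := by
  induction s using Finset.cons_induction with
  | empty =>
    rw [Finset.prod_empty]
    exact ⟨mdifferentiable_const, one_ne_zero⟩
  | cons a t ha ih =>
    rw [Finset.prod_cons]
    obtain ⟨h1, h2⟩ := ih fun i hi => h i (Finset.mem_cons_of_mem hi)
    obtain ⟨h3, h4⟩ := h a (Finset.mem_cons_self a t)
    exact ⟨h3.mul h1, mul_ne_zero_fun h3 h1 h4 h2⟩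

/-- A shortcut: this instance is slow to find and needed many times below. -/
instance levelFieldAlgebraC (N : ℕ) : Algebra ℂ (Mono.FC N) :=
  inferInstance

variable (N : ℕ) [NeZero N]

/-- The place of a point. -/
def pt (τ : ℍ) : Place ℂ (Mono.FC N) := (Mono.exists_ptPlace (N := N) τ).choose

theorem pt_ord {τ : ℍ} (hτ : X0.ellOrder τ = 1) {x : (Mono.FC N)} {k : ℤ} {A B : ℍ → ℂ}
    (hr : Mono.IsRep N x k A B) (hx : x ≠ 0) {a b : ℕ} (ha : Mono.HasPtOrd A τ a)
    (hb : Mono.HasPtOrd B τ b) : (pt N τ).ord x = (a : ℤ) - b := by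
  obtain ⟨c, hc, h⟩ := (Mono.exists_ptPlace (N := N) τ).choose_spec
  have h1 : (c : ℤ) * (pt N τ).ord _ = ((X0.ellOrder τ : ℕ) : ℤ) - ((0 : ℕ) : ℤ) :=
    h _ _ _ _ _ _ (Mono.isRep_jC_sub (X0.jFun τ)) (X0.jC_sub_ne_zero _)
      (Mono.hasPtOrd_num_jC_sub τ) (Mono.hasPtOrd_deltaFn τ)
  rw [hτ] at h1
  have hc1 : c = 1 := by
    have : (c : ℤ) ∣ 1 := ⟨_, by simpa using h1.symm⟩
    exact_mod_cast Int.eq_one_of_dvd_one (by positivity) this
  have h2 : (c : ℤ) * (pt N τ).ord x = (a : ℤ) - b := h _ _ _ _ _ _ hr hx ha hb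
  rw [hc1] at h2
  simpa using h2

theorem ord_jC_sub_pt {τ : ℍ} (hτ : X0.ellOrder τ = 1) :
    (pt N τ).ord (X0.jC N - algebraMap ℂ (Mono.FC N) (X0.jFun τ)) = 1 := by
  rw [pt_ord N hτ (Mono.isRep_jC_sub _) (X0.jC_sub_ne_zero _) (Mono.hasPtOrd_num_jC_sub τ)
    (Mono.hasPtOrd_deltaFn τ), hτ]
  rfl

variable {N} (Φ : Frame ℂ (Mono.FC N)) (n : ℕ)

/-- Forms presenting a level. -/
structure LevelForms where
  /-- the weight -/
  k : ℤ
  /-- the numerators -/
  num : (Mono.FC N) →ₗ[ℂ] (ℍ → ℂ)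
  /-- the common denominator -/
  den : ℍ → ℂ
  isRep : ∀ f ∈ riemannRochSpace (Φ.DO n), Mono.IsRep N f k (num f) den

/-- Every level is presented by forms of one weight. -/
theorem exists_levelForms : Nonempty (LevelForms Φ n) := by
  classical
  choose k A B h using fun i => Mono.exists_isRep (N := N) (Φ.fn n i)
  set B0 : ℍ → ℂ := ∏ i, B i
  set k0 : ℤ := ∑ i, k i
  have hB0 : MF.IsFormFn (CongruenceSubgroup.Gamma0 N) k0 B0 :=
    MF.IsFormFn.prod Finset.univ fun i _ => (h i).den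
  have hA : ∀ i, MF.IsFormFn (CongruenceSubgroup.Gamma0 N) k0
      (A i * ∏ j ∈ Finset.univ.erase i, B j) := fun i =>
    ((h i).num.mul (MF.IsFormFn.prod _ fun j _ => (h j).den)).cast
      (Finset.add_sum_erase _ k (Finset.mem_univ i))
  set num : (Mono.FC N) →ₗ[ℂ] (ℍ → ℂ) :=
    (Fintype.linearCombination ℂ fun i => A i * ∏ j ∈ Finset.univ.erase i, B j) ∘ₗ Φ.co n
  have hnum : ∀ f, num f = ∑ i, Φ.co n f i • (A i * ∏ j ∈ Finset.univ.erase i, B j) := fun f => by
    simp [num, Fintype.linearCombination_apply]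
  refine ⟨⟨k0, num, B0, fun f hf => ⟨?_, hB0, ?_, ?_⟩⟩⟩
  · rw [hnum]
    exact MF.IsFormFn.sum _ fun i _ => (hA i).smul _
  · exact (prod_mdiff_ne_zero Finset.univ fun i _ => ⟨(h i).den.mdiff, (h i).den_ne⟩).2
  · rw [hnum, MF.lq_sum _ fun i _ => ((hA i).smul _).isQFn0]
    conv_lhs => rw [← Φ.sum_co n hf]
    rw [AddSubmonoidClass.coe_finsetSum, Finset.sum_mul]
    refine Finset.sum_congr rfl fun i _ => ?_
    rw [MF.lq_smul (hA i).isQFn0, MF.lq_mul (h i).num.isQFn0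
      (MF.IsFormFn.prod _ fun j _ => (h j).den).isQFn0, ← (h i).eq, mul_assoc,
      ← MF.lq_mul (h i).den.isQFn0 (MF.IsFormFn.prod _ fun j _ => (h j).den).isQFn0,
      Finset.mul_prod_erase _ B (Finset.mem_univ i)]
    rw [IntermediateField.coe_smul, Algebra.smul_def, ← MF.algebraMap_eq_C, mul_assoc]

variable {Φ n} (M : LevelForms Φ n)

/-- The function whose zeros are excluded. -/
def LevelForms.avoid : ℍ → ℂ := fun z => ModularForm.E₄ z * ModularForm.E₆ z * M.den z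

/-- The admissible points. -/
def LevelForms.Adm (τ : ℍ) : Prop := M.avoid τ ≠ 0

omit [NeZero N] in
theorem LevelForms.den_mdiff : MDiff M.den :=
  (M.isRep 0 (zero_mem _)).den.mdiff

omit [NeZero N] in
theorem LevelForms.avoid_mdiff : MDiff M.avoid :=
  (X0.mdiff_E₄.mul X0.mdiff_E₆).mul M.den_mdiff

omit [NeZero N] in
theorem LevelForms.avoid_ne_zero : M.avoid ≠ 0 := by
  refine mul_ne_zero_fun (f := fun z => ModularForm.E₄ z * ModularForm.E₆ z)
    (X0.mdiff_E₄.mul X0.mdiff_E₆) M.den_mdiff ?_ (M.isRep 0 (zero_mem _)).den_ne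
  refine mul_ne_zero_fun X0.mdiff_E₄ X0.mdiff_E₆ (fun h => ?_) (fun h => ?_)
  · obtain ⟨b, hb⟩ := X0.jFun_surjective 1
    have := X0.jFun_eq_zero_iff.mpr (congrFun h b)
    simp [hb] at this
  · obtain ⟨b, hb⟩ := X0.jFun_surjective 1
    have := X0.jFun_eq_1728_iff.mpr (congrFun h b)
    norm_num [hb] at this

variable {M} {τ : ℍ}

omit [NeZero N] in
theorem LevelForms.Adm.ellOrder (hτ : M.Adm τ) : X0.ellOrder τ = 1 := by
  simp only [LevelForms.Adm, LevelForms.avoid, mul_ne_zero_iff] at hτ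
  simp [X0.ellOrder, hτ.1.1, hτ.1.2]

omit [NeZero N] in
theorem LevelForms.Adm.den_ne (hτ : M.Adm τ) : M.den τ ≠ 0 := by
  simp only [LevelForms.Adm, LevelForms.avoid, mul_ne_zero_iff] at hτ
  exact hτ.2

/-- The numerator on the complex plane. -/
def LevelForms.numC (f : (Mono.FC N)) : ℂ → ℂ := M.num f ∘ ofComplex

omit [NeZero N] in
theorem LevelForms.analyticAt_numC {f : (Mono.FC N)} (hf : f ∈ riemannRochSpace (Φ.DO n)) {z : ℂ}
    (hz : 0 < z.im) : AnalyticAt ℂ (M.numC f) z :=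
  Mono.analyticAt_coe (M.isRep f hf).num.mdiff ⟨z, hz⟩

/-- At an admissible point the order at the place is the analytic order of the numerator. -/
theorem LevelForms.Adm.ord_eq (hτ : M.Adm τ) {f : (Mono.FC N)} (hf : f ∈ riemannRochSpace (Φ.DO n))
    (hf0 : f ≠ 0) :
    ∃ a : ℕ, analyticOrderAt (M.numC f) (τ : ℂ) = a ∧ (pt N τ).ord f = a := by
  have hr := M.isRep f hf
  obtain ⟨a, ha⟩ := Mono.exists_hasPtOrd hr.num.mdiff (hr.num_ne hf0) τ
  have hb : Mono.HasPtOrd M.den τ 0 := by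
    show analyticOrderAt _ _ = ((0 : ℕ) : ℕ∞)
    rw [Nat.cast_zero, (Mono.analyticAt_coe M.den_mdiff τ).analyticOrderAt_eq_zero]
    simpa using hτ.den_ne
  exact ⟨a, ha, by simpa using pt_ord N hτ.ellOrder hr hf0 ha hb⟩

theorem LevelForms.Adm.ord_pos (hτ : M.Adm τ) {f : (Mono.FC N)} (hf : f ∈ riemannRochSpace (Φ.DO n))
    (hf0 : f ≠ 0) (h0 : M.num f τ = 0) : 1 ≤ (pt N τ).ord f := by
  obtain ⟨a, ha, ho⟩ := hτ.ord_eq hf hf0
  have : a ≠ 0 := fun h => by
    rw [h, Nat.cast_zero,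
      (LevelForms.analyticAt_numC hf τ.im_pos).analyticOrderAt_eq_zero] at ha
    exact ha (by simpa [LevelForms.numC] using h0)
  omega

theorem LevelForms.Adm.num_eq_zero (hτ : M.Adm τ) {f : (Mono.FC N)}
    (hf : f ∈ riemannRochSpace (Φ.DO n))
    (h : f = 0 ∨ 1 ≤ (pt N τ).ord f) : M.num f τ = 0 := by
  rcases eq_or_ne f 0 with rfl | hf0
  · simp
  obtain ⟨a, ha, ho⟩ := hτ.ord_eq hf hf0
  by_contra h0
  rw [(LevelForms.analyticAt_numC hf τ.im_pos).analyticOrderAt_eq_zero.mpr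
    (by simpa [LevelForms.numC] using h0)] at ha
  have : a = 0 := by exact_mod_cast ha.symm
  have := h.resolve_left hf0
  omega

theorem LevelForms.Adm.le_ord_iff_jets (hτ : M.Adm τ) {f : (Mono.FC N)}
    (hf : f ∈ riemannRochSpace (Φ.DO n)) (hf0 : f ≠ 0) (m : ℕ) :
    (m : ℤ) ≤ (pt N τ).ord f ↔ ∀ i < m, iteratedDeriv i (M.numC f) (τ : ℂ) = 0 := by
  obtain ⟨a, ha, ho⟩ := hτ.ord_eq hf hf0
  rw [← natCast_le_analyticOrderAt_iff_iteratedDeriv_eq_zero
    (LevelForms.analyticAt_numC hf τ.im_pos), ha, ho, Nat.cast_le, Nat.cast_le]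

theorem LevelForms.Adm.jet_ne_zero (hτ : M.Adm τ) {f : (Mono.FC N)}
    (hf : f ∈ riemannRochSpace (Φ.DO n)) (hf0 : f ≠ 0) {m : ℕ} (h : (pt N τ).ord f = m) :
    iteratedDeriv m (M.numC f) (τ : ℂ) ≠ 0 := by
  obtain ⟨a, ha, ho⟩ := hτ.ord_eq hf hf0
  obtain rfl : a = m := by omega
  exact ((analyticOrderAt_eq_nat_iff_iteratedDeriv_eq_zero
    (LevelForms.analyticAt_numC hf τ.im_pos)).mp ha).2

/-- Admissible points give infinitely many places. -/
theorem LevelForms.infinite_pt (M : LevelForms Φ n) : {v | ∃ τ, M.Adm τ ∧ pt N τ = v}.Infinite := by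
  classical
  intro hfin
  set G : ℍ → ℂ := M.avoid * ∏ v ∈ hfin.toFinset, fun z => X0.jFun z - valAt v (X0.jC N)
  have hG : G ≠ 0 := by
    have h := prod_mdiff_ne_zero hfin.toFinset
      (f := fun v z => X0.jFun z - valAt v (X0.jC N)) fun v _ => ⟨X0.mdiff_jFun.sub
        mdifferentiable_const, fun h0 => ?_⟩
    · exact mul_ne_zero_fun M.avoid_mdiff h.1 M.avoid_ne_zero h.2
    · obtain ⟨b, hb⟩ := X0.jFun_surjective (valAt v (X0.jC N) + 1)
      have := congrFun h0 b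
      simp [hb] at this
  obtain ⟨τ, hτ⟩ := Function.ne_iff.mp hG
  simp only [G, Pi.mul_apply, Pi.zero_apply, mul_ne_zero_iff, Finset.prod_apply,
    Finset.prod_ne_zero_iff] at hτ
  have hmem : pt N τ ∈ hfin.toFinset := hfin.mem_toFinset.mpr ⟨τ, hτ.1, rfl⟩
  refine hτ.2 _ hmem ?_
  set v := pt N τ
  set d := X0.jC N - algebraMap ℂ (Mono.FC N) (X0.jFun τ) with hd
  have ho : v.ord d = 1 := ord_jC_sub_pt N (LevelForms.Adm.ellOrder hτ.1)
  have hm : d ∈ v.toValuationSubring := (mem_iff_ord_nonneg v).mpr (by omega)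
  have h1 := valAt_add v hm (v.algebraMap_mem' (X0.jFun τ))
  rw [sub_add_cancel, (valAt_eq_zero_iff v hm).mpr (Or.inr (by omega)), valAt_algebraMap,
    zero_add] at h1
  rw [h1, sub_self]

end Fermat.Agent.MW

end
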