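import Fermat.Agent.MW.NonSpecial
import Fermat.Agent.MW.PointPlace

/-!
# Nearby points differ by `m` times a class

The implicit function theorem applied to functions with prescribed multiple zeros: near an
admissible point every point differs from it by `m` times a class. Used to prove that `J₀(N)(ℂ)` is
divisible.
-/

noncomputable section

open AlgebraicCurve Fermat.Agent.FF
open UpperHalfPlane hiding I
open scoped MatrixGroups ModularForm Manifold Topology

namespace Fermat.Agent.MW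

section InMul

variable {K F : Type*} [Field K] [Field F] [Algebra K F] [IsAlgClosed K] [IsFunctionField K F]

/-- The class of `D` is `m` times a class of degree zero. -/
def InMul (m : ℕ) (D : Divisor K F) : Prop :=
  ∃ E : Divisor K F, Divisor.degree E = 0 ∧ LinEq D (m • E)

variable {m : ℕ}

theorem InMul.zero : InMul m (0 : Divisor K F) :=
  ⟨0, map_zero _, by rw [smul_zero]; exact LinEq.refl _⟩

theorem InMul.congr {D D' : Divisor K F} (h : InMul m D) (h' : LinEq D' D) : InMul m D' :=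
  let ⟨E, hE, he⟩ := h
  ⟨E, hE, h'.trans he⟩

theorem InMul.add {D D' : Divisor K F} (h : InMul m D) (h' : InMul m D') : InMul m (D + D') := by
  obtain ⟨E, hE, he⟩ := h
  obtain ⟨E', hE', he'⟩ := h'
  refine ⟨E + E', by rw [map_add, hE, hE', add_zero], ?_⟩
  rw [smul_add]
  exact he.add he'

theorem InMul.neg {D : Divisor K F} (h : InMul m D) : InMul m (-D) := by
  obtain ⟨E, hE, he⟩ := h
  refine ⟨-E, by rw [map_neg, hE, neg_zero], ?_⟩
  rw [smul_neg]
  exact he.neg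

theorem InMul.sub {D D' : Divisor K F} (h : InMul m D) (h' : InMul m D') : InMul m (D - D') :=
  sub_eq_add_neg D D' ▸ h.add h'.neg

theorem InMul.exists_nsmul {D : Divisor.degZero (K := K) (F := F)}
    (h : InMul m (D : Divisor K F)) : ∃ y : Pic0 K F, m • y = Pic0.mk D := by
  obtain ⟨E, hE, he⟩ := h
  have hm := linEq_iff_mem_principal.mp he
  refine ⟨Pic0.mk ⟨E, Divisor.mem_degZero.mpr hE⟩, ?_⟩
  rw [Pic0.mk, Pic0.mk, ← QuotientAddGroup.mk_nsmul, QuotientAddGroup.eq,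
    AddSubgroup.mem_addSubgroupOf, AddSubgroup.coe_add, AddSubgroup.coe_neg,
    AddSubgroup.coe_nsmul]
  rwa [neg_add_eq_sub]

/-- If `(f) + D = A + B` with `A` effective, then `f ∈ L(D - B)`. -/
theorem mem_rrSpace_sub_msDiv {D A : Divisor K F} {B : Multiset (Place K F)} {f : F} (hf : f ≠ 0)
    (hA : 0 ≤ A) (h : D + divOf f = A + msDiv B) : f ∈ riemannRochSpace (D - msDiv B) := by
  rw [mem_rrSpace_of_ord hf]
  intro v
  have h1 := DFunLike.congr_fun h v
  have h2 := hA v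
  simp only [Finsupp.add_apply, divOf_apply, Finsupp.coe_zero, Pi.zero_apply] at h1 h2
  rw [Finsupp.sub_apply]
  omega

end InMul

/-- Strict derivative of a function affine in some variables. -/
theorem hasStrictFDerivAt_affine {X : Type*} [NormedAddCommGroup X] [NormedSpace ℂ X]
    {S : Type*} [Fintype S] (π : X →L[ℂ] ℂ) (α : S → X →L[ℂ] ℂ) {x₀ : X} {z₀ : ℂ}
    (hz : π x₀ = z₀) (hα : ∀ s, α s x₀ = 0) {ψ₀ : ℂ → ℂ} {ψ : S → ℂ → ℂ}
    (h0 : AnalyticAt ℂ ψ₀ z₀) (h : ∀ s, AnalyticAt ℂ (ψ s) z₀) :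
    HasStrictFDerivAt (fun x => ψ₀ (π x) + ∑ s, α s x * ψ s (π x))
      (deriv ψ₀ z₀ • π + ∑ s, ψ s z₀ • α s) x₀ := by
  subst hz
  refine (h0.hasStrictDerivAt.comp_hasStrictFDerivAt x₀ π.hasStrictFDerivAt).fun_add
    (HasStrictFDerivAt.fun_sum fun s _ => ?_)
  have := (α s).hasStrictFDerivAt.mul
    ((h s).hasStrictDerivAt.comp_hasStrictFDerivAt x₀ π.hasStrictFDerivAt)
  refine this.congr_fderiv ?_
  ext v
  simp [hα s]

/-- Linearity of the iterated derivative on analytic functions. -/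
theorem iteratedDeriv_affine {S : Type*} [Fintype S] {ψ₀ : ℂ → ℂ} {ψ : S → ℂ → ℂ} (a : S → ℂ)
    {z : ℂ} (h0 : AnalyticAt ℂ ψ₀ z) (h : ∀ s, AnalyticAt ℂ (ψ s) z) (k : ℕ) :
    iteratedDeriv k (fun w => ψ₀ w + ∑ s, a s * ψ s w) z =
      iteratedDeriv k ψ₀ z + ∑ s, a s * iteratedDeriv k (ψ s) z := by
  classical
  suffices ∀ t : Finset S, iteratedDeriv k (fun w => ψ₀ w + ∑ s ∈ t, a s * ψ s w) z =
      iteratedDeriv k ψ₀ z + ∑ s ∈ t, a s * iteratedDeriv k (ψ s) z from this Finset.univ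
  intro t
  induction t using Finset.induction_on with
  | empty => simp
  | insert s t hs ih =>
    have e : (fun w => ψ₀ w + ∑ x ∈ insert s t, a x * ψ x w) =
        (fun w => a s * ψ s w) + fun w => ψ₀ w + ∑ x ∈ t, a x * ψ x w := by
      funext w
      rw [Pi.add_apply, Finset.sum_insert hs]
      ring
    have ha : AnalyticAt ℂ (fun w => ψ₀ w + ∑ x ∈ t, a x * ψ x w) z :=
      h0.add (t.analyticAt_fun_sum fun x _ => analyticAt_const.mul (h x))
    have hs' : AnalyticAt ℂ (fun w => a s * ψ s w) z := analyticAt_const.mul (h s)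
    rw [e, iteratedDeriv_add hs'.contDiffAt ha.contDiffAt, ih,
      iteratedDeriv_const_mul_field, Finset.sum_insert hs]
    ring

theorem analyticAt_iteratedDeriv {f : ℂ → ℂ} {z : ℂ} (h : AnalyticAt ℂ f z) (k : ℕ) :
    AnalyticAt ℂ (iteratedDeriv k f) z := by
  rw [iteratedDeriv_eq_iterate]
  exact h.iterated_deriv k

/-- Parameters `(a, q, z)`: coefficients of a linear combination, positions of the multiple zeros
and position of a simple zero. -/
abbrev ZeroParams (ι : Type*) (e : ℕ) := ((ι × Fin e) ⊕ Unit → ℂ) × (ι → ℂ) × ℂ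

/-- Prescribing zeros of order `e + 1`: the affine family has solutions for all nearby values. -/
theorem eventually_exists_zeros {ι : Type*} [Fintype ι] [DecidableEq ι] {e : ℕ} {ψ₀ : ℂ → ℂ}
    {ψ : (ι × Fin e) ⊕ Unit → ℂ → ℂ} {p₀ : ι → ℂ} {r₀ : ℂ}
    (hp : ∀ i, AnalyticAt ℂ ψ₀ (p₀ i)) (hr : AnalyticAt ℂ ψ₀ r₀)
    (hps : ∀ s i, AnalyticAt ℂ (ψ s) (p₀ i)) (hrs : ∀ s, AnalyticAt ℂ (ψ s) r₀)
    (h0 : ∀ i, ∀ j < e + 1, iteratedDeriv j ψ₀ (p₀ i) = 0)
    (h2 : ∀ i, iteratedDeriv (e + 1) ψ₀ (p₀ i) ≠ 0) (hr0 : ψ₀ r₀ = 0)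
    (hval : ∀ i (j : Fin e) s, iteratedDeriv j (ψ s) (p₀ i) =
      (Pi.single s 1 : (ι × Fin e) ⊕ Unit → ℂ) (Sum.inl (i, j)))
    (hval₀ : ∀ s, ψ s r₀ = (Pi.single s 1 : (ι × Fin e) ⊕ Unit → ℂ) (Sum.inr ()))
    {W : ZeroParams ι e → Prop} (hW : ∀ᶠ x in 𝓝 ((0, p₀, r₀) : ZeroParams ι e), W x) :
    ∀ᶠ z in 𝓝 r₀, ∃ (a : (ι × Fin e) ⊕ Unit → ℂ) (q : ι → ℂ), W (a, q, z) ∧
      (∀ i, ∀ j < e + 1,
        iteratedDeriv j ψ₀ (q i) + ∑ s, a s * iteratedDeriv j (ψ s) (q i) = 0) ∧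
      (ψ₀ z + ∑ s, a s * ψ s z = 0) := by
  let πP : ι → (ZeroParams ι e →L[ℂ] ℂ) := fun i => (ContinuousLinearMap.proj i).comp
    ((ContinuousLinearMap.fst ℂ (ι → ℂ) ℂ).comp
      (ContinuousLinearMap.snd ℂ ((ι × Fin e) ⊕ Unit → ℂ) _))
  let πR : ZeroParams ι e →L[ℂ] ℂ := (ContinuousLinearMap.snd ℂ (ι → ℂ) ℂ).comp
    (ContinuousLinearMap.snd ℂ ((ι × Fin e) ⊕ Unit → ℂ) _)
  let α : (ι × Fin e) ⊕ Unit → (ZeroParams ι e →L[ℂ] ℂ) := fun s =>
    (ContinuousLinearMap.proj s).comp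
      (ContinuousLinearMap.fst ℂ ((ι × Fin e) ⊕ Unit → ℂ) ((ι → ℂ) × ℂ))
  let J : ℕ → ι → ZeroParams ι e → ℂ := fun j i x =>
    iteratedDeriv j ψ₀ (πP i x) + ∑ s, α s x * iteratedDeriv j (ψ s) (πP i x)
  let Ψ : ZeroParams ι e → (ι × Fin e → ℂ) × ℂ × (ι → ℂ) × ℂ := fun x =>
    (fun ij => J ij.2 ij.1 x, ψ₀ (πR x) + ∑ s, α s x * ψ s (πR x), fun i => J e i x, πR x)
  set x₀ : ZeroParams ι e := (0, p₀, r₀)
  have hJ : ∀ j i, HasStrictFDerivAt (J j i)
      (deriv (iteratedDeriv j ψ₀) (p₀ i) • πP i + ∑ s, iteratedDeriv j (ψ s) (p₀ i) • α s) x₀ :=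
    fun j i => hasStrictFDerivAt_affine (πP i) α (x₀ := x₀) (rfl : πP i x₀ = p₀ i) (fun s => rfl)
      (analyticAt_iteratedDeriv (hp i) j) fun s => analyticAt_iteratedDeriv (hps s i) j
  have hd := (hasStrictFDerivAt_pi.mpr fun ij : ι × Fin e => hJ ij.2 ij.1).prodMk
    ((hasStrictFDerivAt_affine πR α (x₀ := x₀) (rfl : πR x₀ = r₀) (fun s => rfl) hr
      fun s => hrs s).prodMk
    ((hasStrictFDerivAt_pi.mpr fun i => hJ e i).prodMk πR.hasStrictFDerivAt))
  have hd1 : ∀ i, ∀ j : Fin e, deriv (iteratedDeriv j ψ₀) (p₀ i) = 0 := fun i j => by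
    rw [← iteratedDeriv_succ]; exact h0 i _ (by omega)
  have hd2 : ∀ i, deriv (iteratedDeriv e ψ₀) (p₀ i) ≠ 0 := fun i => by
    rw [← iteratedDeriv_succ]; exact h2 i
  have hopen := hd.map_nhds_eq_of_surj (LinearMap.range_eq_top.mpr fun y => by
    obtain ⟨u, b, w, c⟩ := y
    set a : (ι × Fin e) ⊕ Unit → ℂ := Sum.elim u fun _ => b - deriv ψ₀ r₀ * c
    refine ⟨(a, fun i => (w i - ∑ s, iteratedDeriv e (ψ s) (p₀ i) * a s) /
      deriv (iteratedDeriv e ψ₀) (p₀ i), c), ?_⟩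
    refine Prod.ext (funext fun ij => ?_) (Prod.ext ?_ (Prod.ext (funext fun i => ?_) ?_))
    · simp [x₀, πP, α, hval, hd1, a, Pi.single_apply, -ite_smul]
    · simp [x₀, πR, α, hval₀, a, Pi.single_apply]
    · simp [x₀, πP, α]
      field_simp [hd2 i]
      ring
    · simp [x₀, πR])
  have hΨ₀ : Ψ x₀ = (0, 0, 0, r₀) := by
    refine Prod.ext (funext fun ij => ?_) (Prod.ext ?_ (Prod.ext (funext fun i => ?_) ?_))
    · simp [Ψ, J, x₀, πP, α, h0 ij.1 ij.2 (by omega)]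
    · simp [Ψ, x₀, πR, α, hr0]
    · simp [Ψ, J, x₀, πP, α, h0 i e (by omega)]
    · simp [Ψ, x₀, πR]
  have himg : Ψ '' {x | W x} ∈ 𝓝 (Ψ x₀) := hopen ▸ Filter.image_mem_map hW
  rw [hΨ₀] at himg
  have hc : Continuous fun z : ℂ => ((0 : ι × Fin e → ℂ), (0 : ℂ), (0 : ι → ℂ), z) := by fun_prop
  filter_upwards [hc.continuousAt himg] with z hz
  obtain ⟨⟨a, q, r⟩, hWx, hx⟩ := hz
  simp only [Ψ, J, Prod.mk.injEq] at hx
  obtain ⟨e1, e2, e3, e4⟩ := hx
  obtain rfl : r = z := e4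
  refine ⟨a, q, hWx, fun i j hj => ?_, e2⟩
  rcases (Nat.lt_succ_iff_lt_or_eq.mp hj) with hj' | rfl
  · exact congrFun e1 (i, ⟨j, hj'⟩)
  · exact congrFun e3 i

variable {N : ℕ} [NeZero N] {Φ : Frame ℂ (Mono.FC N)} {n : ℕ} {M : LevelForms Φ n}

theorem LevelForms.Adm.ne_O {τ : ℍ} (hτ : M.Adm τ) (hO : Φ.O.ord (X0.jC N) < 0) :
    pt N τ ≠ Φ.O := by
  intro h
  have h1 := ord_jC_sub_pt N hτ.ellOrder
  rw [h] at h1
  have h2 : Φ.O.ord (X0.jC N - algebraMap ℂ (Mono.FC N) (X0.jFun τ)) = Φ.O.ord (X0.jC N) := by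
    rw [sub_eq_add_neg, ord_add_eq_of_lt Φ.O (fun h => by simp [h] at hO)]
    rcases eq_or_ne (X0.jFun τ) 0 with ha | ha
    · exact Or.inl (by simp [ha])
    · refine Or.inr ?_
      rw [ord_neg, ord_algebraMap]; exact hO
  omega

theorem LevelForms.Adm.DO_eq_zero {τ : ℍ} (hτ : M.Adm τ) (hO : Φ.O.ord (X0.jC N) < 0) (k : ℕ) :
    Φ.DO k (pt N τ) = 0 :=
  Finsupp.single_eq_of_ne (hτ.ne_O hO)

/-- At equal places all minors of values vanish. -/
theorem LevelForms.Adm.minor_eq {τ τ' : ℍ} (hτ : M.Adm τ) (hτ' : M.Adm τ')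
    (h : pt N τ = pt N τ') {x y : Mono.FC N} (hx : x ∈ riemannRochSpace (Φ.DO n))
    (hy : y ∈ riemannRochSpace (Φ.DO n)) :
    M.num x τ * M.num y τ' = M.num y τ * M.num x τ' := by
  set z := M.num y τ • x - M.num x τ • y
  have hz : z ∈ riemannRochSpace (Φ.DO n) :=
    sub_mem (Submodule.smul_mem _ _ hx) (Submodule.smul_mem _ _ hy)
  have h0 : M.num z τ = 0 := by simp [z, map_sub, mul_comm]
  have h1 : M.num z τ' = 0 := hτ'.num_eq_zero hz <| by
    rcases eq_or_ne z 0 with hz0 | hz0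
    · exact Or.inl hz0
    · exact Or.inr (h ▸ hτ.ord_pos hz hz0 h0)
  simp [z, map_sub, sub_eq_zero] at h1
  linear_combination -h1

/-- Distinct places are separated by a minor of values. -/
theorem exists_minor_ne {τ τ' : ℍ} (hτ : M.Adm τ) (hτ' : M.Adm τ')
    (hO : Φ.O.ord (X0.jC N) < 0) (hn : 2 * gen ℂ (Mono.FC N) + 1 ≤ n) (h : pt N τ ≠ pt N τ') :
    ∃ x ∈ riemannRochSpace (Φ.DO n), ∃ y ∈ riemannRochSpace (Φ.DO n),
      M.num x τ * M.num y τ' ≠ M.num y τ * M.num x τ' := by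
  obtain ⟨x, hx, hxe⟩ := exists_ev_ne_zero (pt N τ') (D := Φ.DO n - Finsupp.single (pt N τ) 1)
    (by rw [map_sub, Φ.degree_DO, degree_single_one]; omega)
  obtain ⟨y, hy, hye⟩ := exists_ev_ne_zero (pt N τ) (D := Φ.DO n) (by rw [Φ.degree_DO]; omega)
  obtain ⟨hx1, hx2⟩ := (mem_rrSpace_sub_single (pt N τ)).mp hx
  refine ⟨x, hx1, y, hy, ?_⟩
  have hx0 : x ≠ 0 := fun h0 => hxe (by rw [h0, ev_zero])
  have hy0 : y ≠ 0 := fun h0 => hye (by rw [h0, ev_zero])
  have e1 : M.num x τ = 0 := by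
    refine hτ.num_eq_zero hx1 (Or.inr ?_)
    have := (mem_rrSpace_of_ord hx0).mp hx (pt N τ)
    rw [Finsupp.sub_apply, Finsupp.single_eq_same, hτ.DO_eq_zero hO] at this
    omega
  have e2 : M.num x τ' ≠ 0 := fun h0 => by
    have h1 := hτ'.ord_pos hx1 hx0 h0
    have h2 := (ev_ne_zero_iff _ (hx (pt N τ')) hx0).mp hxe
    rw [Finsupp.sub_apply, Finsupp.single_eq_of_ne (Ne.symm h), hτ'.DO_eq_zero hO] at h2
    omega
  have e3 : M.num y τ ≠ 0 := fun h0 => by
    have h1 := hτ.ord_pos hy hy0 h0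
    have h2 := (ev_ne_zero_iff _ (hy (pt N τ)) hy0).mp hye
    rw [hτ.DO_eq_zero hO] at h2
    omega
  rw [e1, zero_mul]
  exact (mul_ne_zero e3 e2).symm

/-- A function vanishing at `v` but not at an admissible point over another place. -/
theorem exists_separating {τ : ℍ} {v : Place ℂ (Mono.FC N)} (hτ : M.Adm τ)
    (hO : Φ.O.ord (X0.jC N) < 0) (hn : 2 * gen ℂ (Mono.FC N) + 1 ≤ n) (h : pt N τ ≠ v) :
    ∃ x ∈ riemannRochSpace (Φ.DO n - Finsupp.single v 1), M.num x τ ≠ 0 := by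
  obtain ⟨x, hx, hxe⟩ := exists_ev_ne_zero (pt N τ) (D := Φ.DO n - Finsupp.single v 1)
    (by rw [map_sub, Φ.degree_DO, degree_single_one]; omega)
  refine ⟨x, hx, fun h0 => ?_⟩
  have hx0 : x ≠ 0 := fun h0 => hxe (by rw [h0, ev_zero])
  have h1 := hτ.ord_pos ((mem_rrSpace_sub_single v).mp hx).1 hx0 h0
  have h2 := (ev_ne_zero_iff _ (hx (pt N τ)) hx0).mp hxe
  rw [Finsupp.sub_apply, Finsupp.single_eq_of_ne h, hτ.DO_eq_zero hO] at h2
  omega

/-- Conversely, such a function shows that the places differ. -/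
theorem pt_ne_of_separating {τ : ℍ} {v : Place ℂ (Mono.FC N)} (hτ : M.Adm τ)
    (hO : Φ.O.ord (X0.jC N) < 0) {x : Mono.FC N}
    (hx : x ∈ riemannRochSpace (Φ.DO n - Finsupp.single v 1)) (h0 : M.num x τ ≠ 0) :
    pt N τ ≠ v := by
  rintro rfl
  refine h0 (hτ.num_eq_zero ((mem_rrSpace_sub_single _).mp hx).1 ?_)
  rcases eq_or_ne x 0 with h | h
  · exact Or.inl h
  · refine Or.inr ?_
    have := (mem_rrSpace_of_ord h).mp hx (pt N τ)
    rw [Finsupp.sub_apply, Finsupp.single_eq_same, hτ.DO_eq_zero hO] at this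
    omega

omit [NeZero N] in
theorem LevelForms.eventually_adm (M : LevelForms Φ n) {z₀ : ℂ} (hz : 0 < z₀.im)
    (h : M.Adm (ofComplex z₀)) : ∀ᶠ z in 𝓝 z₀, 0 < z.im ∧ M.Adm (ofComplex z) := by
  have hc : ContinuousAt (M.avoid ∘ ofComplex) z₀ :=
    (Mono.analyticAt_coe M.avoid_mdiff ⟨z₀, hz⟩).continuousAt
  exact ((isOpen_lt continuous_const Complex.continuous_im).eventually_mem hz).and
    (hc.eventually_ne h)

/-- Distinct admissible points have distinct places for all nearby points. -/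
theorem eventually_pt_ne {τ τ' : ℍ} (hτ : M.Adm τ) (hτ' : M.Adm τ')
    (hO : Φ.O.ord (X0.jC N) < 0) (hn : 2 * gen ℂ (Mono.FC N) + 1 ≤ n) (h : pt N τ ≠ pt N τ') :
    ∀ᶠ z in 𝓝 ((τ : ℂ), (τ' : ℂ)), pt N (ofComplex z.1) ≠ pt N (ofComplex z.2) := by
  obtain ⟨x, hx, y, hy, hxy⟩ := exists_minor_ne hτ hτ' hO hn h
  have hl : ∀ {u : Mono.FC N}, u ∈ riemannRochSpace (Φ.DO n) →
      ContinuousAt (fun z : ℂ × ℂ => M.numC u z.1) ((τ : ℂ), (τ' : ℂ)) := fun hu =>
    (LevelForms.analyticAt_numC hu τ.im_pos).continuousAt.comp_of_eq continuousAt_fst rfl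
  have hr : ∀ {u : Mono.FC N}, u ∈ riemannRochSpace (Φ.DO n) →
      ContinuousAt (fun z : ℂ × ℂ => M.numC u z.2) ((τ : ℂ), (τ' : ℂ)) := fun hu =>
    (LevelForms.analyticAt_numC hu τ'.im_pos).continuousAt.comp_of_eq continuousAt_snd rfl
  have h1 := ((hl hx).mul (hr hy)).sub ((hl hy).mul (hr hx))
  filter_upwards [h1.eventually_ne (y := 0) (by simpa [LevelForms.numC, sub_eq_zero] using hxy),
    continuousAt_fst.eventually (M.eventually_adm τ.im_pos (by rwa [ofComplex_apply])),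
    continuousAt_snd.eventually (M.eventually_adm τ'.im_pos (by rwa [ofComplex_apply]))]
    with z hz hz1 hz2 e
  exact hz (sub_eq_zero.mpr (hz1.2.minor_eq hz2.2 e hx hy))

/-- An admissible point outside a finite set of places keeps outside it for nearby points. -/
theorem eventually_pt_notMem {τ : ℍ} (hτ : M.Adm τ) (hO : Φ.O.ord (X0.jC N) < 0)
    (hn : 2 * gen ℂ (Mono.FC N) + 1 ≤ n) {B : Multiset (Place ℂ (Mono.FC N))}
    (h : pt N τ ∉ B) : ∀ᶠ z in 𝓝 (τ : ℂ), pt N (ofComplex z) ∉ B := by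
  classical
  suffices ∀ v ∈ B.toFinset, ∀ᶠ z in 𝓝 (τ : ℂ), pt N (ofComplex z) ≠ v from
    ((Finset.eventually_all B.toFinset).mpr this).mono fun z hz hm =>
      hz _ (Multiset.mem_toFinset.mpr hm) rfl
  intro v hv
  obtain ⟨x, hx, hxτ⟩ := exists_separating hτ hO hn
    (fun e : pt N τ = v => h (e ▸ Multiset.mem_toFinset.mp hv))
  have hx' := ((mem_rrSpace_sub_single _).mp hx).1
  filter_upwards [(LevelForms.analyticAt_numC hx' τ.im_pos).continuousAt.eventually_ne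
    (by simpa [LevelForms.numC] using hxτ),
    M.eventually_adm τ.im_pos (by rwa [ofComplex_apply])] with z hz hz1
  exact pt_ne_of_separating hz1.2 hO hx hz

/-- If `f₀` has zeros of order `e + 1` at the points of `P` and a simple one at `τ₀`, and `f` of
the same linear system has such zeros at the `q i` and at `r`, then the classes of `r` and `τ₀`
differ by `e + 1` times a class. -/
theorem inMul_of_zeros {ι : Type*} [Fintype ι] {e : ℕ} (hO : Φ.O.ord (X0.jC N) < 0)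
    (hι : Fintype.card ι = gen ℂ (Mono.FC N)) {P B : Multiset (Place ℂ (Mono.FC N))}
    (hPc : P.card = gen ℂ (Mono.FC N)) {τ₀ : ℍ} {f₀ f : Mono.FC N} (hf₀ : f₀ ≠ 0)
    (hdiv : Φ.DO n + divOf f₀ = (e + 1) • msDiv P + Finsupp.single (pt N τ₀) 1 + msDiv B)
    (hf : f ≠ 0) (hfE : f ∈ riemannRochSpace (Φ.DO n - msDiv B)) {q : ι → ℍ} {r : ℍ}
    (hq : ∀ i, M.Adm (q i)) (hr : M.Adm r)
    (hfd : ∀ i, ∀ j < e + 1, iteratedDeriv j (M.numC f) (q i : ℂ) = 0)
    (hfr : M.num f r = 0) (hinj : Function.Injective fun i => pt N (q i))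
    (hqr : ∀ i, pt N (q i) ≠ pt N r) (hqB : ∀ i, pt N (q i) ∉ B) (hrB : pt N r ∉ B) :
    InMul (e + 1) (Finsupp.single (pt N r) 1 - Finsupp.single (pt N τ₀) 1) := by
  classical
  have hfn := rrSpace_sub_msDiv_le_self B hfE
  set Q : Divisor ℂ (Mono.FC N) := ∑ i, Finsupp.single (pt N (q i)) 1
  have hQv : ∀ i, Q (pt N (q i)) = 1 := fun i => by
    simp only [Q, Finsupp.finsetSum_apply]
    rw [Finset.sum_eq_single i (fun j _ hj => Finsupp.single_eq_of_ne (hinj.ne hj).symm)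
      (fun h => absurd (Finset.mem_univ i) h), Finsupp.single_eq_same]
  have hQ0 : ∀ v, (∀ i, pt N (q i) ≠ v) → Q v = 0 := fun v hv => by
    simp only [Q, Finsupp.finsetSum_apply]
    exact Finset.sum_eq_zero fun i _ => Finsupp.single_eq_of_ne (hv i).symm
  have hQd : Divisor.degree Q = gen ℂ (Mono.FC N) := by
    simp only [Q, map_sum, degree_single_one, Finset.sum_const, Finset.card_univ, hι]
    simp
  have hle : (e + 1) • Q + Finsupp.single (pt N r) 1 + msDiv B ≤ Φ.DO n + divOf f := fun v => by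
    simp only [Finsupp.add_apply, Finsupp.smul_apply, nsmul_eq_mul, divOf_apply]
    have hb := (mem_rrSpace_of_ord hf).mp hfE v
    rw [Finsupp.sub_apply] at hb
    by_cases hv : ∃ i, pt N (q i) = v
    · obtain ⟨i, rfl⟩ := hv
      have := ((hq i).le_ord_iff_jets hfn hf (e + 1)).mpr (hfd i)
      rw [hQv, mul_one, Finsupp.single_eq_of_ne (hqr i), msDiv_apply_eq_zero.mpr (hqB i),
        (hq i).DO_eq_zero hO]
      omega
    · push Not at hv
      rw [hQ0 v hv, mul_zero]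
      rcases eq_or_ne v (pt N r) with rfl | hvr
      · have := hr.ord_pos hfn hf hfr
        rw [Finsupp.single_eq_same, msDiv_apply_eq_zero.mpr hrB, hr.DO_eq_zero hO]
        omega
      · rw [Finsupp.single_eq_of_ne hvr]
        omega
  have heq := eq_of_le_of_degree_le hle (by
    have h5 := congrArg Divisor.degree hdiv
    simp only [map_add, map_nsmul, degree_divOf, degree_msDiv, degree_single_one, hQd,
      Φ.degree_DO, hPc] at h5 ⊢
    omega)
  refine ⟨msDiv P - Q, by rw [map_sub, degree_msDiv, hQd, hPc, sub_self], ?_⟩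
  refine ⟨f / f₀, div_ne_zero hf hf₀, ?_⟩
  rw [div_eq_mul_inv, divOf_mul hf (inv_ne_zero hf₀), divOf_inv]
  rw [smul_sub]
  linear_combination (norm := abel) heq - hdiv.symm

/-- Values and jets of order `< e` at the points of `P` and the value at `τ₀` can be prescribed
in `L(E)` when the conditions are independent. -/
theorem exists_prescribed {ι : Type*} [Fintype ι] [DecidableEq ι] {e : ℕ} {p : ι → ℍ}
    (hp : ∀ i, M.Adm (p i)) {τ₀ : ℍ} (hτ₀ : M.Adm τ₀) {E : Divisor ℂ (Mono.FC N)}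
    (hEn : riemannRochSpace E ≤ riemannRochSpace (Φ.DO n))
    {P : Multiset (Place ℂ (Mono.FC N))} (hPn : P.Nodup)
    (hP : ∀ v ∈ P, ∃ i, pt N (p i) = v) (hτP : pt N τ₀ ∉ P)
    (hEz : ∀ v, v ∈ P ∨ v = pt N τ₀ → E v = 0) (hdim : ell E = e * Fintype.card ι + 2)
    (hker : ell (E - e • msDiv P - Finsupp.single (pt N τ₀) 1) ≤ 1)
    (s : (ι × Fin e) ⊕ Unit) :
    ∃ x ∈ riemannRochSpace E,
      (∀ i (j : Fin e), iteratedDeriv j (M.numC x) (p i : ℂ) =
        (Pi.single s 1 : (ι × Fin e) ⊕ Unit → ℂ) (Sum.inl (i, j))) ∧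
      M.numC x (τ₀ : ℂ) = (Pi.single s 1 : (ι × Fin e) ⊕ Unit → ℂ) (Sum.inr ()) := by
  classical
  have hCD : ∀ (x : riemannRochSpace E) (τ : ℍ) (k : ℕ),
      ContDiffAt ℂ k (M.numC x.1) (τ : ℂ) := fun x τ k =>
    (LevelForms.analyticAt_numC (hEn x.2) τ.im_pos).contDiffAt
  let Ev : riemannRochSpace E →ₗ[ℂ] ((ι × Fin e) ⊕ Unit → ℂ) :=
    { toFun := fun x => Sum.elim (fun ij => iteratedDeriv ij.2 (M.numC x.1) (p ij.1 : ℂ))
        fun _ => M.num x.1 τ₀
      map_add' := fun x y => funext fun s => by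
        cases s
        · simp only [Sum.elim_inl, Pi.add_apply]
          rw [← iteratedDeriv_add (hCD x _ _) (hCD y _ _)]
          congr 1
          funext w
          simp [LevelForms.numC, map_add]
        · simp [map_add]
      map_smul' := fun c x => funext fun s => by
        cases s
        · simp only [Sum.elim_inl, Pi.smul_apply, smul_eq_mul, RingHom.id_apply]
          rw [← iteratedDeriv_const_mul_field]
          congr 1
          funext w
          simp [LevelForms.numC, map_smul]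
        · simp [map_smul] }
  have hsub : (LinearMap.ker Ev).map (riemannRochSpace E).subtype ≤
      riemannRochSpace (E - e • msDiv P - Finsupp.single (pt N τ₀) 1) := by
    rintro _ ⟨x, hx, rfl⟩
    rcases eq_or_ne (x : Mono.FC N) 0 with h0 | h0
    · rw [Submodule.coe_subtype, h0]; exact zero_mem _
    rw [Submodule.coe_subtype, mem_rrSpace_of_ord h0]
    intro v
    have hb := (mem_rrSpace_of_ord h0).mp x.2 v
    have hx' := fun s => congrFun (LinearMap.mem_ker.mp hx) s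
    simp only [Finsupp.sub_apply, Finsupp.smul_apply, nsmul_eq_mul]
    by_cases hvP : v ∈ P
    · obtain ⟨i, rfl⟩ := hP v hvP
      have h1 := ((hp i).le_ord_iff_jets (hEn x.2) h0 e).mpr
        fun j hj => hx' (Sum.inl (i, ⟨j, hj⟩))
      rw [msDiv_apply, Multiset.count_eq_one_of_mem hPn hvP,
        Finsupp.single_eq_of_ne (fun h : pt N (p i) = pt N τ₀ => hτP (h ▸ hvP)),
        hEz _ (Or.inl hvP)]
      simp only [Nat.cast_one, mul_one]
      omega
    · rw [msDiv_apply_eq_zero.mpr hvP, mul_zero]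
      rcases eq_or_ne v (pt N τ₀) with rfl | hv
      · have h1 := hτ₀.ord_pos (hEn x.2) h0 (hx' (Sum.inr ()))
        rw [Finsupp.single_eq_same, hEz _ (Or.inr rfl)]
        omega
      · rw [Finsupp.single_eq_of_ne hv]
        omega
  have hsurj : Function.Surjective Ev := by
    rw [← LinearMap.range_eq_top]
    refine Submodule.eq_top_of_finrank_eq ?_
    have h1 := LinearMap.finrank_range_add_finrank_ker Ev
    have h2 : Module.finrank ℂ (LinearMap.ker Ev) ≤ 1 := by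
      rw [(Submodule.equivMapOfInjective _ (riemannRochSpace E).injective_subtype _).finrank_eq]
      exact (Submodule.finrank_mono hsub).trans hker
    have h4 := Submodule.finrank_le (LinearMap.range Ev)
    rw [Module.finrank_fintype_fun_eq_card, Fintype.card_sum, Fintype.card_prod,
      Fintype.card_fin, Fintype.card_unit] at h4 ⊢
    unfold ell at hdim
    rw [mul_comm (Fintype.card ι) e] at h4 ⊢
    omega
  obtain ⟨x, hx⟩ := hsurj (Pi.single s 1)
  exact ⟨x.1, x.2, fun i j => by rw [← hx]; simp [Ev],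
    by rw [← hx]; simp [LevelForms.numC, Ev]⟩

/-- Near a configuration of admissible points, distinct from one another and off `B`, all
parameters give such a configuration. -/
theorem eventually_config {ι : Type*} [Fintype ι] {e : ℕ} {p : ι → ℍ} (hpA : ∀ i, M.Adm (p i))
    {τ₀ : ℍ} (hτ₀ : M.Adm τ₀) (hO : Φ.O.ord (X0.jC N) < 0)
    (hn2 : 2 * gen ℂ (Mono.FC N) + 1 ≤ n) (hinj : ∀ i j, i ≠ j → pt N (p i) ≠ pt N (p j))
    (hne : ∀ i, pt N (p i) ≠ pt N τ₀) {B : Multiset (Place ℂ (Mono.FC N))}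
    (hB : ∀ i, pt N (p i) ∉ B) (hB₀ : pt N τ₀ ∉ B) :
    ∀ᶠ x in 𝓝 ((0, fun i => (p i : ℂ), (τ₀ : ℂ)) : ZeroParams ι e),
      ((∀ i, 0 < (x.2.1 i).im ∧ M.Adm (ofComplex (x.2.1 i))) ∧
        (0 < x.2.2.im ∧ M.Adm (ofComplex x.2.2))) ∧
      ((∀ i j, i ≠ j → pt N (ofComplex (x.2.1 i)) ≠ pt N (ofComplex (x.2.1 j))) ∧
        ∀ i, pt N (ofComplex (x.2.1 i)) ≠ pt N (ofComplex x.2.2)) ∧
      ((∀ i, pt N (ofComplex (x.2.1 i)) ∉ B) ∧ pt N (ofComplex x.2.2) ∉ B) := by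
  classical
  have hcont : ∀ i, ContinuousAt (fun x : ZeroParams ι e => x.2.1 i)
      (0, fun i => (p i : ℂ), (τ₀ : ℂ)) := fun i => by fun_prop
  have hcr : ContinuousAt (fun x : ZeroParams ι e => x.2.2)
      (0, fun i => (p i : ℂ), (τ₀ : ℂ)) := by fun_prop
  refine ((Filter.eventually_all.mpr fun i => ?_).and ?_).and
    (((Filter.eventually_all.mpr fun i => Filter.eventually_all.mpr fun j =>
        Filter.eventually_all.mpr fun hij => ?_).and (Filter.eventually_all.mpr fun i => ?_)).and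
    ((Filter.eventually_all.mpr fun i => ?_).and ?_))
  · exact (hcont i).eventually
      (M.eventually_adm (p i).im_pos (by rw [ofComplex_apply]; exact hpA i))
  · exact hcr.eventually (M.eventually_adm τ₀.im_pos (by rw [ofComplex_apply]; exact hτ₀))
  · exact ((hcont i).prodMk (hcont j)).eventually
      (eventually_pt_ne (hpA i) (hpA j) hO hn2 (hinj i j hij))
  · exact ((hcont i).prodMk hcr).eventually (eventually_pt_ne (hpA i) hτ₀ hO hn2 (hne i))
  · exact (hcont i).eventually (eventually_pt_notMem (hpA i) hO hn2 (hB i))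
  · exact hcr.eventually (eventually_pt_notMem hτ₀ hO hn2 hB₀)

/-- A point near `τ₀` differs from it by `m` times a class. -/
theorem LevelForms.eventually_inMul (M : LevelForms Φ n) {e : ℕ} (he : 1 ≤ e)
    (hn : n = (e + 4) * gen ℂ (Mono.FC N) + 5) (hO : Φ.O.ord (X0.jC N) < 0) {τ₀ : ℍ}
    (hτ₀ : M.Adm τ₀) :
    ∀ᶠ z in 𝓝 (τ₀ : ℂ),
      InMul (e + 1) (Finsupp.single (pt N (ofComplex z)) 1 - Finsupp.single (pt N τ₀) 1) := by
  classical
  obtain ⟨P, hPn, hPc, hP, hP1⟩ := exists_nonspecial M.infinite_pt ({pt N τ₀} : Finset _)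
  let ι := {v // v ∈ P.toFinset}
  have hι : Fintype.card ι = gen ℂ (Mono.FC N) := by
    rw [Fintype.card_coe, Multiset.toFinset_card_of_nodup hPn, hPc]
  choose p hpA hpv using fun i : ι => (hP i.1 (Multiset.mem_toFinset.mp i.2)).1
  have hpτ : ∀ i : ι, pt N τ₀ ≠ i.1 := fun i h =>
    (hP i.1 (Multiset.mem_toFinset.mp i.2)).2 (by rw [← h, Finset.mem_singleton])
  have hnZ : (n : ℤ) = ((e : ℤ) + 4) * gen ℂ (Mono.FC N) + 5 := by rw [hn]; push_cast; rfl
  have hn2 : 2 * gen ℂ (Mono.FC N) + 1 ≤ n := by rw [hn]; nlinarith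
  set D1 := Φ.DO n - (e + 1) • msDiv P - Finsupp.single (pt N τ₀) 1 with hD1
  obtain ⟨B, ⟨f₀, hf₀, hf₀d⟩, hBn, hBS⟩ := exists_reduced_avoiding (D := D1)
    (by rw [hD1, map_sub, map_sub, map_nsmul, Φ.degree_DO, degree_msDiv, degree_single_one, hPc,
          nsmul_eq_mul]
        push_cast
        nlinarith) (insert (pt N τ₀) P.toFinset)
  have hB0 : msDiv B (pt N τ₀) = 0 :=
    msDiv_apply_eq_zero.mpr (hBS _ (Finset.mem_insert_self _ _))
  have hBi : ∀ i : ι, msDiv B i.1 = 0 := fun i =>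
    msDiv_apply_eq_zero.mpr (hBS _ (Finset.mem_insert_of_mem i.2))
  have hBc : (B.card : ℤ) = Divisor.degree D1 := by
    rw [← degree_msDiv, hf₀d, map_add, degree_divOf, add_zero]
  set E := Φ.DO n - msDiv B with hE
  have hEn : riemannRochSpace E ≤ riemannRochSpace (Φ.DO n) := rrSpace_sub_msDiv_le_self B
  have hdiv : Φ.DO n + divOf f₀ =
      (e + 1) • msDiv P + Finsupp.single (pt N τ₀) 1 + msDiv B := by
    rw [hf₀d, hD1]; abel
  have hPv : ∀ i : ι, msDiv P i.1 = 1 := fun i => by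
    rw [msDiv_apply, Multiset.count_eq_one_of_mem hPn (Multiset.mem_toFinset.mp i.2)]; rfl
  have hPτ : msDiv P (pt N τ₀) = 0 := msDiv_apply_eq_zero.mpr fun h =>
    (hP _ h).2 (Finset.mem_singleton_self _)
  have hf₀E : f₀ ∈ riemannRochSpace E := mem_rrSpace_sub_msDiv hf₀
    (add_nonneg (nsmul_nonneg (msDiv_nonneg P) _) (Finsupp.single_nonneg.mpr zero_le_one)) hdiv
  have hf₀n := hEn hf₀E
  have hord : ∀ i : ι, (pt N (p i)).ord f₀ = (e + 1 : ℕ) := fun i => by
    have h := DFunLike.congr_fun hdiv (pt N (p i))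
    rw [hpv] at h
    simp only [Finsupp.add_apply, Finsupp.smul_apply, nsmul_eq_mul, divOf_apply, hBi, hPv,
      Finsupp.single_eq_of_ne (hpτ i).symm, mul_one]
      at h
    rw [hpv]
    have h0 := (hpA i).DO_eq_zero hO n
    rw [hpv] at h0
    omega
  have hnum₀ : M.num f₀ τ₀ = 0 := hτ₀.num_eq_zero hf₀n (Or.inr (by
    have h := DFunLike.congr_fun hdiv (pt N τ₀)
    simp only [Finsupp.add_apply, Finsupp.smul_apply, smul_zero, divOf_apply, hPτ, hB0,
      Finsupp.single_eq_same,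
      hτ₀.DO_eq_zero hO] at h
    omega))
  -- prescribing values
  have hdim : ell E = e * Fintype.card ι + 2 := by
    have hd : Divisor.degree E = ((e : ℤ) + 1) * (gen ℂ (Mono.FC N) : ℤ) + 1 := by
      rw [hE, map_sub, degree_msDiv, hBc, hD1, map_sub, map_sub, map_nsmul, degree_msDiv, hPc,
        degree_single_one, Φ.degree_DO, nsmul_eq_mul]
      push_cast
      ring
    have := ell_large (D := E) (by rw [hd]; nlinarith)
    rw [hι]
    zify
    linarith
  have hE'1 : ell (E - e • msDiv P - Finsupp.single (pt N τ₀) 1) = 1 := by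
    rw [show E - e • msDiv P - Finsupp.single (pt N τ₀) 1 = msDiv P - divOf f₀ by
      rw [hE, hf₀d, hD1, add_smul, one_smul]; abel, ell_sub_divOf hf₀, hP1]
  have hEz : ∀ v, v ∈ P ∨ v = pt N τ₀ → E v = 0 := by
    rintro v (hv | rfl)
    · have h := (hpA ⟨v, Multiset.mem_toFinset.mpr hv⟩).DO_eq_zero hO n
      rw [hpv] at h
      rw [hE, Finsupp.sub_apply, h, hBi ⟨v, Multiset.mem_toFinset.mpr hv⟩, sub_zero]
    · rw [hE, Finsupp.sub_apply, hτ₀.DO_eq_zero hO, hB0, sub_zero]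
  choose h hhE hval hval₀ using exists_prescribed (e := e) hpA hτ₀ hEn hPn
    (fun v hv => ⟨⟨v, Multiset.mem_toFinset.mpr hv⟩, hpv _⟩)
    (fun hm => (hP _ hm).2 (Finset.mem_singleton_self _)) hEz hdim hE'1.le
  have hAf : ∀ (s : (ι × Fin e) ⊕ Unit) (τ : ℍ), AnalyticAt ℂ (M.numC (h s)) (τ : ℂ) := fun s τ =>
    LevelForms.analyticAt_numC (hEn (hhE s)) τ.im_pos
  have hA₀ : ∀ τ : ℍ, AnalyticAt ℂ (M.numC f₀) (τ : ℂ) := fun τ =>
    LevelForms.analyticAt_numC hf₀n τ.im_pos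
  have h2 : ∀ i : ι, ∀ j < e + 1, iteratedDeriv j (M.numC f₀) (p i : ℂ) = 0 := fun i =>
    ((hpA i).le_ord_iff_jets hf₀n hf₀ (e + 1)).mp (hord i).ge
  -- open conditions
  obtain ⟨τ₁, hτ₁⟩ := Function.ne_iff.mp ((M.isRep f₀ hf₀n).num_ne hf₀)
  have hnC : ∀ (u : Mono.FC N) (τ : ℍ), M.numC u (τ : ℂ) = M.num u τ := fun u τ => by
    simp [LevelForms.numC]
  have hW : ∀ᶠ x in 𝓝 ((0, fun i => (p i : ℂ), (τ₀ : ℂ)) : ZeroParams ι e),
      (((∀ i, 0 < (x.2.1 i).im ∧ M.Adm (ofComplex (x.2.1 i))) ∧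
        (0 < x.2.2.im ∧ M.Adm (ofComplex x.2.2))) ∧
      ((∀ i j, i ≠ j → pt N (ofComplex (x.2.1 i)) ≠ pt N (ofComplex (x.2.1 j))) ∧
        ∀ i, pt N (ofComplex (x.2.1 i)) ≠ pt N (ofComplex x.2.2)) ∧
      ((∀ i, pt N (ofComplex (x.2.1 i)) ∉ B) ∧ pt N (ofComplex x.2.2) ∉ B)) ∧
      M.numC f₀ (τ₁ : ℂ) + ∑ s, x.1 s * M.numC (h s) (τ₁ : ℂ) ≠ 0 := by
    refine (eventually_config hpA hτ₀ hO hn2
      (fun i j hij => by rw [hpv, hpv]; exact fun e => hij (Subtype.ext e))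
      (fun i => by rw [hpv]; exact (hpτ i).symm)
      (fun i => by rw [hpv]; exact hBS _ (Finset.mem_insert_of_mem i.2))
      (hBS _ (Finset.mem_insert_self _ _))).and
      ((Continuous.continuousAt (by fun_prop)).eventually_ne ?_)
    simpa [LevelForms.numC] using hτ₁
  filter_upwards [eventually_exists_zeros (p₀ := fun i => (p i : ℂ)) (r₀ := (τ₀ : ℂ))
    (ψ₀ := M.numC f₀) (ψ := fun s => M.numC (h s)) (fun i => hA₀ (p i)) (hA₀ τ₀)
    (fun s i => hAf s (p i)) (fun s => hAf s τ₀) h2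
    (fun i => (hpA i).jet_ne_zero hf₀n hf₀ (hord i)) (by rw [hnC]; exact hnum₀)
    (fun i j s => hval s i j) hval₀ hW]
    with z hz
  obtain ⟨a, w, ⟨⟨⟨hAi, hAr⟩, ⟨hmPx, hmRx⟩, hqB, hrB⟩, hne⟩, e1, e2⟩ := hz
  set q : ι → ℍ := fun i => ofComplex (w i)
  set r := ofComplex z
  have hq : ∀ i, M.Adm (q i) := fun i => (hAi i).2
  have hr : M.Adm r := hAr.2
  have hqC : ∀ i, (q i : ℂ) = w i := fun i => by
    simp [q, ofComplex_apply_of_im_pos (hAi i).1]
  have hrC : (r : ℂ) = z := by simp [r, ofComplex_apply_of_im_pos hAr.1]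
  set f := f₀ + ∑ s, a s • h s
  have hfE : f ∈ riemannRochSpace E :=
    add_mem hf₀E (Submodule.sum_mem _ fun s _ => Submodule.smul_mem _ _ (hhE s))
  have hfn := hEn hfE
  have hfC : M.numC f = fun w => M.numC f₀ w + ∑ s, a s * M.numC (h s) w := by
    funext w
    simp [f, LevelForms.numC, map_sum, Finset.sum_apply]
  have hf : f ≠ 0 := fun h0 => hne (by
    have := congrFun hfC (τ₁ : ℂ)
    rw [← this, h0]; simp [LevelForms.numC])
  have hfd : ∀ i, ∀ j < e + 1, iteratedDeriv j (M.numC f) (q i : ℂ) = 0 := fun i j hj => by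
    rw [hfC, iteratedDeriv_affine a (hA₀ (q i)) (fun s => hAf s (q i)), hqC]
    exact e1 i j hj
  have hfr : M.num f r = 0 := by
    have := congrFun hfC (r : ℂ)
    rw [hnC, hrC] at this
    exact this.trans e2
  exact inMul_of_zeros hO hι hPc hf₀ hdiv hf hfE hq hr hfd hfr
    (fun i j e => by_contra fun hij => hmPx i j hij e) hmRx hqB hrB

end Fermat.Agent.MW

end
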