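import Fermat.Agent.MW.CurveHeight

/-!
# The main lemma and the height of the Plücker vector of `L(k m O - E)`

The height of the Plücker vector of `L(k m O - E)` is computed in terms of the heights of the
points of `E` and their mutual pairings. This is what makes the pairing of classes well defined
up to a bounded amount.
-/

noncomputable section

open AlgebraicCurve Fermat.Agent.FF

namespace Fermat.Agent.MW

section LinearAlgebra

/-- The Plücker vector of a tuple of vectors. -/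
def plk {N ν : ℕ} (e : Fin ν → Fin N → Qbar) : (Fin ν → Fin N) → Qbar :=
  fun τ => Matrix.det (Matrix.of fun i j => e i (τ j))

theorem plk_ne_zero {N ν : ℕ} {e : Fin ν → Fin N → Qbar} (he : LinearIndependent Qbar e) :
    plk e ≠ 0 :=
  let ⟨τ, hτ⟩ := exists_minor_ne_zero he
  Function.ne_iff.mpr ⟨τ, hτ⟩

/-- Plücker vectors of two bases of one space are proportional. -/
theorem plk_eq_smul {N ν : ℕ} {e e' : Fin ν → Fin N → Qbar}
    (he' : LinearIndependent Qbar e') (hle : ∀ i, e' i ∈ Submodule.span Qbar (Set.range e)) :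
    ∃ c : Qbar, c ≠ 0 ∧ plk e' = c • plk e := by
  choose P hP using fun i => Submodule.mem_span_range_iff_exists_fun Qbar |>.mp (hle i)
  have h : plk e' = Matrix.det (Matrix.of P) • plk e := funext fun τ => by
    rw [Pi.smul_apply, smul_eq_mul, plk, plk, ← Matrix.det_mul]
    congr 1
    ext i j
    rw [Matrix.mul_apply, Matrix.of_apply, ← hP i]
    simp
  refine ⟨_, fun h0 => plk_ne_zero he' ?_, h⟩
  rw [h, h0, zero_smul]

/-- All bases of one space have Plücker vectors of the same height. -/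
theorem hgt_plk_eq {N ν : ℕ} {V : Submodule Qbar (Fin N → Qbar)} {e e' : Fin ν → Fin N → Qbar}
    (hes : Submodule.span Qbar (Set.range e) = V) (he' : LinearIndependent Qbar e')
    (hle : ∀ i, e' i ∈ V) : hgt (plk e') = hgt (plk e) := by
  obtain ⟨c, hc, h⟩ := plk_eq_smul he' (fun i => hes.symm ▸ hle i)
  rw [h]
  exact hgt_smul _ hc

theorem hgt_plk_le_minors {A : Type*} [Fintype A] {N ν : ℕ} (u : A → Fin N → Qbar)
    (σ : Fin ν → A) : hgt (plk (u ∘ σ)) ≤ hgt (minors (ν := ν) u) :=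
  hgt_comp_le (fun τ => (σ, τ)) (minors u)

/-- Linearly independent vectors in `V`, as many as its dimension, span it. -/
theorem span_range_eq_of_finrank {N ν : ℕ} {e : Fin ν → Fin N → Qbar}
    (he : LinearIndependent Qbar e)
    {V : Submodule Qbar (Fin N → Qbar)} (hmem : ∀ i, e i ∈ V) (hV : Module.finrank Qbar V = ν) :
    Submodule.span Qbar (Set.range e) = V :=
  Submodule.eq_of_le_of_finrank_eq (Submodule.span_le.mpr (by rintro x ⟨i, rfl⟩; exact hmem i))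
    (by rw [finrank_span_eq_card he, hV, Fintype.card_fin])

/-- Contracting the Plücker vector of `e` in its first slot against a functional `X` killing
`e i.succ` for all `i` leaves `X (e 0)` times the Plücker vector of the tail of `e`. -/
theorem evFam_contract {N μ : ℕ} (e : Fin (μ + 1) → Fin N → Qbar) (X : Fin N → Qbar)
    (he : ∀ i : Fin μ, ∑ s, e i.succ s * X s = 0) (τ' : Fin μ → Fin N) :
    evFam (fun τ' : Fin μ → Fin N => fun s => plk e (Fin.cons s τ')) X τ' =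
      (∑ s, e 0 s * X s) * plk (fun i : Fin μ => e i.succ) τ' := by
  simp only [evFam, plk]
  simp_rw [Matrix.det_succ_column_zero (n := μ)]
  simp only [Finset.sum_mul]
  rw [Finset.sum_comm, Fin.sum_univ_succ]
  have h0 : ∀ (i : Fin μ), ∑ s, (-1 : Qbar) ^ (i.succ : ℕ) *
      (Matrix.of fun i j => e i ((Fin.cons s τ' : Fin (μ + 1) → Fin N) j)) i.succ 0 *
      ((Matrix.of fun i j => e i ((Fin.cons s τ' : Fin (μ + 1) → Fin N) j)).submatrix
        i.succ.succAbove Fin.succ).det * X s = 0 := fun i => by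
    have hdet : ∀ s, ((Matrix.of fun i j =>
        e i ((Fin.cons s τ' : Fin (μ + 1) → Fin N) j)).submatrix i.succ.succAbove Fin.succ).det =
        Matrix.det (Matrix.of fun a b => e (i.succ.succAbove a) (τ' b)) := fun s => by
      congr 1
    have hh : ∀ s, (-1 : Qbar) ^ (i.succ : ℕ) *
        (Matrix.of fun i j => e i ((Fin.cons s τ' : Fin (μ + 1) → Fin N) j)) i.succ 0 *
        Matrix.det (Matrix.of fun a b => e (i.succ.succAbove a) (τ' b)) * X s =
        (-1 : Qbar) ^ (i.succ : ℕ) * Matrix.det (Matrix.of fun a b => e (i.succ.succAbove a) (τ' b))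
          * (e i.succ s * X s) := fun s => by
      simp only [Matrix.of_apply, Fin.cons_zero]; ring
    simp_rw [hdet, hh, ← Finset.mul_sum, he i, mul_zero]
  rw [Finset.sum_eq_zero fun i _ => h0 i, add_zero]
  refine Finset.sum_congr rfl fun s _ => ?_
  simp only [Fin.val_zero, pow_zero, one_mul, Matrix.of_apply, Fin.cons_zero, Fin.succAbove_zero]
  rw [mul_right_comm]
  congr 2

/-- The slices of the Plücker vector of `e` lie in any space containing all `e i`. -/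
theorem plk_cons_mem {N μ : ℕ} {e : Fin (μ + 1) → Fin N → Qbar}
    {V : Submodule Qbar (Fin N → Qbar)} (he : ∀ i, e i ∈ V) (τ' : Fin μ → Fin N) :
    (fun s => plk e (Fin.cons s τ')) ∈ V := by
  have hcomb : (fun s => plk e (Fin.cons s τ')) = ∑ i : Fin (μ + 1), ((-1 : Qbar) ^ (i : ℕ) *
      Matrix.det (Matrix.of fun a b => e (i.succAbove a) (τ' b))) • e i := funext fun s => by
    simp only [plk, Matrix.det_succ_column_zero, Finset.sum_apply, Pi.smul_apply, smul_eq_mul]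
    refine Finset.sum_congr rfl fun i _ => ?_
    simp only [Matrix.of_apply, Fin.cons_zero]
    rw [mul_right_comm]
    congr 2
  rw [hcomb]
  exact Submodule.sum_mem _ fun i _ => Submodule.smul_mem _ _ (he i)

/-- The family of slices of a Plücker vector has the height of the vector. -/
theorem hgt_flatFam_plk_cons {N μ : ℕ} (e : Fin (μ + 1) → Fin N → Qbar) :
    hgt (flatFam fun (τ' : Fin μ → Fin N) s => plk e (Fin.cons s τ')) = hgt (plk e) :=
  hgt_comp_surjective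
    (f := fun p : (Fin μ → Fin N) × Fin N => (Fin.cons p.2 p.1 : Fin (μ + 1) → Fin N))
    (fun τ => ⟨(Fin.tail τ, τ 0), Fin.cons_self_tail τ⟩) (plk e)

end LinearAlgebra

variable {F : Type*} [Field F] [Algebra Qbar F] [IsFunctionField Qbar F] (Φ : Frame Qbar F)
variable (m k : ℕ)

/-- The total height of a multiset of places. -/
def Frame.hsum (s : Multiset (Place Qbar F)) : ℝ := (s.map (Φ.hX m)).sum

/-- The pairing of an effective divisor with a place. -/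
def Frame.bsum (s : Multiset (Place Qbar F)) (Q : Place Qbar F) : ℝ :=
  (s.map fun P => Φ.bP m P Q).sum

/-- The pairing of two effective divisors. -/
def Frame.bb (s t : Multiset (Place Qbar F)) : ℝ := (t.map (Φ.bsum m s)).sum

theorem Frame.bsum_add (s t : Multiset (Place Qbar F)) (Q : Place Qbar F) :
    Φ.bsum m (s + t) Q = Φ.bsum m s Q + Φ.bsum m t Q := by
  simp [Frame.bsum]

theorem Frame.bb_add_left (s s' t : Multiset (Place Qbar F)) :
    Φ.bb m (s + s') t = Φ.bb m s t + Φ.bb m s' t := by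
  simp [Frame.bb, Φ.bsum_add, Multiset.sum_map_add]

theorem Frame.bb_add_right (s t t' : Multiset (Place Qbar F)) :
    Φ.bb m s (t + t') = Φ.bb m s t + Φ.bb m s t' := by
  simp [Frame.bb]

theorem Frame.bb_zero_left (t : Multiset (Place Qbar F)) : Φ.bb m 0 t = 0 := by
  have h : Φ.bsum m 0 = fun _ => (0 : ℝ) := funext fun Q => by simp [Frame.bsum]
  simp [Frame.bb, h]

theorem Frame.bb_zero_right (s : Multiset (Place Qbar F)) : Φ.bb m s 0 = 0 := by simp [Frame.bb]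

theorem Frame.bb_singleton_right (s : Multiset (Place Qbar F)) (Q : Place Qbar F) :
    Φ.bb m s {Q} = Φ.bsum m s Q := by simp [Frame.bb]

theorem Frame.bb_comm (s t : Multiset (Place Qbar F)) : Φ.bb m s t = Φ.bb m t s := by
  induction t using Multiset.induction_on with
  | empty => rw [Φ.bb_zero_left, Φ.bb_zero_right]
  | cons Q t ih =>
    rw [← Multiset.singleton_add, Φ.bb_add_left, Φ.bb_add_right, ih, Φ.bb_singleton_right]
    congr 1
    simp only [Frame.bb, Frame.bsum]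
    refine congrArg Multiset.sum (Multiset.map_congr rfl fun P _ => ?_)
    simpa [Frame.bsum] using Φ.bP_comm m P Q

theorem Frame.bsum_ofTup {r : ℕ} (A : Fin r → Place Qbar F) (Q : Place Qbar F) :
    Φ.bsum m (ofTup A) Q = ∑ i, Φ.bP m (A i) Q := by
  simp [Frame.bsum, ofTup, List.sum_ofFn]

omit [IsFunctionField Qbar F] in
theorem Frame.coord_mem {E : Multiset (Place Qbar F)} {f : F}
    (h : f ∈ riemannRochSpace (Φ.DO (k * m) - msDiv E)) : Φ.co (k * m) f ∈ Φ.VK m k E :=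
  ⟨f, h, rfl⟩

/-- `L(k m O - E)` is large enough: `2 g + deg E ≤ k m`. -/
theorem kmul_bound {g m k r : ℕ} (hm : 4 * g + 1 ≤ m) (hk : r + 2 ≤ k) : 2 * g + r ≤ k * m :=
  calc 2 * g + r ≤ (r + 2) * m := by nlinarith
    _ ≤ k * m := Nat.mul_le_mul_right m hk

/-- The product family bounds all families, at a point outside the divisor. -/
theorem Frame.exists_evFam_le (hm : 4 * gen Qbar F + 1 ≤ m) {r : ℕ} (hk : r + 2 ≤ k)
    (B : Type*) [Fintype B] :
    ∃ C : ℝ, ∀ (A : Fin r → Place Qbar F) (Q : Place Qbar F), (∀ i, A i ≠ Q) →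
      ∀ v : B → Fin (Φ.dim (k * m)) → Qbar, (∀ b, v b ∈ Φ.VK m k (ofTup A)) →
        evFam v (Φ.X (k * m) Q) ≠ 0 →
        hgt (evFam v (Φ.X (k * m) Q)) - hgt (flatFam v) ≤
          Φ.bsum m (ofTup A) Q + k * Φ.hX m Q + C := by
  have hkm := kmul_bound hm hk
  obtain ⟨μ, hμ⟩ : ∃ μ, μ + 1 + gen Qbar F + r = k * m + 1 :=
    ⟨k * m - r - gen Qbar F, by omega⟩
  obtain ⟨C₁, hC₁⟩ := Φ.exists_cFam_bounds m k r hm hk μ hμ
  obtain ⟨C₂, hC₂⟩ := exists_compare
    ((Fin r → Fin (Φ.dim m) × Fin (Φ.dim m)) × Fin (Φ.dim ((k - r) * m))) B (Φ.dim (k * m)) μ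
  obtain ⟨C₃, hC₃⟩ := Φ.exists_hX_mul m hm (j := k - r) (by omega)
  refine ⟨(μ + 1 : ℝ) * C₁ + C₂ + C₃, fun A Q hQ v hv hev => ?_⟩
  obtain ⟨hne, hlow, hup⟩ := hC₁ A
  have hfr := Φ.finrank_VK m k (E := ofTup A) (by rw [card_ofTup]; omega)
  rw [card_ofTup] at hfr
  have h := hC₂ (Φ.VK m k (ofTup A)) (by omega) _ v (Φ.X (k * m) Q)
    (fun J => by
      rw [← Φ.span_cFam m k r (by omega) hk A]; exact Submodule.subset_span ⟨J, rfl⟩)
    hv hne hev
  obtain ⟨he, -⟩ := Φ.hgt_evFam_cFam m k r (by omega) hk A Q hQ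
  rw [he] at h
  have h3 := (abs_le.mp (hC₃ Q)).2
  rw [Φ.bsum_ofTup]
  simp only [Φ.bP_of_ne m (hQ _), Finset.sum_sub_distrib, Finset.sum_const, Finset.card_univ,
    Fintype.card_fin, nsmul_eq_mul]
  have hμ0 : (0 : ℝ) ≤ μ := Nat.cast_nonneg _
  have h4 : (μ : ℝ) * hgt (flatFam (Φ.cFam m k r fun i => Φ.X m (A i))) ≤
      (μ : ℝ) * ((∑ i, Φ.hX m (A i)) + C₁) := by gcongr
  rw [Nat.cast_sub (by omega : r ≤ k)] at h3
  nlinarith

section WFamily

variable (s : ℕ)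

/-- The function with the given coordinates at level `s m`. -/
def Frame.wOf (x : Fin (Φ.dim (s * m)) → Qbar) : F := ∑ i, x i • Φ.fn (s * m) i

omit [IsFunctionField Qbar F] in
theorem Frame.wOf_mem (x : Fin (Φ.dim (s * m)) → Qbar) :
    Φ.wOf m s x ∈ riemannRochSpace (Φ.DO (s * m)) :=
  Submodule.sum_mem _ fun i _ => Submodule.smul_mem _ _ (Φ.fn_mem _ i)

omit [IsFunctionField Qbar F] in
theorem Frame.co_wOf (x : Fin (Φ.dim (s * m)) → Qbar) : Φ.co (s * m) (Φ.wOf m s x) = x := by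
  classical
  simp only [Frame.wOf, map_sum, map_smul, Φ.co_fn]
  exact (pi_eq_sum_univ' x).symm

omit [IsFunctionField Qbar F] in
theorem Frame.wOf_ne_zero {x : Fin (Φ.dim (s * m)) → Qbar} (hx : x ≠ 0) : Φ.wOf m s x ≠ 0 :=
  fun h => hx (by rw [← Φ.co_wOf m s x, h, map_zero])

/-- The family `w * L((k - s) m)` in coordinates of level `k m`. -/
def Frame.uFam (x : Fin (Φ.dim (s * m)) → Qbar) (l : Fin (Φ.dim ((k - s) * m))) :
    Fin (Φ.dim (k * m)) → Qbar :=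
  Φ.co (k * m) (Φ.wOf m s x * Φ.fn ((k - s) * m) l)

omit [IsFunctionField Qbar F] in
theorem Frame.DO_split (hs : s ≤ k) : Φ.DO (k * m) = Φ.DO (s * m) + Φ.DO ((k - s) * m) := by
  rw [Φ.DO_add, ← add_mul, Nat.add_sub_cancel' hs]

theorem Frame.uFam_props (hm : 4 * gen Qbar F + 1 ≤ m) (hs : s * m + 2 ≤ k)
    {W : Multiset (Place Qbar F)} {x : Fin (Φ.dim (s * m)) → Qbar} (hx : x ≠ 0)
    (hW : msDiv W = Φ.DO (s * m) + divOf (Φ.wOf m s x)) :
    W.card = s * m ∧ (∀ l, Φ.uFam m k s x l ∈ Φ.VK m k W) ∧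
      LinearIndependent Qbar (Φ.uFam m k s x) ∧
      Module.finrank Qbar (Φ.VK m k W) = Φ.dim ((k - s) * m) := by
  have hsk : s ≤ k := by nlinarith
  have hkm := kmul_bound hm hs
  have hcard : W.card = s * m := by
    have := degree_msDiv W
    rw [hW, map_add, Φ.degree_DO, degree_divOf, add_zero] at this
    exact_mod_cast this.symm
  have hw0 := Φ.wOf_ne_zero m s hx
  have hmem : ∀ l, Φ.wOf m s x * Φ.fn ((k - s) * m) l ∈
      riemannRochSpace (Φ.DO (k * m) - msDiv W) := fun l => by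
    have := mul_mem_rrSpace (z := Φ.wOf m s x) _ (Φ.fn_mem ((k - s) * m) l)
    rwa [hW, Φ.DO_split m k s hsk, add_sub_add_left_eq_sub]
  refine ⟨hcard, fun l => Φ.coord_mem m k (hmem l), ?_, ?_⟩
  · rw [Fintype.linearIndependent_iff]
    intro g hg
    have hin : ∑ l, g l • (Φ.wOf m s x * Φ.fn ((k - s) * m) l) ∈
        riemannRochSpace (Φ.DO (k * m)) :=
      Submodule.sum_mem _ fun l _ => Submodule.smul_mem _ _ (Φ.sub_msDiv_le _ W (hmem l))
    have h0 : ∑ l, g l • (Φ.wOf m s x * Φ.fn ((k - s) * m) l) = 0 := by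
      rw [← Φ.co_eq_zero_iff _ hin, map_sum]
      simpa [map_smul, Frame.uFam] using hg
    rw [Finset.sum_congr rfl fun l _ => (mul_smul_comm (g l) _ _).symm, ← Finset.mul_sum] at h0
    have h1 := congrArg (Φ.co ((k - s) * m)) ((mul_eq_zero.mp h0).resolve_left hw0)
    classical
    simp only [map_sum, map_smul, Φ.co_fn, map_zero] at h1
    intro l
    have h2 := congrFun h1 l
    simpa [Finset.sum_apply, Pi.single_apply] using h2
  · have := Φ.finrank_VK m k (E := W) (by omega)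
    have h2 := Φ.dim_eq ((k - s) * m) (by rw [Nat.sub_mul]; omega)
    rw [Nat.sub_mul] at h2
    rw [Nat.sub_mul]
    omega

omit [IsFunctionField Qbar F] in
theorem Frame.isForm_uFam (l : Fin (Φ.dim ((k - s) * m))) (j : Fin (Φ.dim (k * m))) :
    IsForm (ι := fun _ : Unit => Fin (Φ.dim (s * m))) 1 (fun x => Φ.uFam m k s (x ()) l j) := by
  have h : ∀ x : Unit → Fin (Φ.dim (s * m)) → Qbar, Φ.uFam m k s (x ()) l j =
      ∑ i, Φ.co (k * m) (Φ.fn (s * m) i * Φ.fn ((k - s) * m) l) j *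
        blockTensor x (fun _ => i) := fun x => by
    simp only [Frame.uFam, Frame.wOf, Finset.sum_mul, map_sum, smul_mul_assoc, map_smul,
      Finset.sum_apply, Pi.smul_apply, smul_eq_mul]
    refine Finset.sum_congr rfl fun i _ => ?_
    simp [blockTensor, mul_comm]
  exact (IsForm.sum Finset.univ fun i _ => (IsForm.coord fun _ => i).smul _).congr h

theorem Frame.exists_uFam_bounds (hm : 4 * gen Qbar F + 1 ≤ m) (hs : s * m + 2 ≤ k) :
    ∃ C : ℝ, ∀ x : Fin (Φ.dim (s * m)) → Qbar, x ≠ 0 →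
      Φ.dim ((k - s) * m) * hgt x ≤ hgt (plk (Φ.uFam m k s x)) + C ∧
      hgt (plk (Φ.uFam m k s x)) ≤ Φ.dim ((k - s) * m) * hgt x + C ∧
      hgt (flatFam (Φ.uFam m k s x)) ≤ hgt x + C := by
  obtain ⟨C₁, hC₁⟩ := IsForm.hgt_le (β := Unit) (ι := fun _ => Fin (Φ.dim (s * m))) (k := 1)
    (F := fun (p : Fin (Φ.dim ((k - s) * m)) × Fin (Φ.dim (k * m))) x =>
      Φ.uFam m k s (x ()) p.1 p.2) fun p => Φ.isForm_uFam m k s p.1 p.2
  have hform : ∀ τ : Fin (Φ.dim ((k - s) * m)) → Fin (Φ.dim (k * m)),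
      IsForm (ι := fun _ : Unit => Fin (Φ.dim (s * m))) (Φ.dim ((k - s) * m) * 1)
        (fun x => plk (Φ.uFam m k s (x ())) τ) :=
    fun τ => IsForm.det fun i j => Φ.isForm_uFam m k s i (τ j)
  obtain ⟨C₂, hC₂⟩ := IsForm.hgt_le (β := Unit) (ι := fun _ => Fin (Φ.dim (s * m)))
    (F := fun τ x => plk (Φ.uFam m k s (x ())) τ) hform
  obtain ⟨C₃, hC₃⟩ := hgt_ge_of_no_zero (β := Unit) (ι := fun _ => Fin (Φ.dim (s * m)))
    (F := fun τ x => plk (Φ.uFam m k s (x ())) τ) hform {x | x () ≠ 0} (fun x hx _ => by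
      obtain ⟨W, hW⟩ : ∃ W, msDiv W = Φ.DO (s * m) + divOf (Φ.wOf m s (x ())) :=
        ⟨_, msDiv_msOf (neg_divOf_le (Φ.wOf_ne_zero m s (hx ())) (Φ.wOf_mem m s _))⟩
      obtain ⟨-, -, hli, -⟩ := Φ.uFam_props m k s hm hs (hx ()) hW
      exact Function.ne_iff.mp (plk_ne_zero hli))
  refine ⟨max (max C₁ C₂) C₃, fun x hx => ⟨?_, ?_, ?_⟩⟩
  · have := hC₃ (fun _ => x) hx (fun _ => hx)
    simp only [mul_one, Finset.univ_unique, Finset.sum_singleton] at this
    linarith [le_max_right (max C₁ C₂) C₃]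
  · have := hC₂ (fun _ => x)
    simp only [mul_one, Finset.univ_unique, Finset.sum_singleton] at this
    linarith [le_max_left (max C₁ C₂) C₃, le_max_right C₁ C₂]
  · have := hC₁ (fun _ => x)
    simp only [Nat.cast_one, one_mul, Finset.univ_unique, Finset.sum_singleton] at this
    refine this.trans ?_
    linarith [le_max_left (max C₁ C₂) C₃, le_max_left C₁ C₂]

theorem Frame.hgt_evFam_uFam (hm : 4 * gen Qbar F + 1 ≤ m) (hs : s * m + 2 ≤ k)
    {W : Multiset (Place Qbar F)} {x : Fin (Φ.dim (s * m)) → Qbar} (hx : x ≠ 0)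
    (hW : msDiv W = Φ.DO (s * m) + divOf (Φ.wOf m s x)) {Q : Place Qbar F} (hQ : Q ∉ W) :
    hgt (evFam (Φ.uFam m k s x) (Φ.X (k * m) Q)) = Φ.hX ((k - s) * m) Q ∧
      evFam (Φ.uFam m k s x) (Φ.X (k * m) Q) ≠ 0 := by
  have hsk : s ≤ k := by nlinarith
  have hw0 := Φ.wOf_ne_zero m s hx
  have hev : ev Q (Φ.DO (s * m) Q) (Φ.wOf m s x) ≠ 0 := by
    rw [ev_ne_zero_iff Q (Φ.wOf_mem m s x Q) hw0]
    have h := DFunLike.congr_fun hW Q
    rw [msDiv_apply_eq_zero.mpr hQ, Finsupp.add_apply, divOf_apply] at h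
    omega
  have he : evFam (Φ.uFam m k s x) (Φ.X (k * m) Q) =
      ev Q (Φ.DO (s * m) Q) (Φ.wOf m s x) • Φ.X ((k - s) * m) Q := funext fun l => by
    have hmem : Φ.wOf m s x * Φ.fn ((k - s) * m) l ∈ riemannRochSpace (Φ.DO (k * m)) := by
      rw [Φ.DO_split m k s hsk]
      exact mul_mem_rrSpace_add (Φ.wOf_mem m s x) (Φ.fn_mem _ l)
    simp only [evFam, Frame.uFam]
    rw [← Φ.ev_eq_sum (k * m) Q hmem, Φ.DO_split m k s hsk, Finsupp.add_apply,
      ev_mul Q (Φ.wOf_mem m s x Q) (Φ.fn_mem _ l Q)]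
    rfl
  rw [he]
  exact ⟨hgt_smul _ hev, smul_ne_zero hev (Φ.X_ne_zero _
    (le_trans (by omega : 2 * gen Qbar F ≤ m) (Nat.le_mul_of_pos_left m
      (Nat.sub_pos_of_lt (by nlinarith : s < k)))) Q)⟩

end WFamily

/-- The main lemma: the pairing of a member of `|s m O|` with a point. -/
theorem Frame.exists_pairing_bound (hm : 4 * gen Qbar F + 1 ≤ m) {s : ℕ} (hs : s * m + 2 ≤ k) :
    ∃ C : ℝ, ∀ (w : F) (W : Multiset (Place Qbar F)) (Q : Place Qbar F),
      w ≠ 0 → w ∈ riemannRochSpace (Φ.DO (s * m)) →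
      msDiv W = Φ.DO (s * m) + divOf w → Q ∉ W →
      |Φ.bsum m W Q + s * Φ.hX m Q + hgt (Φ.co (s * m) w)| ≤ C := by
  have hsk : s < k := by nlinarith
  have hkm := kmul_bound hm hs
  obtain ⟨C₁, hC₁⟩ := Φ.exists_evFam_le m k hm (r := s * m) hs (Fin (Φ.dim ((k - s) * m)))
  obtain ⟨C₂, hC₂⟩ := Φ.exists_uFam_bounds m k s hm hs
  obtain ⟨μ', hμ'⟩ : ∃ μ', Φ.dim ((k - s) * m) = μ' + 1 := by
    refine ⟨Φ.dim ((k - s) * m) - 1, ?_⟩
    have : 2 * gen Qbar F ≤ (k - s) * m :=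
      le_trans (by omega : 2 * gen Qbar F ≤ m) (Nat.le_mul_of_pos_left m (by omega))
    have := Φ.dim_eq ((k - s) * m) (by omega)
    omega
  obtain ⟨C₃, hC₃⟩ := exists_compare (Fin (Φ.dim ((k - s) * m)))
    ((Fin (s * m) → Fin (Φ.dim m) × Fin (Φ.dim m)) × Fin (Φ.dim ((k - s * m) * m)))
    (Φ.dim (k * m)) μ'
  obtain ⟨μ, hμ⟩ : ∃ μ, μ + 1 + gen Qbar F + s * m = k * m + 1 :=
    ⟨k * m - s * m - gen Qbar F, by omega⟩
  obtain ⟨C₄, hC₄⟩ := Φ.exists_cFam_bounds m k (s * m) hm hs μ hμ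
  obtain ⟨C₅, hC₅⟩ := Φ.exists_hX_mul m hm (j := k - s * m) (by omega)
  obtain ⟨C₆, hC₆⟩ := Φ.exists_hX_mul m hm (j := k - s) (by omega)
  refine ⟨|C₁| + (μ' + 1 : ℝ) * |C₂| + |C₃| + |C₄| + |C₅| + |C₆|, fun w W Q hw0 hw hW hQ => ?_⟩
  set x := Φ.co (s * m) w with hxdef
  have hwx : Φ.wOf m s x = w := by rw [Frame.wOf, hxdef, Φ.sum_co _ hw]
  have hx : x ≠ 0 := fun h => hw0 ((Φ.co_eq_zero_iff _ hw).mp h)
  rw [← hwx] at hW
  obtain ⟨hcard, hmem, hli, hfr⟩ := Φ.uFam_props m k s hm hs hx hW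
  obtain ⟨A, hA⟩ := exists_ofTup W hcard
  have hAQ : ∀ i, A i ≠ Q := fun i h => hQ (hA ▸ mem_ofTup.mpr ⟨i, h⟩)
  obtain ⟨hb1, hb2, hb3⟩ := hC₂ x hx
  obtain ⟨he, hene⟩ := Φ.hgt_evFam_uFam m k s hm hs hx hW hQ
  have h1 := hC₁ A Q hAQ (Φ.uFam m k s x) (fun l => hA ▸ hmem l) hene
  rw [he, hA] at h1
  obtain ⟨-, -, hcup⟩ := hC₄ A
  obtain ⟨hec, hecne⟩ := Φ.hgt_evFam_cFam m k (s * m) (by omega) hs A Q hAQ
  have hplk : hgt (plk (Φ.uFam m k s x)) ≤ hgt (minors (ν := μ' + 1) (Φ.uFam m k s x)) := by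
    refine le_trans (le_of_eq ?_) (hgt_plk_le_minors _ (finCongr hμ'.symm))
    have e : ∀ {ν ν' : ℕ} (h : ν' = ν) (u : Fin ν → Fin (Φ.dim (k * m)) → Qbar),
        hgt (plk u) = hgt (plk (u ∘ finCongr h)) := by
      rintro ν ν' rfl u; rfl
    exact e hμ'.symm _
  have hmne : minors (ν := μ' + 1) (Φ.uFam m k s x) ≠ 0 :=
    exists_minors_ne_zero (V := Φ.VK m k W) (by omega) (span_range_eq_of_finrank hli hmem hfr)
  have h2 := hC₃ (Φ.VK m k W) (by omega) (Φ.uFam m k s x) _ (Φ.X (k * m) Q) hmem (fun J => by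
    rw [← hA, ← Φ.span_cFam m k (s * m) (by omega) hs A]; exact Submodule.subset_span ⟨J, rfl⟩)
    hmne hecne
  rw [he, hec] at h2
  have h5 := hC₅ Q
  have h6 := hC₆ Q
  rw [Nat.cast_sub (by omega : s * m ≤ k)] at h5
  rw [Nat.cast_sub (by omega : s ≤ k)] at h6
  have hcast : ((Φ.dim ((k - s) * m) : ℕ) : ℝ) = μ' + 1 := by exact_mod_cast hμ'
  rw [hcast] at hb1
  push_cast at h5
  have hbs : Φ.bsum m W Q + ∑ i, Φ.hX m (A i) + (s * m : ℝ) * Φ.hX m Q =
      ∑ i, hgt (Φ.wedge m (A i) Q) := by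
    rw [← hA, Φ.bsum_ofTup]
    simp only [Φ.bP_of_ne m (hAQ _), Finset.sum_sub_distrib, Finset.sum_const, Finset.card_univ,
      Fintype.card_fin, nsmul_eq_mul]
    push_cast
    ring
  obtain ⟨h5a, h5b⟩ := abs_le.mp h5
  obtain ⟨h6a, h6b⟩ := abs_le.mp h6
  have hμ0 : (0 : ℝ) ≤ μ' := Nat.cast_nonneg _
  have h7 : (μ' : ℝ) * hgt (flatFam (Φ.uFam m k s x)) ≤ (μ' : ℝ) * (hgt x + |C₂|) := by
    gcongr
    linarith [le_abs_self C₂]
  rw [abs_le]
  have h8 : 0 ≤ (μ' : ℝ) * |C₂| := mul_nonneg hμ0 (abs_nonneg C₂)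
  constructor <;> linarith [le_abs_self C₁, le_abs_self C₂, le_abs_self C₃, le_abs_self C₄,
    le_abs_self C₅, le_abs_self C₆, abs_nonneg C₁, abs_nonneg C₂, abs_nonneg C₃, abs_nonneg C₄,
    abs_nonneg C₅, abs_nonneg C₆]

/-- The height of the Plücker vector of `L(k m O - E)`. -/
def Frame.GH (E : Multiset (Place Qbar F)) : ℝ :=
  hgt (plk fun i => ((Module.finBasis Qbar (Φ.VK m k E)) i : Fin (Φ.dim (k * m)) → Qbar))

omit [IsFunctionField Qbar F] in
theorem Frame.GH_eq {E : Multiset (Place Qbar F)} {ν : ℕ}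
    {e : Fin ν → Fin (Φ.dim (k * m)) → Qbar} (he : LinearIndependent Qbar e)
    (hmem : ∀ i, e i ∈ Φ.VK m k E) (hν : Module.finrank Qbar (Φ.VK m k E) = ν) :
    hgt (plk e) = Φ.GH m k E := by
  subst hν
  set b := Module.finBasis Qbar (Φ.VK m k E)
  have hli : LinearIndependent Qbar fun i => (b i : Fin (Φ.dim (k * m)) → Qbar) :=
    b.linearIndependent.map' (Φ.VK m k E).subtype (Submodule.ker_subtype _)
  exact hgt_plk_eq (span_range_eq_of_finrank hli (fun i => (b i).2) rfl) he hmem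

/-- Adding a point to the divisor. -/
theorem Frame.exists_GH_cons (hm : 4 * gen Qbar F + 1 ≤ m) {r : ℕ} (hk : r + 3 ≤ k) :
    ∃ C : ℝ, ∀ (E : Multiset (Place Qbar F)) (Q : Place Qbar F), E.card = r → Q ∉ E →
      |Φ.GH m k (Q ::ₘ E) - Φ.GH m k E - (Φ.bsum m E Q + k * Φ.hX m Q)| ≤ C := by
  have hkm := kmul_bound hm hk
  obtain ⟨μ, hμ⟩ : ∃ μ, μ + 1 + gen Qbar F + r = k * m + 1 :=
    ⟨k * m - r - gen Qbar F, by omega⟩
  obtain ⟨C₁, hC₁⟩ :=
    Φ.exists_evFam_le m k hm (r := r) (by omega) (Fin μ → Fin (Φ.dim (k * m)))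
  obtain ⟨C₂, hC₂⟩ := exists_reproduce
    ((Fin r → Fin (Φ.dim m) × Fin (Φ.dim m)) × Fin (Φ.dim ((k - r) * m))) (Φ.dim (k * m)) μ
  obtain ⟨C₃, hC₃⟩ := Φ.exists_cFam_bounds m k r hm (by omega) μ hμ
  obtain ⟨C₄, hC₄⟩ := Φ.exists_hX_mul m hm (j := k - r) (by omega)
  refine ⟨|C₁| + |C₂| + |C₃| + |C₄|, fun E Q hE hQ => ?_⟩
  obtain ⟨A, hA⟩ := exists_ofTup E hE
  have hAQ : ∀ i, A i ≠ Q := fun i h => hQ (hA ▸ mem_ofTup.mpr ⟨i, h⟩)
  have hfr := Φ.finrank_VK m k (E := E) (by omega)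
  have hfr' := Φ.finrank_VK m k (E := Q ::ₘ E) (by rw [Multiset.card_cons]; omega)
  rw [Multiset.card_cons] at hfr'
  set D := Φ.DO (k * m) - msDiv E with hD
  have hDQ : D Q = Φ.DO (k * m) Q := by
    rw [hD, Finsupp.sub_apply, msDiv_apply_eq_zero.mpr hQ, sub_zero]
  have hD' : Φ.DO (k * m) - msDiv (Q ::ₘ E) = D - Finsupp.single Q 1 := by
    rw [hD, msDiv_cons]; abel
  obtain ⟨f₀, hf₀, hne₀⟩ := exists_ev_ne_zero Q (D := D)
    (by rw [hD, map_sub, Φ.degree_DO, degree_msDiv]; omega)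
  set b := Module.finBasisOfFinrankEq Qbar (Φ.VK m k (Q ::ₘ E)) (n := μ) (by omega)
  have hb : ∀ i, ∑ s, (b i : Fin (Φ.dim (k * m)) → Qbar) s * Φ.X (k * m) Q s = 0 := fun i => by
    obtain ⟨f, hf, hfe⟩ := (b i).2
    rw [← hfe, hD'] at *
    have hf' := (mem_rrSpace_sub_single Q).mp hf
    rw [← Φ.ev_eq_sum (k * m) Q (Φ.sub_msDiv_le _ E hf'.1), ← hDQ]
    exact hf'.2
  have hle : Φ.VK m k (Q ::ₘ E) ≤ Φ.VK m k E :=
    Submodule.map_mono (rrSpace_sub_msDiv_le (Multiset.le_cons_self E Q))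
  set e : Fin (μ + 1) → Fin (Φ.dim (k * m)) → Qbar :=
    Fin.cons (Φ.co (k * m) f₀) fun i => (b i : Fin (Φ.dim (k * m)) → Qbar) with hedef
  have he0 : ∑ s, e 0 s * Φ.X (k * m) Q s ≠ 0 := by
    rw [hedef, Fin.cons_zero, ← Φ.ev_eq_sum (k * m) Q (Φ.sub_msDiv_le _ E hf₀), ← hDQ]
    exact hne₀
  have hbli : LinearIndependent Qbar fun i => (b i : Fin (Φ.dim (k * m)) → Qbar) :=
    b.linearIndependent.map' (Φ.VK m k (Q ::ₘ E)).subtype (Submodule.ker_subtype _)
  have hli : LinearIndependent Qbar e := by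
    rw [hedef, linearIndependent_finCons]
    refine ⟨hbli, fun hmem => he0 ?_⟩
    obtain ⟨g, hg⟩ := Submodule.mem_span_range_iff_exists_fun Qbar |>.mp hmem
    rw [hedef, Fin.cons_zero, ← hg]
    simp only [Finset.sum_apply, Finset.sum_mul, Pi.smul_apply, smul_eq_mul, mul_assoc]
    rw [Finset.sum_comm]
    simp [← Finset.mul_sum, hb]
  have hemem : ∀ i, e i ∈ Φ.VK m k E := fun i => by
    refine Fin.cases ?_ (fun j => ?_) i
    · exact Φ.coord_mem m k hf₀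
    · exact hle (b j).2
  have hGE : hgt (plk e) = Φ.GH m k E := Φ.GH_eq m k hli hemem (by omega)
  have hGQ : hgt (plk fun i => (b i : Fin (Φ.dim (k * m)) → Qbar)) = Φ.GH m k (Q ::ₘ E) :=
    Φ.GH_eq m k hbli (fun i => (b i).2) (by omega)
  set v := fun τ' : Fin μ → Fin (Φ.dim (k * m)) => fun s => plk e (Fin.cons s τ') with hv
  have hev : evFam v (Φ.X (k * m) Q) =
      (∑ s, e 0 s * Φ.X (k * m) Q s) • plk fun i => (b i : Fin (Φ.dim (k * m)) → Qbar) := by
    funext τ'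
    rw [hv, evFam_contract e _ (fun i => by simpa [hedef] using hb i) τ']
    simp [hedef]
  have hevh : hgt (evFam v (Φ.X (k * m) Q)) = Φ.GH m k (Q ::ₘ E) := by
    rw [hev, hgt_smul _ he0, hGQ]
  have hevne : evFam v (Φ.X (k * m) Q) ≠ 0 := by
    rw [hev]; exact smul_ne_zero he0 (plk_ne_zero hbli)
  have hflat : hgt (flatFam v) = Φ.GH m k E := (hgt_flatFam_plk_cons e).trans hGE
  have h1 := hC₁ A Q hAQ v (fun τ' => hA ▸ plk_cons_mem hemem τ') hevne
  rw [hevh, hflat, hA] at h1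
  obtain ⟨hec, hecne⟩ := Φ.hgt_evFam_cFam m k r (by omega) (by omega) A Q hAQ
  obtain ⟨-, -, hcup⟩ := hC₃ A
  have h2 := hC₂ (Φ.VK m k E) (by omega) e _ (Φ.X (k * m) Q) hemem (fun J => by
    rw [← hA, ← Φ.span_cFam m k r (by omega) (by omega) A]; exact Submodule.subset_span ⟨J, rfl⟩)
    (plk_ne_zero hli) hecne
  change hgt (plk e) + _ ≤ _ + hgt (evFam v (Φ.X (k * m) Q)) + _ at h2
  rw [hGE, hec, hevh] at h2
  have hbs : Φ.bsum m E Q + ∑ i, Φ.hX m (A i) + (r : ℝ) * Φ.hX m Q =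
      ∑ i, hgt (Φ.wedge m (A i) Q) := by
    rw [← hA, Φ.bsum_ofTup]
    simp only [Φ.bP_of_ne m (hAQ _), Finset.sum_sub_distrib, Finset.sum_const, Finset.card_univ,
      Fintype.card_fin, nsmul_eq_mul]
    ring
  have h4 := hC₄ Q
  rw [Nat.cast_sub (by omega : r ≤ k)] at h4
  obtain ⟨h4a, h4b⟩ := abs_le.mp h4
  rw [abs_le]
  constructor <;> linarith [le_abs_self C₁, le_abs_self C₂, le_abs_self C₃, le_abs_self C₄,
    abs_nonneg C₁, abs_nonneg C₂, abs_nonneg C₃, abs_nonneg C₄]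

/-- The height of the Plücker vector of a reduced divisor, in closed form. -/
theorem Frame.exists_GH_formula (hm : 4 * gen Qbar F + 1 ≤ m) (r : ℕ) (hk : r + 2 ≤ k) :
    ∃ C : ℝ, ∀ E : Multiset (Place Qbar F), E.card = r → E.Nodup →
      |Φ.GH m k E - (k * Φ.hsum m E + Φ.bb m E E / 2)| ≤ C := by
  induction r with
  | zero =>
    refine ⟨|Φ.GH m k 0|, fun E hE _ => ?_⟩
    rw [Multiset.card_eq_zero.mp hE]
    simp [Frame.hsum, Frame.bb]
  | succ r ih =>
    obtain ⟨C, hC⟩ := ih (by omega)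
    obtain ⟨C', hC'⟩ := Φ.exists_GH_cons m k hm (r := r) (by omega)
    refine ⟨C + C', fun E hE hnd => ?_⟩
    obtain ⟨Q, hQ⟩ := Multiset.exists_mem_of_ne_zero (s := E) (fun h => by simp [h] at hE)
    obtain ⟨E', rfl⟩ := Multiset.exists_cons_of_mem hQ
    rw [Multiset.nodup_cons] at hnd
    rw [Multiset.card_cons, Nat.add_right_cancel_iff] at hE
    have h1 := hC E' hE hnd.2
    have h2 := hC' E' Q hE hnd.1
    have e1 : Φ.hsum m (Q ::ₘ E') = Φ.hX m Q + Φ.hsum m E' := by simp [Frame.hsum]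
    have e2 : Φ.bb m (Q ::ₘ E') (Q ::ₘ E') = Φ.bb m E' E' + 2 * Φ.bsum m E' Q := by
      rw [← Multiset.singleton_add, Φ.bb_add_left, Φ.bb_add_right, Φ.bb_add_right,
        Φ.bb_comm m {Q} E', Φ.bb_singleton_right, Φ.bb_singleton_right]
      have : Φ.bsum m {Q} Q = 0 := by simp [Frame.bsum, Frame.bP]
      rw [this]; ring
    rw [e1, e2, abs_le]
    obtain ⟨h1a, h1b⟩ := abs_le.mp h1
    obtain ⟨h2a, h2b⟩ := abs_le.mp h2
    constructor <;> linarith

/-- The Plücker height of a member of `|s m O|`. -/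
theorem Frame.exists_GH_principal (hm : 4 * gen Qbar F + 1 ≤ m) {s : ℕ} (hs : s * m + 2 ≤ k) :
    ∃ C : ℝ, ∀ (w : F) (W : Multiset (Place Qbar F)),
      w ≠ 0 → w ∈ riemannRochSpace (Φ.DO (s * m)) → msDiv W = Φ.DO (s * m) + divOf w →
      |Φ.GH m k W - Φ.dim ((k - s) * m) * hgt (Φ.co (s * m) w)| ≤ C := by
  obtain ⟨C, hC⟩ := Φ.exists_uFam_bounds m k s hm hs
  refine ⟨C, fun w W hw0 hw hW => ?_⟩
  set x := Φ.co (s * m) w with hxdef
  have hwx : Φ.wOf m s x = w := by rw [Frame.wOf, hxdef, Φ.sum_co _ hw]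
  have hx : x ≠ 0 := fun h => hw0 ((Φ.co_eq_zero_iff _ hw).mp h)
  rw [← hwx] at hW
  obtain ⟨-, hmem, hli, hfr⟩ := Φ.uFam_props m k s hm hs hx hW
  rw [← Φ.GH_eq m k hli hmem hfr, abs_le]
  obtain ⟨h1, h2, -⟩ := hC x hx
  constructor <;> linarith

end Fermat.Agent.MW

end
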