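import Fermat.Agent.MW.GoodPos

/-!
# Non-special sets of `g` places

In any infinite set of places there are `g` distinct ones whose sum does not move in a pencil.
Used for the implicit function argument on `X₀(N)_ℂ`.
-/

noncomputable section

open AlgebraicCurve Fermat.Agent.FF

namespace Fermat.Agent.MW

variable {K F : Type*} [Field K] [Field F] [Algebra K F] [IsAlgClosed K] [IsFunctionField K F]

/-- A condition that is not identically satisfied lowers the dimension by exactly one. -/
theorem ell_sub_single_add_one {D : Divisor K F} {v : Place K F} {f : F}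
    (hf : f ∈ riemannRochSpace D) (hne : ev v (D v) f ≠ 0) :
    ell (D - Finsupp.single v 1) + 1 = ell D := by
  have hsurj : LinearMap.range (evL v D) = ⊤ := LinearMap.range_eq_top.mpr fun c =>
    ⟨(c / ev v (D v) f) • ⟨f, hf⟩, by
      rw [map_smul, smul_eq_mul]
      exact div_mul_cancel₀ c hne⟩
  have hker : (LinearMap.ker (evL v D)).map (riemannRochSpace D).subtype =
      riemannRochSpace (D - Finsupp.single v 1) := by
    ext x
    simp only [Submodule.mem_map, LinearMap.mem_ker, Submodule.coe_subtype]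
    rw [mem_rrSpace_sub_single]
    exact ⟨fun ⟨y, hy, e⟩ => e ▸ ⟨y.2, hy⟩, fun ⟨hx, h0⟩ => ⟨⟨x, hx⟩, h0, rfl⟩⟩
  have h := LinearMap.finrank_range_add_finrank_ker (evL v D)
  rw [hsurj, finrank_top, Module.finrank_self,
    (Submodule.equivMapOfInjective _ (riemannRochSpace D).injective_subtype _).finrank_eq,
    hker] at h
  unfold ell
  omega

/-- `g` distinct places in a given infinite set, not moving in a pencil. -/
theorem exists_nonspecial {Good : Set (Place K F)} (hGood : Good.Infinite)
    (S : Finset (Place K F)) :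
    ∃ P : Multiset (Place K F), P.Nodup ∧ P.card = gen K F ∧
      (∀ v ∈ P, v ∈ Good ∧ v ∉ S) ∧ ell (msDiv P) = 1 := by
  classical
  obtain ⟨W, hW, hWg, -, hRR⟩ := exists_riemann_roch (K := K) (F := F)
  have key : ∀ j, j ≤ gen K F → ∃ P : Multiset (Place K F), P.Nodup ∧ P.card = j ∧
      (∀ v ∈ P, v ∈ Good ∧ v ∉ S) ∧ ell (W - msDiv P) + j = gen K F := by
    intro j
    induction j with
    | zero => exact fun _ => ⟨0, by simp, rfl, by simp, by simp [msDiv_zero, hWg]⟩
    | succ j ih =>
      intro hj
      obtain ⟨P, hnd, hc, hP, hl⟩ := ih (by omega)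
      obtain ⟨f, hf0, hf⟩ := exists_ne_zero_of_ell_pos (D := W - msDiv P) (by omega)
      obtain ⟨v, hvG, hv⟩ := (hGood.sdiff ((S ∪ P.toFinset).finite_toSet.union
        ((finite_ord_ne_zero (K := K) f).union (W - msDiv P).hasFiniteSupport))).nonempty
      simp only [Set.mem_union, Finset.mem_coe, Finset.mem_union, Multiset.mem_toFinset,
        Set.mem_ofPred_eq, Function.mem_support, not_or, not_not] at hv
      obtain ⟨⟨hvS, hvP⟩, hvf, hvD⟩ := hv
      have hne : ev v ((W - msDiv P) v) f ≠ 0 := by
        rw [ev_ne_zero_iff v (hf v) hf0, hvf, hvD, neg_zero]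
      have h1 := ell_sub_single_add_one hf hne
      refine ⟨v ::ₘ P, Multiset.nodup_cons.mpr ⟨hvP, hnd⟩, by rw [Multiset.card_cons, hc], ?_, ?_⟩
      · intro w hw
        rcases Multiset.mem_cons.mp hw with rfl | hw
        · exact ⟨hvG, hvS⟩
        · exact hP w hw
      · rw [msDiv_cons, show W - (Finsupp.single v 1 + msDiv P) =
          W - msDiv P - Finsupp.single v 1 by abel]
        omega
  obtain ⟨P, hnd, hc, hP, hl⟩ := key _ le_rfl
  refine ⟨P, hnd, hc, hP, ?_⟩
  have h := hRR (msDiv P)
  rw [degree_msDiv, hc] at h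
  have h2 : ell (W - msDiv P) = 0 := by omega
  rw [h2] at h
  change (ell (msDiv P) : ℤ) - _ = (gen K F : ℤ) + 1 - (gen K F : ℤ) at h
  omega

end Fermat.Agent.MW

end
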