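import Fermat.Agent.MW.GoodPos
import Fermat.Agent.MW.MainLemma

/-!
# A quasi-bilinear pairing on divisor classes of degree zero

The pairing of two classes is computed on disjoint representatives; it is independent of the
choice and bilinear up to bounded amounts. Its diagonal is the quadratic height of the descent.
-/

noncomputable section

open AlgebraicCurve Fermat.Agent.FF

namespace Fermat.Agent.MW

variable {F : Type*} [Field F] [Algebra Qbar F] [IsFunctionField Qbar F] (Φ : Frame Qbar F)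

variable (F) in
/-- The degree `d = 2g + 1` of the chosen representatives of classes. -/
def dd : ℕ := 2 * gen Qbar F + 1

variable (F) in
/-- The level `m = 2d` at which points are embedded and paired. -/
def mm : ℕ := 2 * dd F

variable (F) in
/-- The multiplier `k = 4d + 2`: Plücker heights are taken in `L(k m O)`. -/
def kk : ℕ := 4 * dd F + 2

omit [IsFunctionField Qbar F] in
theorem mm_bound : 4 * gen Qbar F + 1 ≤ mm F := by unfold mm dd; omega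

omit [IsFunctionField Qbar F] in
theorem mm_kk {s : ℕ} (hs : s ≤ 2) : s * mm F + 2 ≤ kk F := by
  unfold mm kk
  nlinarith [Nat.zero_le (dd F)]

/-- `A - A₀` represents the class `z`. -/
def IsRep (z : Pic0 Qbar F) (A A₀ : Multiset (Place Qbar F)) : Prop :=
  ∃ D : Divisor.degZero (K := Qbar) (F := F),
    Pic0.mk D = z ∧ LinEq (msDiv A - msDiv A₀) (D : Divisor Qbar F)

omit [IsFunctionField Qbar F] in
theorem mk_eq_mk_iff {D E : Divisor.degZero (K := Qbar) (F := F)} :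
    Pic0.mk D = Pic0.mk E ↔
      (D : Divisor Qbar F) - E ∈ Divisor.principal (K := Qbar) (F := F) := by
  rw [Pic0.mk, Pic0.mk, QuotientAddGroup.eq, AddSubgroup.mem_addSubgroupOf, AddSubgroup.coe_add,
    AddSubgroup.coe_neg, ← neg_mem_iff]
  simp [sub_eq_add_neg, add_comm]

theorem mk_eq_mk_iff_linEq {D E : Divisor.degZero (K := Qbar) (F := F)} :
    Pic0.mk D = Pic0.mk E ↔ LinEq (D : Divisor Qbar F) E := by
  rw [mk_eq_mk_iff, linEq_iff_mem_principal]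

theorem IsRep.linEq {z : Pic0 Qbar F} {A A₀ B B₀ : Multiset (Place Qbar F)}
    (h₁ : IsRep z A A₀) (h₂ : IsRep z B B₀) : LinEq (msDiv (A + B₀)) (msDiv (B + A₀)) := by
  obtain ⟨D, hD, h₁⟩ := h₁
  obtain ⟨E, hE, h₂⟩ := h₂
  have h3 : LinEq (msDiv A - msDiv A₀) (msDiv B - msDiv B₀) :=
    h₁.trans ((mk_eq_mk_iff_linEq.mp (hD.trans hE.symm)).trans h₂.symm)
  have := h3.add (LinEq.refl (msDiv A₀ + msDiv B₀))
  convert this using 1 <;> rw [msDiv_add] <;> abel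

theorem IsRep.card_eq {z : Pic0 Qbar F} {A A₀ : Multiset (Place Qbar F)} (h : IsRep z A A₀) :
    A.card = A₀.card := by
  obtain ⟨D, -, h⟩ := h
  have := h.degree_eq
  rw [map_sub, degree_msDiv, degree_msDiv, Divisor.mem_degZero.mp D.2] at this
  omega

theorem IsRep.add {z w : Pic0 Qbar F} {A A₀ B B₀ : Multiset (Place Qbar F)}
    (h₁ : IsRep z A A₀) (h₂ : IsRep w B B₀) : IsRep (z + w) (A + B) (A₀ + B₀) := by
  obtain ⟨D, rfl, h₁⟩ := h₁
  obtain ⟨E, rfl, h₂⟩ := h₂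
  refine ⟨D + E, Pic0.mk_add D E, ?_⟩
  rw [AddSubgroup.coe_add]
  convert h₁.add h₂ using 1
  rw [msDiv_add, msDiv_add]; abel

/-- Every class has representatives of degree `d` avoiding a given finite set. -/
theorem exists_rep (Φ : Frame Qbar F) (z : Pic0 Qbar F) (S : Finset (Place Qbar F)) :
    ∃ A A₀ : Multiset (Place Qbar F), IsRep z A A₀ ∧ A.card = dd F ∧ A₀.card = dd F ∧
      (∀ v ∈ S, v ∉ A) ∧ (∀ v ∈ S, v ∉ A₀) := by
  obtain ⟨D, rfl⟩ := Pic0.mk_surjective z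
  obtain ⟨A₀, hA₀, hA₀S⟩ := exists_member_avoiding (D := Φ.DO (dd F))
    (by rw [Φ.degree_DO]; unfold dd; push_cast; omega) S
  have hc₀ : (A₀.card : ℤ) = dd F := by
    rw [← degree_msDiv, hA₀.degree_eq, Φ.degree_DO]
  obtain ⟨A, hA, hAS⟩ := exists_member_avoiding (D := (D : Divisor Qbar F) + msDiv A₀)
    (by rw [map_add, Divisor.mem_degZero.mp D.2, degree_msDiv, hc₀]; unfold dd; push_cast; omega) S
  have hc : (A.card : ℤ) = dd F := by
    rw [← degree_msDiv, hA.degree_eq, map_add, Divisor.mem_degZero.mp D.2, degree_msDiv, hc₀,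
      zero_add]
  refine ⟨A, A₀, ⟨D, rfl, ?_⟩, by exact_mod_cast hc, by exact_mod_cast hc₀, hAS, hA₀S⟩
  simpa using hA.sub (LinEq.refl (msDiv A₀))

/-- The pairing of two representatives. -/
def Frame.pairVal (A A₀ B B₀ : Multiset (Place Qbar F)) : ℝ :=
  Φ.bb (mm F) A B - Φ.bb (mm F) A B₀ - Φ.bb (mm F) A₀ B + Φ.bb (mm F) A₀ B₀

omit [IsFunctionField Qbar F] in
/-- Two representatives have disjoint supports. -/
def DisjRep (A A₀ B B₀ : Multiset (Place Qbar F)) : Prop := ∀ v ∈ A + A₀, v ∉ B + B₀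

omit [IsFunctionField Qbar F] in
theorem DisjRep.symm {A A₀ B B₀ : Multiset (Place Qbar F)} (h : DisjRep A A₀ B B₀) :
    DisjRep B B₀ A A₀ := fun v hv hv' => h v hv' hv

theorem Frame.pairVal_comm (A A₀ B B₀ : Multiset (Place Qbar F)) :
    Φ.pairVal A A₀ B B₀ = Φ.pairVal B B₀ A A₀ := by
  simp only [Frame.pairVal, Φ.bb_comm _ B A, Φ.bb_comm _ B₀ A, Φ.bb_comm _ B A₀,
    Φ.bb_comm _ B₀ A₀]
  ring

theorem Frame.mem_of_msDiv_eq {n : ℕ} {W : Multiset (Place Qbar F)} {w : F} (hw : w ≠ 0)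
    (h : msDiv W = Φ.DO n + divOf w) : w ∈ riemannRochSpace (Φ.DO n) := by
  rw [mem_rrSpace_of_ord hw]
  intro v
  have h1 := DFunLike.congr_fun h v
  have h2 := msDiv_nonneg W v
  simp only [Finsupp.coe_zero, Pi.zero_apply] at h2
  rw [Finsupp.add_apply, divOf_apply] at h1
  omega

/-- A sum of terms all within `C` of `c` is within `#R * C` of `#R * c`. -/
theorem abs_sum_map_sub_le {α : Type*} {R : Multiset α} {f : α → ℝ} {c C : ℝ}
    (h : ∀ Q ∈ R, |f Q - c| ≤ C) : |(R.map f).sum - R.card * c| ≤ R.card * C := by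
  induction R using Multiset.induction_on with
  | empty => simp
  | cons Q R ih =>
    obtain ⟨h1, h2⟩ := abs_le.mp (h Q (Multiset.mem_cons_self Q R))
    obtain ⟨h3, h4⟩ := abs_le.mp (ih fun Q' hQ' => h Q' (Multiset.mem_cons_of_mem hQ'))
    rw [Multiset.map_cons, Multiset.sum_cons, Multiset.card_cons, abs_le]
    push_cast
    constructor <;> linarith

/-- Invariance of the pairing under linear equivalence. -/
theorem Frame.exists_invariance :
    ∃ C : ℝ, ∀ A A' R₁ R₂ : Multiset (Place Qbar F), LinEq (msDiv A) (msDiv A') →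
      A.card ≤ 3 * dd F → R₁.card = R₂.card → R₁.card ≤ 3 * dd F →
      (∀ Q ∈ R₁ + R₂, Q ∉ A + A') →
      |(Φ.bb (mm F) A R₁ - Φ.bb (mm F) A' R₁) - (Φ.bb (mm F) A R₂ - Φ.bb (mm F) A' R₂)| ≤ C := by
  classical
  obtain ⟨C, hC⟩ := Φ.exists_pairing_bound (mm F) (kk F) mm_bound (s := 2) (mm_kk le_rfl)
  refine ⟨12 * dd F * |C|, fun A A' R₁ R₂ hAA hA hR hR1 hdisj => ?_⟩
  obtain ⟨X, hX, hXS⟩ := exists_member_avoiding (D := Φ.DO (2 * mm F) - msDiv A)
    (by rw [map_sub, Φ.degree_DO, degree_msDiv]; unfold mm dd at *; push_cast; omega)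
    (R₁ + R₂).toFinset
  obtain ⟨w, hw0, hw⟩ : LinEq (msDiv (A + X)) (Φ.DO (2 * mm F)) := by
    rw [msDiv_add]
    have := (LinEq.refl (msDiv A)).add hX
    rwa [add_sub_cancel] at this
  obtain ⟨w', hw0', hw'⟩ : LinEq (msDiv (A' + X)) (Φ.DO (2 * mm F)) := by
    rw [msDiv_add]
    have := hAA.symm.add hX
    rwa [add_sub_cancel] at this
  have key : ∀ Q ∈ R₁ + R₂, |Φ.bsum (mm F) A Q - Φ.bsum (mm F) A' Q -
      (hgt (Φ.co (2 * mm F) w') - hgt (Φ.co (2 * mm F) w))| ≤ 2 * |C| := fun Q hQ => by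
    have h1 := hdisj Q hQ
    have h2 := hXS Q (Multiset.mem_toFinset.mpr hQ)
    rw [Multiset.mem_add, not_or] at h1
    have e1 := hC w (A + X) Q hw0 (Φ.mem_of_msDiv_eq hw0 hw) hw
      (by rw [Multiset.mem_add, not_or]; exact ⟨h1.1, h2⟩)
    have e2 := hC w' (A' + X) Q hw0' (Φ.mem_of_msDiv_eq hw0' hw') hw'
      (by rw [Multiset.mem_add, not_or]; exact ⟨h1.2, h2⟩)
    rw [Φ.bsum_add] at e1 e2
    obtain ⟨a, b⟩ := abs_le.mp e1
    obtain ⟨c, d⟩ := abs_le.mp e2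
    rw [abs_le]
    constructor <;> linarith [le_abs_self C]
  have hb : ∀ R : Multiset (Place Qbar F), Φ.bb (mm F) A R - Φ.bb (mm F) A' R =
      (R.map fun Q => Φ.bsum (mm F) A Q - Φ.bsum (mm F) A' Q).sum := fun R => by
    simp [Frame.bb, Multiset.sum_map_sub]
  rw [hb, hb]
  have h1 := abs_sum_map_sub_le (R := R₁) fun Q hQ => key Q (Multiset.mem_add.mpr (Or.inl hQ))
  have h2 := abs_sum_map_sub_le (R := R₂) fun Q hQ => key Q (Multiset.mem_add.mpr (Or.inr hQ))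
  rw [← hR] at h2
  have h3 : (R₁.card : ℝ) * (2 * |C|) ≤ 6 * dd F * |C| := by
    have : (R₁.card : ℝ) ≤ 3 * dd F := by exact_mod_cast hR1
    calc (R₁.card : ℝ) * (2 * |C|) ≤ 3 * dd F * (2 * |C|) := by gcongr
      _ = 6 * dd F * |C| := by ring
  obtain ⟨a, b⟩ := abs_le.mp h1
  obtain ⟨c, d⟩ := abs_le.mp h2
  rw [abs_le]
  constructor <;> linarith

/-- The pairing of two classes depends on the representatives only up to a bounded amount. -/
theorem Frame.exists_pair_indep :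
    ∃ C : ℝ, ∀ (z : Pic0 Qbar F) (A A₀ A' A₀' B B₀ : Multiset (Place Qbar F)),
      IsRep z A A₀ → IsRep z A' A₀' → A.card + A'.card ≤ 3 * dd F →
      B.card = B₀.card → B.card ≤ 3 * dd F → DisjRep A A₀ B B₀ → DisjRep A' A₀' B B₀ →
      |Φ.pairVal A A₀ B B₀ - Φ.pairVal A' A₀' B B₀| ≤ C := by
  obtain ⟨C, hC⟩ := Φ.exists_invariance
  refine ⟨C, fun z A A₀ A' A₀' B B₀ h h' hc hB hB3 hd hd' => ?_⟩
  have h1 := hC (A + A₀') (A' + A₀) B B₀ (h.linEq h')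
    (by rw [Multiset.card_add, ← h'.card_eq]; exact hc) hB hB3 (fun Q hQ hQ' => by
      rcases Multiset.mem_add.mp hQ' with hq | hq <;> rcases Multiset.mem_add.mp hq with hq | hq
      · exact hd Q (Multiset.mem_add.mpr (Or.inl hq)) hQ
      · exact hd' Q (Multiset.mem_add.mpr (Or.inr hq)) hQ
      · exact hd' Q (Multiset.mem_add.mpr (Or.inl hq)) hQ
      · exact hd Q (Multiset.mem_add.mpr (Or.inr hq)) hQ)
  simp only [Φ.bb_add_left] at h1
  refine le_of_eq_of_le ?_ h1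
  congr 1
  simp only [Frame.pairVal]
  ring

omit [IsFunctionField Qbar F] in
theorem disjRep_of_avoid {A A₀ B B₀ : Multiset (Place Qbar F)} (S : Finset (Place Qbar F))
    (hS : ∀ v ∈ A + A₀, v ∈ S) (hB : ∀ v ∈ S, v ∉ B) (hB₀ : ∀ v ∈ S, v ∉ B₀) :
    DisjRep A A₀ B B₀ := fun v hv => by
  rw [Multiset.mem_add, not_or]
  exact ⟨hB v (hS v hv), hB₀ v (hS v hv)⟩

/-- Positive part of the chosen representative of a class. -/
def Frame.repA (z : Pic0 Qbar F) : Multiset (Place Qbar F) :=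
  (exists_rep Φ z ∅).choose

/-- Negative part of the chosen representative of a class. -/
def Frame.repA₀ (z : Pic0 Qbar F) : Multiset (Place Qbar F) :=
  (exists_rep Φ z ∅).choose_spec.choose

theorem Frame.repA_spec (z : Pic0 Qbar F) :
    IsRep z (Φ.repA z) (Φ.repA₀ z) ∧ (Φ.repA z).card = dd F ∧ (Φ.repA₀ z).card = dd F :=
  let h := (exists_rep Φ z ∅).choose_spec.choose_spec
  ⟨h.1, h.2.1, h.2.2.1⟩

open Classical in
/-- Positive part of a representative of `w`, avoiding the representatives of `z`. -/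
def Frame.repB (z w : Pic0 Qbar F) : Multiset (Place Qbar F) :=
  (exists_rep Φ w (Φ.repA z + Φ.repA₀ z).toFinset).choose

open Classical in
/-- Negative part of a representative of `w`, avoiding the representatives of `z`. -/
def Frame.repB₀ (z w : Pic0 Qbar F) : Multiset (Place Qbar F) :=
  (exists_rep Φ w (Φ.repA z + Φ.repA₀ z).toFinset).choose_spec.choose

theorem Frame.repB_spec (z w : Pic0 Qbar F) :
    IsRep w (Φ.repB z w) (Φ.repB₀ z w) ∧ (Φ.repB z w).card = dd F ∧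
      (Φ.repB₀ z w).card = dd F ∧
      DisjRep (Φ.repA z) (Φ.repA₀ z) (Φ.repB z w) (Φ.repB₀ z w) := by
  classical
  obtain ⟨h1, h2, h3, h4, h5⟩ :=
    (exists_rep Φ w (Φ.repA z + Φ.repA₀ z).toFinset).choose_spec.choose_spec
  exact ⟨h1, h2, h3, disjRep_of_avoid _ (fun v hv => Multiset.mem_toFinset.mpr hv) h4 h5⟩

/-- The pairing of two classes. -/
def Frame.BP (z w : Pic0 Qbar F) : ℝ :=
  Φ.pairVal (Φ.repA z) (Φ.repA₀ z) (Φ.repB z w) (Φ.repB₀ z w)

/-- The pairing of two classes is computed by any disjoint representatives of bounded degree, up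
to a constant. -/
theorem Frame.exists_BP_spec :
    ∃ C : ℝ, ∀ (z w : Pic0 Qbar F) (A A₀ B B₀ : Multiset (Place Qbar F)),
      IsRep z A A₀ → IsRep w B B₀ → A.card ≤ 2 * dd F → B.card ≤ 2 * dd F →
      DisjRep A A₀ B B₀ → |Φ.BP z w - Φ.pairVal A A₀ B B₀| ≤ C := by
  classical
  obtain ⟨C, hC⟩ := Φ.exists_pair_indep
  refine ⟨3 * C, fun z w A A₀ B B₀ hA hB hAc hBc hd => ?_⟩
  obtain ⟨hz, hzc, hzc₀⟩ := Φ.repA_spec z
  obtain ⟨hw, hwc, hwc₀, hzw⟩ := Φ.repB_spec z w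
  obtain ⟨E, E₀, hE, hEc, hEc₀, hES, hES₀⟩ :=
    exists_rep Φ w ((Φ.repA z + Φ.repA₀ z).toFinset ∪ (A + A₀).toFinset)
  have d1 : DisjRep (Φ.repA z) (Φ.repA₀ z) E E₀ := disjRep_of_avoid _
    (fun v hv => Finset.mem_union_left _ (Multiset.mem_toFinset.mpr hv)) hES hES₀
  have d2 : DisjRep A A₀ E E₀ := disjRep_of_avoid _
    (fun v hv => Finset.mem_union_right _ (Multiset.mem_toFinset.mpr hv)) hES hES₀
  have e1 := hC w (Φ.repB z w) (Φ.repB₀ z w) E E₀ (Φ.repA z) (Φ.repA₀ z) hw hE (by omega)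
    (by omega) (by omega) hzw.symm d1.symm
  have e2 := hC z (Φ.repA z) (Φ.repA₀ z) A A₀ E E₀ hz hA (by omega) (by omega) (by omega) d1 d2
  have e3 := hC w E E₀ B B₀ A A₀ hE hB (by omega) hA.card_eq (by omega) d2.symm hd.symm
  rw [Φ.pairVal_comm (Φ.repB z w), Φ.pairVal_comm E] at e1
  rw [Φ.pairVal_comm E, Φ.pairVal_comm B] at e3
  rw [Frame.BP]
  obtain ⟨a1, b1⟩ := abs_le.mp e1
  obtain ⟨a2, b2⟩ := abs_le.mp e2
  obtain ⟨a3, b3⟩ := abs_le.mp e3
  rw [abs_le]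
  constructor <;> linarith

/-- The pairing is symmetric up to a bounded amount. -/
theorem Frame.exists_BP_comm : ∃ C : ℝ, ∀ z w : Pic0 Qbar F, |Φ.BP z w - Φ.BP w z| ≤ C := by
  obtain ⟨C, hC⟩ := Φ.exists_BP_spec
  refine ⟨C, fun z w => ?_⟩
  obtain ⟨hw, hwc, hwc₀⟩ := Φ.repA_spec w
  obtain ⟨hz, hzc, hzc₀, hd⟩ := Φ.repB_spec w z
  have h := hC z w _ _ _ _ hz hw (by omega) (by omega) hd.symm
  rwa [Φ.pairVal_comm] at h

/-- The pairing is additive up to a bounded amount. -/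
theorem Frame.exists_BP_add :
    ∃ C : ℝ, ∀ z₁ z₂ w : Pic0 Qbar F, |Φ.BP (z₁ + z₂) w - Φ.BP z₁ w - Φ.BP z₂ w| ≤ C := by
  classical
  obtain ⟨C, hC⟩ := Φ.exists_BP_spec
  refine ⟨3 * C, fun z₁ z₂ w => ?_⟩
  obtain ⟨h₁, c₁, c₁₀⟩ := Φ.repA_spec z₁
  obtain ⟨h₂, c₂, c₂₀⟩ := Φ.repA_spec z₂
  obtain ⟨B, B₀, hB, hBc, hBc₀, hBS, hBS₀⟩ := exists_rep Φ w
    ((Φ.repA z₁ + Φ.repA₀ z₁).toFinset ∪ (Φ.repA z₂ + Φ.repA₀ z₂).toFinset)
  have d1 : DisjRep (Φ.repA z₁) (Φ.repA₀ z₁) B B₀ := disjRep_of_avoid _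
    (fun v hv => Finset.mem_union_left _ (Multiset.mem_toFinset.mpr hv)) hBS hBS₀
  have d2 : DisjRep (Φ.repA z₂) (Φ.repA₀ z₂) B B₀ := disjRep_of_avoid _
    (fun v hv => Finset.mem_union_right _ (Multiset.mem_toFinset.mpr hv)) hBS hBS₀
  have d3 : DisjRep (Φ.repA z₁ + Φ.repA z₂) (Φ.repA₀ z₁ + Φ.repA₀ z₂) B B₀ := fun v hv => by
    simp only [Multiset.mem_add] at hv
    rcases hv with (hv | hv) | (hv | hv)
    · exact d1 v (Multiset.mem_add.mpr (Or.inl hv))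
    · exact d2 v (Multiset.mem_add.mpr (Or.inl hv))
    · exact d1 v (Multiset.mem_add.mpr (Or.inr hv))
    · exact d2 v (Multiset.mem_add.mpr (Or.inr hv))
  have e1 := hC z₁ w _ _ B B₀ h₁ hB (by omega) (by omega) d1
  have e2 := hC z₂ w _ _ B B₀ h₂ hB (by omega) (by omega) d2
  have e3 := hC (z₁ + z₂) w _ _ B B₀ (h₁.add h₂) hB (by rw [Multiset.card_add]; omega) (by omega) d3
  have hsum : Φ.pairVal (Φ.repA z₁ + Φ.repA z₂) (Φ.repA₀ z₁ + Φ.repA₀ z₂) B B₀ =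
      Φ.pairVal (Φ.repA z₁) (Φ.repA₀ z₁) B B₀ + Φ.pairVal (Φ.repA z₂) (Φ.repA₀ z₂) B B₀ := by
    simp only [Frame.pairVal, Φ.bb_add_left]; ring
  rw [hsum] at e3
  obtain ⟨a1, b1⟩ := abs_le.mp e1
  obtain ⟨a2, b2⟩ := abs_le.mp e2
  obtain ⟨a3, b3⟩ := abs_le.mp e3
  rw [abs_le]
  constructor <;> linarith

/-- The quadratic height of a class: its pairing with itself. -/
def Frame.qH (z : Pic0 Qbar F) : ℝ := Φ.BP z z

/-- The quasi parallelogram law. -/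
theorem Frame.exists_parallelogram :
    ∃ C : ℝ, ∀ x y : Pic0 Qbar F,
      |Φ.qH (x + y) + Φ.qH (x - y) - 2 * (Φ.qH x + Φ.qH y)| ≤ C := by
  obtain ⟨C₁, hC₁⟩ := Φ.exists_BP_add
  obtain ⟨C₂, hC₂⟩ := Φ.exists_BP_comm
  have h0 : ∀ w, |Φ.BP 0 w| ≤ C₁ := fun w => by
    have := hC₁ 0 0 w
    rw [add_zero] at this
    rwa [show Φ.BP 0 w - Φ.BP 0 w - Φ.BP 0 w = -Φ.BP 0 w by ring, abs_neg] at this
  have hneg : ∀ y w, |Φ.BP (-y) w + Φ.BP y w| ≤ 2 * C₁ := fun y w => by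
    have h1 := hC₁ (-y) y w
    rw [neg_add_cancel] at h1
    obtain ⟨a, b⟩ := abs_le.mp h1
    obtain ⟨c, d⟩ := abs_le.mp (h0 w)
    rw [abs_le]
    constructor <;> linarith
  have hr : ∀ z u v, |Φ.BP z (u + v) - Φ.BP z u - Φ.BP z v| ≤ C₁ + 3 * C₂ := fun z u v => by
    obtain ⟨a, b⟩ := abs_le.mp (hC₁ u v z)
    obtain ⟨c1, d1⟩ := abs_le.mp (hC₂ z (u + v))
    obtain ⟨c2, d2⟩ := abs_le.mp (hC₂ z u)
    obtain ⟨c3, d3⟩ := abs_le.mp (hC₂ z v)
    rw [abs_le]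
    constructor <;> linarith
  refine ⟨40 * |C₁| + 40 * |C₂|, fun x y => ?_⟩
  simp only [Frame.qH, sub_eq_add_neg x y]
  obtain ⟨p1, p2⟩ := abs_le.mp (hC₁ x y (x + y))
  obtain ⟨p3, p4⟩ := abs_le.mp (hr x x y)
  obtain ⟨p5, p6⟩ := abs_le.mp (hr y x y)
  obtain ⟨p7, p8⟩ := abs_le.mp (hC₁ x (-y) (x + -y))
  obtain ⟨p9, p10⟩ := abs_le.mp (hr x x (-y))
  obtain ⟨p11, p12⟩ := abs_le.mp (hr (-y) x (-y))
  obtain ⟨p13, p14⟩ := abs_le.mp (hneg y x)
  obtain ⟨p15, p16⟩ := abs_le.mp (hneg y (-y))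
  obtain ⟨p17, p18⟩ := abs_le.mp (hneg y y)
  obtain ⟨p19, p20⟩ := abs_le.mp (hC₂ x y)
  obtain ⟨p21, p22⟩ := abs_le.mp (hC₂ x (-y))
  obtain ⟨p23, p24⟩ := abs_le.mp (hC₂ y (-y))
  rw [abs_le]
  constructor <;> linarith [le_abs_self C₁, le_abs_self C₂, abs_nonneg C₁, abs_nonneg C₂]

end Fermat.Agent.MW

end
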