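import Fermat.Agent.MW.MainLemma

/-!
# Tensors of levels are determined by their values on tuples of places

A tensor of coordinates of level `n` is zero if it vanishes at all tuples of places, and two
nonzero ones are simultaneously nonzero somewhere. Used to identify Kummer vectors by values.
-/

noncomputable section

open AlgebraicCurve Fermat.Agent.FF

namespace Fermat.Agent.MW

variable {F : Type*} [Field F] [Algebra Qbar F] [IsFunctionField Qbar F] (Φ : Frame Qbar F)

/-- The value of a tensor at a tuple of places. -/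
def Frame.tEval {ν n : ℕ} (c : (Fin ν → Fin (Φ.dim n)) → Qbar) (T : Fin ν → Place Qbar F) : Qbar :=
  ∑ θ, c θ * ∏ l, Φ.X n (T l) (θ l)

theorem Frame.tEval_cons {ν n : ℕ} (c : (Fin (ν + 1) → Fin (Φ.dim n)) → Qbar)
    (P : Place Qbar F) (T : Fin ν → Place Qbar F) :
    Φ.tEval c (Fin.cons P T) =
      Φ.tEval (fun θ' => ∑ s, c (Fin.cons s θ') * Φ.X n P s) T := by
  simp only [Frame.tEval]
  rw [← (Fin.consEquiv fun _ => Fin (Φ.dim n)).sum_comp, Fintype.sum_prod_type, Finset.sum_comm]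
  refine Finset.sum_congr rfl fun θ' _ => ?_
  rw [Finset.sum_mul]
  refine Finset.sum_congr rfl fun s _ => ?_
  simp [Fin.consEquiv, Fin.prod_univ_succ, mul_assoc]

theorem Frame.ev_ne_zero_of_ord {n : ℕ} {f : F} (hf : f ∈ riemannRochSpace (Φ.DO n))
    (hf0 : f ≠ 0) {P : Place Qbar F} (h1 : Φ.DO n P = 0) (h2 : P.ord f = 0) :
    ev P (Φ.DO n P) f ≠ 0 := by
  rw [ev_ne_zero_iff P (hf P) hf0, h1, h2]; rfl

/-- The bad set of a function of level `n`. -/
theorem Frame.finite_ev_zero {n : ℕ} {f : F} (hf : f ∈ riemannRochSpace (Φ.DO n)) (hf0 : f ≠ 0) :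
    {P : Place Qbar F | ev P (Φ.DO n P) f = 0}.Finite := by
  refine ((finite_ord_ne_zero (K := Qbar) f).union (Φ.DO n).hasFiniteSupport).subset fun P hP => ?_
  by_contra h
  simp only [Set.mem_union, Set.mem_ofPred_eq, Function.mem_support, not_or, not_not] at h
  exact Φ.ev_ne_zero_of_ord hf hf0 h.2 h.1 hP

/-- A nonzero linear form vanishes at only finitely many points. -/
theorem Frame.finite_slice_zero {n : ℕ} {a : Fin (Φ.dim n) → Qbar} (ha : a ≠ 0) :
    {P : Place Qbar F | ∑ s, a s * Φ.X n P s = 0}.Finite := by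
  classical
  set f := ∑ s, a s • Φ.fn n s with hfdef
  have hmem : f ∈ riemannRochSpace (Φ.DO n) :=
    Submodule.sum_mem _ fun s _ => Submodule.smul_mem _ _ (Φ.fn_mem n s)
  have hco : Φ.co n f = a := by
    simp only [hfdef, map_sum, map_smul, Φ.co_fn]
    exact (pi_eq_sum_univ' a).symm
  have hf0 : f ≠ 0 := fun h => ha (by rw [← hco, h, map_zero])
  refine (Φ.finite_ev_zero hmem hf0).subset fun P hP => ?_
  show ev P (Φ.DO n P) f = 0
  rw [Φ.ev_eq_sum n P hmem, hco]
  exact hP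

/-- Two nonzero tensors are simultaneously nonzero at some tuple of distinct places. -/
theorem Frame.exists_tEval_ne_zero {n n' : ℕ} : ∀ {ν : ℕ}
    (c : (Fin ν → Fin (Φ.dim n)) → Qbar) (c' : (Fin ν → Fin (Φ.dim n')) → Qbar),
    c ≠ 0 → c' ≠ 0 → ∀ S : Finset (Place Qbar F), ∃ T : Fin ν → Place Qbar F,
      (∀ l, T l ∉ S) ∧ Function.Injective T ∧ Φ.tEval c T ≠ 0 ∧ Φ.tEval c' T ≠ 0 := by
  intro ν
  induction ν with
  | zero =>
    intro c c' hc hc' S
    refine ⟨Fin.elim0, fun l => l.elim0, fun l => l.elim0, ?_, ?_⟩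
    · obtain ⟨θ, hθ⟩ := Function.ne_iff.mp hc
      simpa [Frame.tEval, Subsingleton.elim θ default] using hθ
    · obtain ⟨θ, hθ⟩ := Function.ne_iff.mp hc'
      simpa [Frame.tEval, Subsingleton.elim θ default] using hθ
  | succ ν ih =>
    intro c c' hc hc' S
    classical
    obtain ⟨θ, hθ⟩ := Function.ne_iff.mp hc
    obtain ⟨θ', hθ'⟩ := Function.ne_iff.mp hc'
    have ha : (fun s => c (Fin.cons s (Fin.tail θ))) ≠ 0 :=
      Function.ne_iff.mpr ⟨θ 0, by simpa [Fin.cons_self_tail] using hθ⟩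
    have ha' : (fun s => c' (Fin.cons s (Fin.tail θ'))) ≠ 0 :=
      Function.ne_iff.mpr ⟨θ' 0, by simpa [Fin.cons_self_tail] using hθ'⟩
    obtain ⟨P, hP⟩ := ((S.finite_toSet.union (Φ.finite_slice_zero ha)).union
      (Φ.finite_slice_zero ha')).exists_notMem
    simp only [Set.mem_union, Finset.mem_coe, Set.mem_ofPred_eq, not_or] at hP
    obtain ⟨T, hTS, hTi, hT1, hT2⟩ := ih (fun η => ∑ s, c (Fin.cons s η) * Φ.X n P s)
      (fun η => ∑ s, c' (Fin.cons s η) * Φ.X n' P s)
      (Function.ne_iff.mpr ⟨Fin.tail θ, hP.1.2⟩) (Function.ne_iff.mpr ⟨Fin.tail θ', hP.2⟩)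
      (insert P S)
    refine ⟨Fin.cons P T, fun l => ?_, ?_, by rw [Φ.tEval_cons]; exact hT1,
      by rw [Φ.tEval_cons]; exact hT2⟩
    · refine Fin.cases ?_ (fun i => ?_) l
      · exact hP.1.1
      · exact fun h => hTS i (Finset.mem_insert_of_mem (by simpa using h))
    · rw [Fin.cons_injective_iff]
      exact ⟨fun ⟨i, hi⟩ => hTS i (hi ▸ Finset.mem_insert_self P S), hTi⟩

/-- A tensor vanishing at all tuples avoiding a finite set is zero. -/
theorem Frame.eq_zero_of_tEval {ν n : ℕ} {c : (Fin ν → Fin (Φ.dim n)) → Qbar}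
    {S : Finset (Place Qbar F)}
    (h : ∀ T : Fin ν → Place Qbar F, (∀ l, T l ∉ S) → Φ.tEval c T = 0) : c = 0 := by
  by_contra hc
  obtain ⟨T, hT, -, hne, -⟩ := Φ.exists_tEval_ne_zero c c hc hc S
  exact hne (h T hT)

/-- The value of a Plücker vector is the determinant of values. -/
theorem Frame.tEval_plk {ν n : ℕ} (e : Fin ν → F) (he : ∀ i, e i ∈ riemannRochSpace (Φ.DO n))
    (T : Fin ν → Place Qbar F) :
    Φ.tEval (plk fun i => Φ.co n (e i)) T =
      Matrix.det (Matrix.of fun i l => ev (T l) (Φ.DO n (T l)) (e i)) := by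
  simp only [Frame.tEval, plk, Matrix.det_apply', Matrix.of_apply, Finset.sum_mul]
  rw [Finset.sum_comm]
  refine Finset.sum_congr rfl fun π _ => ?_
  simp only [Φ.ev_eq_sum n _ (he _), Finset.prod_univ_sum, Fintype.piFinset_univ, Finset.mul_sum,
    Finset.prod_mul_distrib, mul_assoc]

end Fermat.Agent.MW

end
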