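import Fermat.Agent.MW.Pairing
import Fermat.Agent.MW.Tensor

/-!
# The Kummer vector of a class: uniqueness and finite fibres

The Kummer vector of a class is the product of the Plücker vectors of `L(k m O - A)` and
`L(k m O - B)`, divided by `w` (see `KumData`). It determines the class up to finitely many
choices, so it carries the Northcott property.
-/

noncomputable section

open AlgebraicCurve Fermat.Agent.FF

namespace Fermat.Agent.MW

variable {F : Type*} [Field F] [Algebra Qbar F] [IsFunctionField Qbar F] (Φ : Frame Qbar F)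

variable (F) in
/-- The dimension `k m + 1 - d - g` of `L(k m O - A)`, for `A` of degree `d = dd F`, `m = mm F`
and `k = kk F`. -/
def nn : ℕ := kk F * mm F + 1 - dd F - gen Qbar F

variable (F) in
/-- The level `(2 k - 1) m` of the Kummer vector, that of the functions `e i * e' j / w`. -/
def nlev : ℕ := (2 * kk F - 1) * mm F

omit [IsFunctionField Qbar F] in
theorem nn_pos : 1 ≤ nn F := by
  unfold nn kk mm dd
  have : 2 * gen Qbar F + 1 + gen Qbar F ≤
      (4 * (2 * gen Qbar F + 1) + 2) * (2 * (2 * gen Qbar F + 1)) := by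
    nlinarith
  omega

omit [IsFunctionField Qbar F] in
theorem kk_mm_big : 4 * dd F + 2 * gen Qbar F + 2 ≤ kk F * mm F := by
  unfold kk mm dd
  nlinarith

omit [IsFunctionField Qbar F] in
theorem nlev_add : nlev F + mm F = kk F * mm F + kk F * mm F := by
  have : 1 ≤ 2 * kk F := by unfold kk; omega
  unfold nlev
  rw [Nat.sub_mul, ← add_mul, one_mul]
  have h2 : mm F ≤ (kk F + kk F) * mm F := Nat.le_mul_of_pos_left _ (by omega)
  rw [show 2 * kk F = kk F + kk F by ring]
  omega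

/-- Data computing the Kummer vector of `z`. -/
structure KumData (z : Pic0 Qbar F) where
  /-- an effective divisor of degree `d = dd F` with `A - d O` in the class `-z` -/
  A : Multiset (Place Qbar F)
  /-- an effective divisor of degree `d` with `B - d O` in the class `z` -/
  B : Multiset (Place Qbar F)
  /-- the function with divisor `A + B - m O`, `m = mm F` -/
  w : F
  /-- a basis of `L(k m O - A)`, `k = kk F` -/
  e : Fin (nn F) → F
  /-- a basis of `L(k m O - B)` -/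
  e' : Fin (nn F) → F
  cardA : A.card = dd F
  cardB : B.card = dd F
  repA : ∀ D : Divisor.degZero (K := Qbar) (F := F), Pic0.mk D = z →
    LinEq (D : Divisor Qbar F) (Φ.DO (dd F) - msDiv A)
  repB : ∀ D : Divisor.degZero (K := Qbar) (F := F), Pic0.mk D = z →
    LinEq (D : Divisor Qbar F) (msDiv B - Φ.DO (dd F))
  w_ne : w ≠ 0
  w_div : msDiv (A + B) = Φ.DO (mm F) + divOf w
  e_mem : ∀ i, e i ∈ riemannRochSpace (Φ.DO (kk F * mm F) - msDiv A)
  e'_mem : ∀ i, e' i ∈ riemannRochSpace (Φ.DO (kk F * mm F) - msDiv B)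
  e_li : LinearIndependent Qbar fun i => Φ.co (kk F * mm F) (e i)
  e'_li : LinearIndependent Qbar fun i => Φ.co (kk F * mm F) (e' i)

variable {Φ}

namespace KumData

variable {z : Pic0 Qbar F} (d : KumData Φ z)

theorem e_memDO (i : Fin (nn F)) : d.e i ∈ riemannRochSpace (Φ.DO (kk F * mm F)) :=
  Φ.sub_msDiv_le _ d.A (d.e_mem i)

theorem e'_memDO (i : Fin (nn F)) : d.e' i ∈ riemannRochSpace (Φ.DO (kk F * mm F)) :=
  Φ.sub_msDiv_le _ d.B (d.e'_mem i)

theorem w_mem : d.w ∈ riemannRochSpace (Φ.DO (mm F)) := Φ.mem_of_msDiv_eq d.w_ne d.w_div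

theorem u_mem (i j : Fin (nn F)) :
    d.e i * d.e' j / d.w ∈ riemannRochSpace (Φ.DO (nlev F)) := by
  rcases eq_or_ne (d.e i) 0 with h | hi
  · simp [h]
  rcases eq_or_ne (d.e' j) 0 with h | hj
  · simp [h]
  rw [mem_rrSpace_of_ord (div_ne_zero (mul_ne_zero hi hj) d.w_ne)]
  intro v
  have h1 := (mem_rrSpace_of_ord hi).mp (d.e_mem i) v
  have h2 := (mem_rrSpace_of_ord hj).mp (d.e'_mem j) v
  have h3 := DFunLike.congr_fun d.w_div v
  rw [msDiv_add, Finsupp.add_apply, Finsupp.add_apply, divOf_apply] at h3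
  have h4 := DFunLike.congr_fun
    (congrArg (fun n : ℕ => Φ.DO n) (nlev_add (F := F))) v
  simp only [← Φ.DO_add, Finsupp.add_apply] at h4
  rw [Finsupp.sub_apply] at h1 h2
  rw [ord_div v (mul_ne_zero hi hj) d.w_ne, v.ord_mul hi hj]
  omega

/-- The Kummer vector: the Plücker vectors of `e` and `e'` multiplied, divided by `w`, as a tensor
of coordinates of level `nlev F`. -/
def vec : (Fin (nn F) → Fin (Φ.dim (nlev F))) → Qbar := fun θ =>
  ∑ σ : Equiv.Perm (Fin (nn F)), ∑ σ' : Equiv.Perm (Fin (nn F)),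
    ((Equiv.Perm.sign σ : ℤ) : Qbar) * ((Equiv.Perm.sign σ' : ℤ) : Qbar) *
      ∏ l, Φ.co (nlev F) (d.e (σ l) * d.e' (σ' l) / d.w) (θ l)

theorem tEval_vec (T : Fin (nn F) → Place Qbar F) :
    Φ.tEval d.vec T * ∏ l, ev (T l) (Φ.DO (mm F) (T l)) d.w =
      Φ.tEval (plk fun i => Φ.co (kk F * mm F) (d.e i)) T *
        Φ.tEval (plk fun i => Φ.co (kk F * mm F) (d.e' i)) T := by
  have hu : ∀ i j (P : Place Qbar F),
      (∑ t, Φ.co (nlev F) (d.e i * d.e' j / d.w) t * Φ.X (nlev F) P t) *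
          ev P (Φ.DO (mm F) P) d.w =
        ev P (Φ.DO (kk F * mm F) P) (d.e i) * ev P (Φ.DO (kk F * mm F) P) (d.e' j) := by
    intro i j P
    have h4 := DFunLike.congr_fun (congrArg (fun n : ℕ => Φ.DO n) (nlev_add (F := F))) P
    simp only [← Φ.DO_add, Finsupp.add_apply] at h4
    rw [← Φ.ev_eq_sum _ P (d.u_mem i j), ← ev_mul P (d.u_mem i j P) (d.w_mem P),
      ← ev_mul P (d.e_memDO i P) (d.e'_memDO j P), h4, div_mul_cancel₀ _ d.w_ne]
  rw [Φ.tEval_plk _ d.e_memDO, Φ.tEval_plk _ d.e'_memDO, Matrix.det_apply', Matrix.det_apply',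
    Finset.sum_mul_sum]
  simp only [Frame.tEval, vec, Finset.sum_mul]
  rw [Finset.sum_comm]
  refine Finset.sum_congr rfl fun σ _ => ?_
  rw [Finset.sum_comm]
  refine Finset.sum_congr rfl fun σ' _ => ?_
  simp only [Matrix.of_apply, mul_assoc, ← Finset.mul_sum]
  congr 1
  rw [mul_left_comm (∏ l, ev _ _ _) ((Equiv.Perm.sign σ' : ℤ) : Qbar), ← Finset.prod_mul_distrib]
  congr 1
  simp only [← hu, Finset.prod_mul_distrib, Finset.prod_univ_sum, Fintype.piFinset_univ,
    Finset.sum_mul, mul_assoc]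

/-- The Kummer vector is nonzero. -/
theorem vec_ne_zero : d.vec ≠ 0 := by
  classical
  obtain ⟨T, -, -, h1, h2⟩ :=
    Φ.exists_tEval_ne_zero _ _ (plk_ne_zero d.e_li) (plk_ne_zero d.e'_li) ∅
  intro h0
  have := d.tEval_vec T
  rw [h0] at this
  simp [Frame.tEval] at this
  exact this.elim h1 h2

end KumData

theorem Frame.exists_basis_functions (Φ : Frame Qbar F) {A : Multiset (Place Qbar F)}
    (hA : A.card = dd F) :
    ∃ e : Fin (nn F) → F, (∀ i, e i ∈ riemannRochSpace (Φ.DO (kk F * mm F) - msDiv A)) ∧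
      LinearIndependent Qbar fun i => Φ.co (kk F * mm F) (e i) := by
  have h := Φ.finrank_VK (mm F) (kk F) (E := A) (by have := kk_mm_big (F := F); omega)
  have hn : Module.finrank Qbar (Φ.VK (mm F) (kk F) A) = nn F := by unfold nn; omega
  set b := Module.finBasisOfFinrankEq Qbar (Φ.VK (mm F) (kk F) A) hn
  choose e he hco using fun i => (b i).2
  refine ⟨e, he, ?_⟩
  simp only [hco]
  exact b.linearIndependent.map' (Φ.VK (mm F) (kk F) A).subtype (Submodule.ker_subtype _)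

/-- Every class has data computing its Kummer vector, avoiding a given finite set of places. -/
theorem Frame.exists_kumData (Φ : Frame Qbar F) (z : Pic0 Qbar F) (S : Finset (Place Qbar F)) :
    ∃ d : KumData Φ z, (d.A + d.B).Nodup ∧ ∀ v ∈ S, v ∉ d.A + d.B := by
  classical
  obtain ⟨D, rfl⟩ := Pic0.mk_surjective z
  have hD := Divisor.mem_degZero.mp D.2
  obtain ⟨A, hA, hAn, hAS⟩ := exists_reduced_avoiding (D := Φ.DO (dd F) - (D : Divisor Qbar F))
    (by rw [map_sub, Φ.degree_DO, hD]; unfold dd; push_cast; omega) S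
  obtain ⟨B, hB, hBn, hBS⟩ := exists_reduced_avoiding (D := Φ.DO (dd F) + (D : Divisor Qbar F))
    (by rw [map_add, Φ.degree_DO, hD]; unfold dd; push_cast; omega) (S ∪ A.toFinset)
  have hAc : A.card = dd F := by
    have := hA.degree_eq
    rw [degree_msDiv, map_sub, Φ.degree_DO, hD] at this
    omega
  have hBc : B.card = dd F := by
    have := hB.degree_eq
    rw [degree_msDiv, map_add, Φ.degree_DO, hD] at this
    omega
  obtain ⟨w, hw0, hw⟩ : LinEq (msDiv (A + B)) (Φ.DO (mm F)) := by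
    have := hA.add hB
    rw [sub_add_add_cancel, Φ.DO_add] at this
    rwa [msDiv_add, show mm F = dd F + dd F by unfold mm; omega]
  obtain ⟨e, he, hel⟩ := Φ.exists_basis_functions hAc
  obtain ⟨e', he', he'l⟩ := Φ.exists_basis_functions hBc
  refine ⟨⟨A, B, w, e, e', hAc, hBc, fun D' hD' => ?_, fun D' hD' => ?_, hw0, hw, he, he', hel,
    he'l⟩, ?_, fun v hv => ?_⟩
  · refine (mk_eq_mk_iff_linEq.mp hD').trans ?_
    have h2 := (LinEq.refl (Φ.DO (dd F))).sub hA
    rw [sub_sub_cancel] at h2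
    exact h2.symm
  · refine (mk_eq_mk_iff_linEq.mp hD').trans ?_
    have := (hB.sub (LinEq.refl (Φ.DO (dd F)))).symm
    rwa [add_sub_cancel_left] at this
  · rw [Multiset.nodup_add]
    refine ⟨hAn, hBn, Multiset.disjoint_left.mpr fun {v} hvA hvB => ?_⟩
    exact hBS v (Finset.mem_union_right _ (Multiset.mem_toFinset.mpr hvA)) hvB
  · rw [Multiset.mem_add, not_or]
    exact ⟨hAS v hv, hBS v (Finset.mem_union_left _ hv)⟩

/-- Replacing `A` by a linearly equivalent `A + div f` multiplies the values of the Plücker vector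
at a tuple by a constant and the values of `f`. -/
theorem Frame.exists_plk_change (Φ : Frame Qbar F) {A A' : Multiset (Place Qbar F)} {f : F}
    (hf : f ≠ 0) (hA : A.card = dd F) (hA' : msDiv A' = msDiv A + divOf f)
    {e e' : Fin (nn F) → F}
    (he : ∀ i, e i ∈ riemannRochSpace (Φ.DO (kk F * mm F) - msDiv A))
    (he' : ∀ i, e' i ∈ riemannRochSpace (Φ.DO (kk F * mm F) - msDiv A'))
    (hel : LinearIndependent Qbar fun i => Φ.co (kk F * mm F) (e i))
    (hel' : LinearIndependent Qbar fun i => Φ.co (kk F * mm F) (e' i)) :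
    ∃ c : Qbar, c ≠ 0 ∧ ∀ T : Fin (nn F) → Place Qbar F, (∀ l, (T l).ord f = 0) →
      Φ.tEval (plk fun i => Φ.co (kk F * mm F) (e' i)) T =
        c * (∏ l, ev (T l) 0 f) * Φ.tEval (plk fun i => Φ.co (kk F * mm F) (e i)) T := by
  classical
  have hmem : ∀ i, f * e i ∈ riemannRochSpace (Φ.DO (kk F * mm F) - msDiv A') := fun i => by
    have := mul_mem_rrSpace (z := f) _ (he i)
    rwa [hA', ← sub_sub]
  have hA'c : A'.card = dd F := by
    have := congrArg Divisor.degree hA'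
    rw [degree_msDiv, map_add, degree_msDiv, degree_divOf, add_zero] at this
    omega
  have hli : LinearIndependent Qbar fun i => Φ.co (kk F * mm F) (f * e i) := by
    rw [Fintype.linearIndependent_iff] at hel ⊢
    intro g hg
    refine hel g ?_
    have hin : ∀ (e₀ : Fin (nn F) → F) (B : Multiset (Place Qbar F)),
        (∀ i, e₀ i ∈ riemannRochSpace (Φ.DO (kk F * mm F) - msDiv B)) →
        ∑ i, g i • e₀ i ∈ riemannRochSpace (Φ.DO (kk F * mm F)) := fun e₀ B h =>
      Submodule.sum_mem _ fun i _ => Submodule.smul_mem _ _ (Φ.sub_msDiv_le _ B (h i))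
    have h0 : ∑ i, g i • (f * e i) = 0 := by
      rw [← Φ.co_eq_zero_iff _ (hin _ A' hmem), map_sum]
      simpa [map_smul] using hg
    simp only [← mul_smul_comm, ← Finset.mul_sum] at h0
    have h1 := congrArg (Φ.co (kk F * mm F)) ((mul_eq_zero.mp h0).resolve_left hf)
    simpa [map_sum, map_smul] using h1
  have hfin : Module.finrank Qbar (Φ.VK (mm F) (kk F) A') = nn F := by
    have h := Φ.finrank_VK (mm F) (kk F) (E := A') (by have := kk_mm_big (F := F); omega)
    unfold nn; omega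
  obtain ⟨c, hc, h⟩ := plk_eq_smul (e := fun i => Φ.co (kk F * mm F) (f * e i)) hel' fun i => by
    rw [span_range_eq_of_finrank hli (fun j => Φ.coord_mem _ _ (hmem j)) hfin]
    exact Φ.coord_mem _ _ (he' i)
  refine ⟨c, hc, fun T hT => ?_⟩
  have h2 : Φ.tEval (plk fun i => Φ.co (kk F * mm F) (e' i)) T =
      c * Φ.tEval (plk fun i => Φ.co (kk F * mm F) (f * e i)) T := by
    rw [h]
    simp [Frame.tEval, Finset.mul_sum, mul_assoc]
  rw [h2, Φ.tEval_plk _ (fun i => Φ.sub_msDiv_le _ A' (hmem i)),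
    Φ.tEval_plk _ (fun i => Φ.sub_msDiv_le _ A (he i)), mul_assoc, ← Matrix.det_mul_row]
  congr 2
  ext i l
  simp only [Matrix.of_apply]
  have hf0 : f ∈ poleLe (T l) 0 := (mem_poleLe_of_ne _ hf).mpr (by rw [hT l]; simp)
  rw [← ev_mul (T l) hf0 (Φ.sub_msDiv_le _ A (he i) (T l)), zero_add]

/-- The Kummer vector is well defined up to a scalar. -/
theorem KumData.exists_smul_eq {z : Pic0 Qbar F} (d d' : KumData Φ z) :
    ∃ c : Qbar, c ≠ 0 ∧ d'.vec = c • d.vec := by
  classical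
  obtain ⟨D, hD⟩ := Pic0.mk_surjective z
  obtain ⟨f, hf, hfA⟩ : LinEq (msDiv d'.A) (msDiv d.A) := by
    have h := (LinEq.refl (Φ.DO (dd F))).sub ((d'.repA D hD).symm.trans (d.repA D hD))
    rwa [sub_sub_cancel, sub_sub_cancel] at h
  obtain ⟨f', hf', hfB⟩ : LinEq (msDiv d'.B) (msDiv d.B) := by
    have h := ((d'.repB D hD).symm.trans (d.repB D hD)).add (LinEq.refl (Φ.DO (dd F)))
    rwa [sub_add_cancel, sub_add_cancel] at h
  obtain ⟨a, ha, hA⟩ := Φ.exists_plk_change hf d.cardA hfA d.e_mem d'.e_mem d.e_li d'.e_li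
  obtain ⟨b, hb, hB⟩ := Φ.exists_plk_change hf' d.cardB hfB d.e'_mem d'.e'_mem d.e'_li d'.e'_li
  have hff : d.w * (f * f') ≠ 0 := mul_ne_zero d.w_ne (mul_ne_zero hf hf')
  obtain ⟨κ, hκ⟩ : ∃ κ : Qbar, d'.w = algebraMap Qbar F κ * (d.w * (f * f')) := by
    have h0 : divOf (K := Qbar) (d'.w / (d.w * (f * f'))) = 0 := by
      rw [div_eq_mul_inv, divOf_mul d'.w_ne (inv_ne_zero hff), divOf_inv,
        divOf_mul d.w_ne (mul_ne_zero hf hf'), divOf_mul hf hf']
      have h1 := d'.w_div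
      rw [msDiv_add, hfA, hfB] at h1
      have h2 := d.w_div
      rw [msDiv_add] at h2
      linear_combination (norm := abel) h2 - h1
    obtain ⟨κ, hκ⟩ := mem_range_of_ord_nonneg (K := Qbar) (f := d'.w / (d.w * (f * f')))
      fun v => by
        have := DFunLike.congr_fun h0 v
        rw [divOf_apply] at this
        simp [this]
    exact ⟨κ, by rw [hκ, div_mul_cancel₀ _ hff]⟩
  have hκ0 : κ ≠ 0 := fun h => d'.w_ne (by simp [hκ, h])
  refine ⟨a * b / κ ^ nn F, by positivity, ?_⟩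
  rw [← sub_eq_zero]
  set S : Finset (Place Qbar F) := (finite_ord_ne_zero (K := Qbar) f).toFinset ∪
    (finite_ord_ne_zero (K := Qbar) f').toFinset ∪ (finite_ord_ne_zero (K := Qbar) d.w).toFinset ∪
    (Φ.DO (mm F)).support with hS
  refine Φ.eq_zero_of_tEval (S := S) fun T hT => ?_
  simp only [hS, Finset.mem_union, Set.Finite.mem_toFinset, Set.mem_ofPred_eq, not_or, not_not,
    Finsupp.mem_support_iff] at hT
  have hlin : Φ.tEval (d'.vec - (a * b / κ ^ nn F) • d.vec) T =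
      Φ.tEval d'.vec T - a * b / κ ^ nn F * Φ.tEval d.vec T := by
    simp only [Frame.tEval, Pi.sub_apply, Pi.smul_apply, smul_eq_mul, sub_mul,
      Finset.sum_sub_distrib, Finset.mul_sum, mul_assoc]
  rw [hlin, sub_eq_zero]
  have e1 := d.tEval_vec T
  have e2 := d'.tEval_vec T
  rw [hA T fun l => (hT l).1.1.1, hB T fun l => (hT l).1.1.2] at e2
  have hw : ∀ l, ev (T l) (Φ.DO (mm F) (T l)) d'.w =
      κ * (ev (T l) (Φ.DO (mm F) (T l)) d.w * (ev (T l) 0 f * ev (T l) 0 f')) := fun l => by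
    obtain ⟨⟨⟨h1, h2⟩, h3⟩, h4⟩ := hT l
    have hp : ∀ {g : F}, g ≠ 0 → (T l).ord g = 0 → g ∈ poleLe (T l) 0 := fun hg h =>
      (mem_poleLe_of_ne _ hg).mpr (by rw [h]; simp)
    rw [hκ, ← Algebra.smul_def]
    have hm2 := mul_mem_poleLe (T l) (hp hf h1) (hp hf' h2)
    have hm3 := mul_mem_poleLe (T l) (d.w_mem (T l)) hm2
    simp only [add_zero] at hm2 hm3
    rw [ev_smul (T l) κ hm3]
    congr 1
    have h5 := ev_mul (T l) (d.w_mem (T l)) hm2
    have h6 := ev_mul (T l) (hp hf h1) (hp hf' h2)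
    rw [add_zero] at h5 h6
    rw [h5, h6]
  simp only [hw, Finset.prod_mul_distrib, Finset.prod_const, Finset.card_univ,
    Fintype.card_fin] at e2
  have hne : ∀ l, ev (T l) (Φ.DO (mm F) (T l)) d.w ≠ 0 ∧ ev (T l) 0 f ≠ 0 ∧ ev (T l) 0 f' ≠ 0 :=
    fun l => by
    obtain ⟨⟨⟨h1, h2⟩, h3⟩, h4⟩ := hT l
    refine ⟨Φ.ev_ne_zero_of_ord d.w_mem d.w_ne h4 h3, ?_, ?_⟩
    · rw [ev_ne_zero_iff _ ((mem_poleLe_of_ne _ hf).mpr (by rw [h1]; simp)) hf, h1]; rfl
    · rw [ev_ne_zero_iff _ ((mem_poleLe_of_ne _ hf').mpr (by rw [h2]; simp)) hf', h2]; rfl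
  have hW : (∏ l, ev (T l) (Φ.DO (mm F) (T l)) d.w) ≠ 0 :=
    Finset.prod_ne_zero_iff.mpr fun l _ => (hne l).1
  have hF : (∏ l, ev (T l) 0 f) ≠ 0 := Finset.prod_ne_zero_iff.mpr fun l _ => (hne l).2.1
  have hF' : (∏ l, ev (T l) 0 f') ≠ 0 := Finset.prod_ne_zero_iff.mpr fun l _ => (hne l).2.2
  rw [div_mul_eq_mul_div, eq_div_iff (pow_ne_zero _ hκ0)]
  refine mul_right_cancel₀ (mul_ne_zero hW (mul_ne_zero hF hF')) ?_
  linear_combination e2 - a * b * ((∏ l, ev (T l) 0 f) * (∏ l, ev (T l) 0 f')) * e1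

/-- Fixing all places but one, the value of a Plücker vector is the value of one function of
the space. -/
theorem Frame.exists_tEval_plk_update (Φ : Frame Qbar F) (T : Fin (nn F) → Place Qbar F) {μ : ℕ}
    (e0 : Fin (μ + 1) ≃ Fin (nn F)) {C : Multiset (Place Qbar F)} {e : Fin (nn F) → F}
    (he : ∀ i, e i ∈ riemannRochSpace (Φ.DO (kk F * mm F) - msDiv C)) :
    ∃ eA : F, eA ∈ riemannRochSpace (Φ.DO (kk F * mm F) - msDiv C) ∧
      ∀ P, Φ.tEval (plk fun i => Φ.co (kk F * mm F) (e i)) (Function.update T (e0 0) P) =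
        ev P (Φ.DO (kk F * mm F) P) eA := by
  classical
  set cof : Fin (μ + 1) → Qbar := fun i => (-1 : Qbar) ^ (i : ℕ) *
    Matrix.det (Matrix.of fun a b : Fin μ =>
      ev (T (e0 b.succ)) (Φ.DO (kk F * mm F) (T (e0 b.succ))) (e (e0 (i.succAbove a))))
  refine ⟨∑ i, cof i • e (e0 i),
    Submodule.sum_mem _ fun i _ => Submodule.smul_mem _ _ (he _), fun P => ?_⟩
  have heD := fun i => Φ.sub_msDiv_le _ C (he i)
  rw [Φ.tEval_plk _ heD, ← Matrix.det_submatrix_equiv_self e0, Matrix.det_succ_column_zero]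
  have h1 := map_sum (evL P (Φ.DO (kk F * mm F)))
    (fun i => cof i • (⟨e (e0 i), heD _⟩ : riemannRochSpace (Φ.DO (kk F * mm F)))) Finset.univ
  simp only [map_smul, smul_eq_mul] at h1
  simp only [evL, LinearMap.coe_mk, AddHom.coe_mk, Submodule.coe_sum, Submodule.coe_smul] at h1
  rw [h1]
  refine Finset.sum_congr rfl fun i _ => ?_
  simp only [Matrix.submatrix_apply, Matrix.of_apply, Function.update_self, cof]
  rw [mul_right_comm]
  congr 2
  refine congrArg Matrix.det (Matrix.ext fun a b => ?_)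
  simp

/-- A coordinate function with the other places fixed is the value of a function at level
`nlev F`. -/
theorem Frame.exists_tEval_update (Φ : Frame Qbar F)
    (v : (Fin (nn F) → Fin (Φ.dim (nlev F))) → Qbar) (T : Fin (nn F) → Place Qbar F) {μ : ℕ}
    (e0 : Fin (μ + 1) ≃ Fin (nn F)) :
    ∃ g0 ∈ riemannRochSpace (Φ.DO (nlev F)), ∀ P,
      Φ.tEval v (Function.update T (e0 0) P) = ev P (Φ.DO (nlev F) P) g0 := by
  classical
  set vs : Fin (Φ.dim (nlev F)) → Qbar := fun s =>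
    ∑ θ ∈ Finset.univ.filter (fun θ : Fin (nn F) → Fin (Φ.dim (nlev F)) => θ (e0 0) = s),
      v θ * ∏ i : Fin μ, Φ.X (nlev F) (T (e0 i.succ)) (θ (e0 i.succ))
  set g0 : F := ∑ s, vs s • Φ.fn (nlev F) s
  have hg0mem : g0 ∈ riemannRochSpace (Φ.DO (nlev F)) :=
    Submodule.sum_mem _ fun s _ => Submodule.smul_mem _ _ (Φ.fn_mem _ s)
  have hsplit : ∀ (f : Fin (nn F) → Qbar), ∏ l, f l = f (e0 0) * ∏ i : Fin μ, f (e0 i.succ) :=
    fun f => by rw [← e0.prod_comp, Fin.prod_univ_succ]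
  refine ⟨g0, hg0mem, fun P => ?_⟩
  rw [Φ.ev_eq_sum _ P hg0mem]
  have hco : Φ.co (nlev F) g0 = vs := by
    simp only [g0, map_sum, map_smul, Φ.co_fn]
    exact (pi_eq_sum_univ' vs).symm
  simp only [hco, vs, Frame.tEval, Finset.sum_mul]
  rw [← Finset.sum_fiberwise Finset.univ (fun θ : Fin (nn F) → Fin (Φ.dim (nlev F)) => θ (e0 0))]
  refine Finset.sum_congr rfl fun s _ => Finset.sum_congr rfl fun θ hθ => ?_
  rw [hsplit, ← (Finset.mem_filter.mp hθ).2, Function.update_self,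
    Finset.prod_congr rfl fun i _ => by
      rw [Function.update_of_ne (e0.injective.ne (Fin.succ_ne_zero i))]]
  ring

omit [IsFunctionField Qbar F] in
/-- `nlev + m = 2 k m`, read on the multiples of `O` at one place. -/
theorem Frame.DO_nlev_add (Φ : Frame Qbar F) (P : Place Qbar F) :
    Φ.DO (nlev F) P + Φ.DO (mm F) P = Φ.DO (kk F * mm F) P + Φ.DO (kk F * mm F) P := by
  have h4 := DFunLike.congr_fun (congrArg (fun n : ℕ => Φ.DO n) (nlev_add (F := F))) P
  simpa only [← Φ.DO_add, Finsupp.add_apply] using h4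

/-- Functions at level `nlev F + mm F` with proportional values are proportional. -/
theorem Frame.smul_mul_eq_mul (Φ : Frame Qbar F) {a : Qbar} {g0 w eA eB : F}
    (hg0mem : g0 ∈ riemannRochSpace (Φ.DO (nlev F)))
    (hwmem : w ∈ riemannRochSpace (Φ.DO (mm F)))
    (heA : eA ∈ riemannRochSpace (Φ.DO (kk F * mm F)))
    (heB : eB ∈ riemannRochSpace (Φ.DO (kk F * mm F)))
    (hrel : ∀ P, a * (ev P (Φ.DO (nlev F) P) g0 * ev P (Φ.DO (mm F) P) w) =
      ev P (Φ.DO (kk F * mm F) P) eA * ev P (Φ.DO (kk F * mm F) P) eB) :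
    a • (g0 * w) = eA * eB := by
  classical
  have hm1 : g0 * w ∈ riemannRochSpace (Φ.DO (nlev F + mm F)) := by
    rw [← Φ.DO_add]; exact mul_mem_rrSpace_add hg0mem hwmem
  have hm2 : eA * eB ∈ riemannRochSpace (Φ.DO (nlev F + mm F)) := by
    rw [nlev_add, ← Φ.DO_add]
    exact mul_mem_rrSpace_add heA heB
  by_contra hne
  have hm : a • (g0 * w) - eA * eB ∈ riemannRochSpace (Φ.DO (nlev F + mm F)) :=
    sub_mem (Submodule.smul_mem _ _ hm1) hm2
  refine Set.infinite_univ ((Φ.finite_ev_zero hm (sub_ne_zero.mpr hne)).subset fun P _ => ?_)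
  show ev P _ _ = 0
  have h1 := (evL P (Φ.DO (nlev F + mm F))).map_sub (a • ⟨_, hm1⟩) ⟨_, hm2⟩
  rw [map_smul] at h1
  refine h1.trans ?_
  change a * ev P (Φ.DO (nlev F + mm F) P) (g0 * w) -
    ev P (Φ.DO (nlev F + mm F) P) (eA * eB) = 0
  have e3 : Φ.DO (nlev F + mm F) P = Φ.DO (nlev F) P + Φ.DO (mm F) P := by
    rw [← Φ.DO_add, Finsupp.add_apply]
  rw [e3, ev_mul P (hg0mem P) (hwmem P), Φ.DO_nlev_add P,
    ev_mul P (heA P) (heB P), ← hrel P]
  ring

/-- Only finitely many classes have a given Kummer vector. -/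
theorem Frame.finite_kum_fibre (Φ : Frame Qbar F)
    (v : (Fin (nn F) → Fin (Φ.dim (nlev F))) → Qbar) :
    {z : Pic0 Qbar F | ∃ (d : KumData Φ z) (c : Qbar), c ≠ 0 ∧ d.vec = c • v}.Finite := by
  classical
  by_cases hv : v = 0
  · refine Set.finite_empty.subset ?_
    rintro z ⟨d, c, -, h⟩
    exact d.vec_ne_zero (by rw [h, hv, smul_zero])
  obtain ⟨μ, hμ⟩ : ∃ μ, nn F = μ + 1 := ⟨nn F - 1, by have := nn_pos (F := F); omega⟩
  obtain ⟨T, -, -, hT, -⟩ := Φ.exists_tEval_ne_zero v v hv hv ∅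
  set e0 : Fin (μ + 1) ≃ Fin (nn F) := finCongr hμ.symm
  set T0 : Place Qbar F := T (e0 0)
  set T' : Multiset (Place Qbar F) := ofTup (fun i : Fin μ => T (e0 i.succ))
  have hsplit : ∀ (f : Fin (nn F) → Qbar), ∏ l, f l = f (e0 0) * ∏ i : Fin μ, f (e0 i.succ) :=
    fun f => by rw [← e0.prod_comp, Fin.prod_univ_succ]
  obtain ⟨g0, hg0mem, hgev⟩ := Φ.exists_tEval_update v T e0
  set Wg := msOf (Φ.DO (nlev F) + divOf g0)
  refine Set.Finite.subset (Set.Finite.biUnion (s := {R | R ∈ Wg.powerset})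
    (Multiset.finite_toSet _) (t := fun R =>
      {z | ∃ D, Pic0.mk D = z ∧ LinEq (D : Divisor Qbar F)
        (Φ.DO (dd F) - Φ.DO (kk F * mm F) + msDiv (T' + R))}) fun R _ => ?_) ?_
  · refine Set.Subsingleton.finite ?_
    rintro z ⟨D, rfl, h⟩ z' ⟨D', rfl, h'⟩
    exact mk_eq_mk_iff_linEq.mpr (h.trans h'.symm)
  rintro z ⟨d₀, c₀, hc₀, hd₀⟩
  obtain ⟨d, -, hdS⟩ := Φ.exists_kumData z (Finset.univ.image T)
  obtain ⟨b, hb, hbd⟩ := d₀.exists_smul_eq d
  set c := b * c₀
  have hc : c ≠ 0 := mul_ne_zero hb hc₀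
  have hd : d.vec = c • v := by rw [hbd, hd₀, smul_smul]
  have hd' : ∀ P, Φ.tEval d.vec (Function.update T (e0 0) P) = c * ev P (Φ.DO (nlev F) P) g0 :=
    fun P => by
    rw [hd, ← hgev P]
    simp [Frame.tEval, Finset.mul_sum, mul_assoc]
  have key := fun C e he => Φ.exists_tEval_plk_update T e0 (C := C) (e := e) he
  obtain ⟨eA, heA, hPA⟩ := key d.A d.e d.e_mem
  obtain ⟨eB, heB, hPB⟩ := key d.B d.e' d.e'_mem
  set κ := ∏ i : Fin μ, ev (T (e0 i.succ)) (Φ.DO (mm F) (T (e0 i.succ))) d.w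
  have hrel : ∀ P, c * ev P (Φ.DO (nlev F) P) g0 * (ev P (Φ.DO (mm F) P) d.w * κ) =
      ev P (Φ.DO (kk F * mm F) P) eA * ev P (Φ.DO (kk F * mm F) P) eB := fun P => by
    have := d.tEval_vec (Function.update T (e0 0) P)
    rw [hPA, hPB, hd', hsplit, Function.update_self,
      Finset.prod_congr rfl fun i _ => by
        rw [Function.update_of_ne (e0.injective.ne (Fin.succ_ne_zero i))]] at this
    exact this
  have hT0 : Φ.tEval v (Function.update T (e0 0) T0) ≠ 0 := by
    rwa [show Function.update T (e0 0) T0 = T from Function.update_eq_self _ _]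
  -- the product identity of functions
  have hg00 : g0 ≠ 0 := fun h => hT0 (by rw [hgev, h, ev_zero])
  have hDO := Φ.DO_nlev_add
  have hfeq : (c * κ) • (g0 * d.w) = eA * eB :=
    Φ.smul_mul_eq_mul hg0mem d.w_mem (Φ.sub_msDiv_le _ _ heA) (Φ.sub_msDiv_le _ _ heB) fun P => by
      rw [← hrel P]; ring
  have hne : ev T0 (Φ.DO (nlev F) T0) g0 ≠ 0 := by rw [← hgev]; exact hT0
  -- the tail is distinct and avoids `A`, `B`
  have hmem : ∀ l, T l ∉ d.A ∧ T l ∉ d.B := fun l => by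
    simpa [not_or] using hdS (T l) (Finset.mem_image_of_mem _ (Finset.mem_univ l))
  have hwne : ∀ l, ev (T l) (Φ.DO (mm F) (T l)) d.w ≠ 0 := fun l => by
    rw [ev_ne_zero_iff _ (d.w_mem (T l)) d.w_ne]
    have h3 := DFunLike.congr_fun d.w_div (T l)
    rw [msDiv_add, Finsupp.add_apply, Finsupp.add_apply, divOf_apply,
      msDiv_apply_eq_zero.mpr (hmem l).1, msDiv_apply_eq_zero.mpr (hmem l).2] at h3
    linarith
  have hdne : Φ.tEval d.vec T ≠ 0 := by
    rw [hd]
    have : Φ.tEval (c • v) T = c * Φ.tEval v T := by simp [Frame.tEval, Finset.mul_sum, mul_assoc]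
    rw [this]
    exact mul_ne_zero hc hT
  have hdA : Φ.tEval (plk fun i => Φ.co (kk F * mm F) (d.e i)) T ≠ 0 := by
    intro h0
    have hW : (∏ l, ev (T l) (Φ.DO (mm F) (T l)) d.w) ≠ 0 :=
      Finset.prod_ne_zero_iff.mpr fun l _ => hwne l
    refine mul_ne_zero hdne hW ?_
    rw [d.tEval_vec T, h0, zero_mul]
  have hTinj : Function.Injective T := fun l₁ l₂ h => by
    by_contra hne'
    refine hdA ?_
    rw [Φ.tEval_plk _ d.e_memDO]
    exact Matrix.det_zero_of_column_eq hne' fun i => by simp [h]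
  have hAT0 : ev T0 (Φ.DO (kk F * mm F) T0) eA ≠ 0 := by
    rw [← hPA, show Function.update T (e0 0) T0 = T from Function.update_eq_self _ _]
    exact hdA
  have heA0 : eA ≠ 0 := fun h => hAT0 (by rw [h, ev_zero])
  have hrep : ∀ i : Fin μ, ev (T (e0 i.succ)) (Φ.DO (kk F * mm F) (T (e0 i.succ))) eA = 0 :=
    fun i => by
    rw [← hPA, Φ.tEval_plk _ d.e_memDO]
    have hne' := e0.injective.ne (Fin.succ_ne_zero i).symm
    exact Matrix.det_zero_of_column_eq hne' fun j => by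
      simp [Function.update_self]
  have hT'nd : T'.Nodup :=
    Finset.univ.nodup.map fun i j h => Fin.succ_injective _ (e0.injective (hTinj h))
  have hposA : 0 ≤ Φ.DO (kk F * mm F) + divOf eA - msDiv (d.A + T') := fun P => by
    have h1 := (mem_rrSpace_of_ord heA0).mp heA P
    have h0 := msDiv_nonneg d.A P
    simp only [Finsupp.coe_zero, Pi.zero_apply, Finsupp.sub_apply] at h1 h0 ⊢
    rw [msDiv_add, Finsupp.add_apply, Finsupp.add_apply, divOf_apply, msDiv_apply T' P]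
    by_cases hP : P ∈ T'
    · obtain ⟨i, rfl⟩ := mem_ofTup.mp hP
      have hA0 := msDiv_apply_eq_zero.mpr (hmem (e0 i.succ)).1
      have hc1 := Multiset.count_eq_one_of_mem hT'nd hP
      have h2 : ¬ (T (e0 i.succ)).ord eA = -(Φ.DO (kk F * mm F) (T (e0 i.succ))) := fun h =>
        (ev_ne_zero_iff _ (Φ.sub_msDiv_le _ _ heA _) heA0).mpr h (hrep i)
      rw [hc1, hA0]
      omega
    · rw [Multiset.count_eq_zero_of_notMem hP]
      omega
  have heB0 : eB ≠ 0 := fun h => by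
    rw [h, mul_zero, Algebra.smul_def] at hfeq
    exact mul_ne_zero ((map_ne_zero (algebraMap Qbar F)).mpr
      (mul_ne_zero hc (Finset.prod_ne_zero_iff.mpr fun i _ => hwne _)))
      (mul_ne_zero hg00 d.w_ne) hfeq
  set R := msOf (Φ.DO (kk F * mm F) + divOf eA - msDiv (d.A + T'))
  have hR : msDiv R = Φ.DO (kk F * mm F) + divOf eA - msDiv (d.A + T') := msDiv_msOf hposA
  have hWg : msDiv Wg = Φ.DO (nlev F) + divOf g0 := msDiv_msOf (neg_divOf_le hg00 hg0mem)
  have hRle : R ≤ Wg := by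
    refine Multiset.le_iff_count.mpr fun P => ?_
    have hκ : c * κ ≠ 0 := mul_ne_zero hc (Finset.prod_ne_zero_iff.mpr fun i _ => hwne _)
    have hdiv : divOf (K := Qbar) eA + divOf eB = divOf g0 + divOf d.w := by
      rw [← divOf_mul heA0 heB0, ← divOf_mul hg00 d.w_ne, ← hfeq, Algebra.smul_def,
        divOf_mul ((map_ne_zero _).mpr hκ) (mul_ne_zero hg00 d.w_ne),
        show divOf (K := Qbar) (algebraMap Qbar F (c * κ)) = 0 from
          Finsupp.ext fun v => ord_algebraMap v _, zero_add]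
    have h1 := DFunLike.congr_fun hR P
    have h2 := DFunLike.congr_fun hWg P
    have h3 := DFunLike.congr_fun d.w_div P
    have h4 := DFunLike.congr_fun hdiv P
    have h5 := (mem_rrSpace_of_ord heB0).mp heB P
    have h6 := hDO P
    simp only [msDiv_add, Finsupp.add_apply, Finsupp.sub_apply, divOf_apply, msDiv_apply]
      at h1 h2 h3 h4 h5
    omega
  simp only [Set.mem_iUnion, Set.mem_ofPred_eq, exists_prop]
  refine ⟨R, Multiset.mem_powerset.mpr hRle, ?_⟩
  obtain ⟨D, hD⟩ := Pic0.mk_surjective z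
  refine ⟨D, hD, (d.repA D hD).trans ?_⟩
  refine ⟨eA⁻¹, inv_ne_zero heA0, ?_⟩
  rw [divOf_inv, msDiv_add, hR, msDiv_add]
  abel

end Fermat.Agent.MW

end
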